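/-
PROJECT R (S43), block G, brick C1 (= S34', the `X₁`-twin of S34's `X₀` instance layer), helper7:
**(FIB) and `nc_β` / `nc_α`, GENERIC IN THE LEVEL** — the hypothesis-first core of the twins of
`S34/Generic/{FibAlphaX0, FibBetaX0, NcBetaX0}`.

The three `X₀` files use the level only through ONE power basis: `E` a function field over
`F` (both over `ℚ̄`), `j ∈ F`, `pb : PowerBasis F E` with `minpoly F pb.gen = Φ_q(X, j)`
(`Φ_q = modPolyZ q`, Kronecker's congruence `Φ_q ≡ (X - Y^q)(X^q - Y)` mod `q`).  Everything else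
(`spec`, Kronecker's shape, `congr_spec`, `SimpleRootLift`) is level-free and imported from main.

* `mem_of_value` : a function with a finite value at a place is regular there;
* `minpoly_spec` : the minimal polynomial with coefficients in `O_{PM}`;
* `exists_type_place` : **(FIB)**: over a place `PM` of `F` with integral GENERIC `j`-value `c ∈ A`
  (`c̄^(q²) ≠ c̄`) there is exactly one place of `E` at which the value of `pb.gen` reduces to `c̄^q`;
  it is unramified over `PM`;
* `exists_value_of_restrict` : the dichotomy `(x̄' - c̄^q)(x̄'^q - c̄) = 0` at every place over `PM`;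
* `exists_type_place_along`, `exists_value_of_restrict_along` : the same along an integral
  `φ : F →ₐ[ℚ̄] E` (the Prelude's `restrictAlong` / `ramificationIndexAlong`);
* `IntegralVal`, `integralVal_of_along` : an `A`-integral `j`-value below along `φ` gives an
  `A`-integral `j`-value below along `ψ`, when `pb.gen = ψ j`;
* `nc_of_along` : the field `nc_β` (resp. `nc_α`) of `Dich.DichHyp`, abstractly.
-/
import Mathlib
import Fermat.Agent.S34.Generic.FibAlphaX0
import Fermat.Agent.S34.Generic.RestrAlong

set_option autoImplicit false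
set_option linter.unusedSectionVars false

noncomputable section

namespace Fermat.Agent.S43.LG1.C1.Generic.FibGen

open Polynomial AlgebraicCurve IsLocalRing
open Fermat.Agent.S34.TwoGaussX0 Fermat.Agent.S24.Ord Fermat.Agent.S34.SimpleRootLift
  Fermat.Agent.S34.Generic.FibAlphaX0 Fermat.Agent.S34.Generic.RestrAlong

local notation "Kb" => AlgebraicClosure ℚ

variable {q : ℕ} [hq : Fact q.Prime] {A : ValuationSubring Kb}
variable {F : Type*} [Field F] [Algebra Kb F] {E : Type*} [Field E] [Algebra Kb E]

/-- a function with a finite value at a place is regular there -/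
theorem mem_of_value {PM : Place Kb F} {j : F} {c : Kb}
    (hj : PM.adicValuation (j - algebraMap Kb F c) < 1) : j ∈ PM.toValuationSubring := by
  have h1 : j - algebraMap Kb F c ∈ PM.toValuationSubring := (mem_iff PM _).mpr hj.le
  have : j = (j - algebraMap Kb F c) + algebraMap Kb F c := by ring
  rw [this]
  exact PM.toValuationSubring.add_mem _ _ h1 (PM.algebraMap_mem' c)

section Tower

variable [Algebra F E] [IsScalarTower Kb F E] [Algebra.IsIntegral F E]

/-- `Φ_q(X, j)` with coefficients in `O_{PM}` is the minimal polynomial of `pb.gen` -/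
theorem minpoly_spec {j : F} (pb : PowerBasis F E)
    (hmin : minpoly F pb.gen = spec (modPolyZ q) j) {PM : Place Kb F}
    (jP : ↥PM.toValuationSubring) (hjP : (jP : F) = j) :
    minpoly F pb.gen = (spec (modPolyZ q) jP).map (algebraMap ↥PM.toValuationSubring F) := by
  rw [hmin, map_spec]
  rw [show algebraMap ↥PM.toValuationSubring F jP = j from hjP]

/-- **(FIB), generic in the level**: over a place `PM` of `F` with integral generic `j`-value
there is exactly one place of `E` at which the value of `pb.gen` reduces to `c̄^q`; it is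
unramified over `PM`. -/
theorem exists_type_place (hA : A.LiesOverPrime q) {j : F} (pb : PowerBasis F E)
    (hmin : minpoly F pb.gen = spec (modPolyZ q) j) (PM : Place Kb F) (c : ↥A)
    (hj : PM.adicValuation (j - algebraMap Kb F (c : Kb)) < 1)
    (hgen : residue ↥A c ^ (q ^ 2) ≠ residue ↥A c) :
    ∃ P : Place Kb E, P.restrict F = PM ∧ Place.ramificationIndex (F := F) P = 1 ∧
      (∀ g : F, P.ord (algebraMap F E g) = PM.ord g) ∧
      (∃ x : ↥A, residue ↥A x = residue ↥A c ^ q ∧
        P.adicValuation (pb.gen - algebraMap Kb E (x : Kb)) < 1) ∧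
      ∀ P' : Place Kb E, P'.restrict F = PM →
        (∃ x' : ↥A, residue ↥A x' = residue ↥A c ^ q ∧
          P'.adicValuation (pb.gen - algebraMap Kb E (x' : Kb)) < 1) → P' = P := by
  have : CharP (ResidueField ↥A) q := Fermat.Agent.S18.ResidueBasics.charP_residueField A hA
  set jP : ↥PM.toValuationSubring := ⟨j, mem_of_value hj⟩ with hjP
  have hcongr : Congr PM (spec (modPolyZ q) jP) (spec (modPolyZ q) c) :=
    congr_spec (modPolyZ q) hj
  have hkr := map_modPolyZ_char (q := q) (ResidueField ↥A)
  have hroot : ((spec (modPolyZ q) c).map (residue ↥A)).eval (residue ↥A c ^ q) = 0 := by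
    rw [map_spec, eval_spec_of_kronecker q hkr, sub_self, zero_mul]
  have hsimple : ((spec (modPolyZ q) c).map (residue ↥A)).derivative.eval (residue ↥A c ^ q) ≠ 0 := by
    rw [map_spec, derivative_spec_of_kronecker q hkr, sub_ne_zero]
    exact hgen
  exact exists_place (residue ↥A) pb (spec_monic modPolyZ_monic jP) (minpoly_spec pb hmin jP rfl)
    hcongr (spec_monic modPolyZ_monic c) hroot hsimple

/-- **Dichotomy at the level of values, generic in the level** (no genericity of `c`): at every
place `P'` of `E` of degree one over `PM` the function `pb.gen` has a value `x' ∈ A`, a root of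
`Φ_q(X, c)`, and `(x̄' - c̄^q)(x̄'^q - c̄) = 0`. -/
theorem exists_value_of_restrict (hA : A.LiesOverPrime q) {j : F} (pb : PowerBasis F E)
    (hmin : minpoly F pb.gen = spec (modPolyZ q) j) (PM : Place Kb F) (c : ↥A)
    (hj : PM.adicValuation (j - algebraMap Kb F (c : Kb)) < 1)
    (P' : Place Kb E) (hdeg : P'.deg = 1) (hP' : P'.restrict F = PM) :
    ∃ x' : ↥A, (spec (modPolyZ q) c).eval x' = 0 ∧
      (residue ↥A x' - residue ↥A c ^ q) * (residue ↥A x' ^ q - residue ↥A c) = 0 ∧
      P'.adicValuation (pb.gen - algebraMap Kb E (x' : Kb)) < 1 := by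
  have : CharP (ResidueField ↥A) q := Fermat.Agent.S18.ResidueBasics.charP_residueField A hA
  set jP : ↥PM.toValuationSubring := ⟨j, mem_of_value hj⟩ with hjP
  have hcongr : Congr PM (spec (modPolyZ q) jP) (spec (modPolyZ q) c) :=
    congr_spec (modPolyZ q) hj
  have hkr := map_modPolyZ_char (q := q) (ResidueField ↥A)
  have hcomap : P'.toValuationSubring.comap (algebraMap F E) = PM.toValuationSubring := by
    rw [← hP']
    rfl
  obtain ⟨x', h1, h2, h3⟩ := exists_value (residue ↥A) pb (spec_monic modPolyZ_monic jP)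
    (minpoly_spec pb hmin jP rfl) hcongr (spec_monic modPolyZ_monic c) hdeg hcomap
  rw [map_spec, eval_spec_of_kronecker q hkr] at h2
  exact ⟨x', h1, h2, h3⟩

end Tower

/-! ### Along an integral embedding -/

section Along

/-- the generator of a power basis of `E` over `F` along `φ` -/
abbrev genAlong (φ : F →ₐ[Kb] E) (pb : @PowerBasis F E _ _ (algebraAlong φ)) : E :=
  @PowerBasis.gen F E _ _ (algebraAlong φ) pb

/-- the minimal polynomial over `F` along `φ` -/
abbrev minpolyAlong (φ : F →ₐ[Kb] E) (x : E) : F[X] :=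
  @minpoly F E _ _ (algebraAlong φ) x

variable (φ : F →ₐ[Kb] E) (hφ : φ.toRingHom.IsIntegral)

/-- **(FIB) along `φ`.** -/
theorem exists_type_place_along (hA : A.LiesOverPrime q) {j : F}
    (pb : @PowerBasis F E _ _ (algebraAlong φ))
    (hmin : minpolyAlong φ (genAlong φ pb) = spec (modPolyZ q) j)
    (PM : Place Kb F) (c : ↥A)
    (hj : PM.adicValuation (j - algebraMap Kb F (c : Kb)) < 1)
    (hgen : residue ↥A c ^ (q ^ 2) ≠ residue ↥A c) :
    ∃ P : Place Kb E, P.restrictAlong φ hφ = PM ∧ P.ramificationIndexAlong φ = 1 ∧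
      (∀ g : F, P.ord (φ g) = PM.ord g) ∧
      (∃ x : ↥A, residue ↥A x = residue ↥A c ^ q ∧
        P.adicValuation (genAlong φ pb - algebraMap Kb E (x : Kb)) < 1) ∧
      ∀ P' : Place Kb E, P'.restrictAlong φ hφ = PM →
        (∃ x' : ↥A, residue ↥A x' = residue ↥A c ^ q ∧
          P'.adicValuation (genAlong φ pb - algebraMap Kb E (x' : Kb)) < 1) → P' = P := by
  let _ := algebraAlong φ
  have := isScalarTower_along φ
  have := isIntegral_along φ hφ
  exact exists_type_place hA pb hmin PM c hj hgen

/-- **the dichotomy along `φ`.** -/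
theorem exists_value_of_restrict_along (hA : A.LiesOverPrime q) {j : F}
    (pb : @PowerBasis F E _ _ (algebraAlong φ))
    (hmin : minpolyAlong φ (genAlong φ pb) = spec (modPolyZ q) j)
    (PM : Place Kb F) (c : ↥A)
    (hj : PM.adicValuation (j - algebraMap Kb F (c : Kb)) < 1)
    (P' : Place Kb E) (hdeg : P'.deg = 1) (hP' : P'.restrictAlong φ hφ = PM) :
    ∃ x' : ↥A, (spec (modPolyZ q) c).eval x' = 0 ∧
      (residue ↥A x' - residue ↥A c ^ q) * (residue ↥A x' ^ q - residue ↥A c) = 0 ∧
      P'.adicValuation (genAlong φ pb - algebraMap Kb E (x' : Kb)) < 1 := by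
  let _ := algebraAlong φ
  have := isScalarTower_along φ
  have := isIntegral_along φ hφ
  exact exists_value_of_restrict hA pb hmin PM c hj P' hdeg hP'

end Along

/-! ### `nc_β` / `nc_α`, abstractly -/

section Nc

/-- the places of `F` at which `j` has an `A`-integral value -/
def IntegralVal (A : ValuationSubring Kb) (j : F) (PM : Place Kb F) : Prop :=
  ∃ c : ↥A, PM.adicValuation (j - algebraMap Kb F (c : Kb)) < 1

variable (φ ψ : F →ₐ[Kb] E) (hφ : φ.toRingHom.IsIntegral) (hψ : ψ.toRingHom.IsIntegral)

/-- **`φ`-integral ⟹ `ψ`-integral**, when `E = (φ F)(ψ j)` with minimal polynomial `Φ_q(X, j)`. -/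
theorem integralVal_of_along (hA : A.LiesOverPrime q) {j : F}
    (pb : @PowerBasis F E _ _ (algebraAlong φ)) (hpb : genAlong φ pb = ψ j)
    (hmin : minpolyAlong φ (genAlong φ pb) = spec (modPolyZ q) j)
    (hdeg : ∀ P' : Place Kb E, P'.deg = 1) (P : Place Kb E)
    (h : IntegralVal A j (resAlong φ hφ P)) : IntegralVal A j (resAlong ψ hψ P) := by
  obtain ⟨c, hc⟩ := h
  obtain ⟨x', -, -, hx'⟩ := exists_value_of_restrict_along φ hφ hA pb hmin
    (resAlong φ hφ P) c hc P (hdeg P) rfl
  refine ⟨x', ?_⟩
  rw [← adicValuation_map_lt_one_iff ψ hψ P, map_sub, AlgHom.commutes, ← hpb]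
  exact hx'

variable {k : Type*} [Field k] {κ : Type*} [Field κ] [Algebra k κ]

/-- **`nc_β` (resp. `nc_α`), generic in the level**, for `NC = {Q | 0 ≤ ord_Q j̄}` (any field element
`jb` in the role of `j̄`). -/
theorem nc_of_along (hA : A.LiesOverPrime q) {j : F}
    (pb : @PowerBasis F E _ _ (algebraAlong φ)) (hpb : genAlong φ pb = ψ j)
    (hmin : minpolyAlong φ (genAlong φ pb) = spec (modPolyZ q) j)
    (hdeg : ∀ P' : Place Kb E, P'.deg = 1)
    (r : Place Kb F → Place k κ) (jb : κ)
    (hint : ∀ PM : Place Kb F, 0 ≤ (r PM).ord jb ↔ IntegralVal A j PM)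
    (P : Place Kb E) (h : 0 ≤ (r (resAlong φ hφ P)).ord jb) :
    0 ≤ (r (resAlong ψ hψ P)).ord jb :=
  (hint _).mpr (integralVal_of_along φ ψ hφ hψ hA pb hpb hmin hdeg P ((hint _).mp h))

end Nc

end Fermat.Agent.S43.LG1.C1.Generic.FibGen

end
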