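/-
PROJECT R (S43), block G, brick C1 (= S34', the `X₁`-twin of S34's `X₀` instance layer), helper7:
**`nc_β` (and its `α ↔ β` twin) at `X₁(N; r)`** — the twin of `S34/Generic/NcBetaX0`.

`F = ℚ̄(X₁(N)) = F1Bar N`, `E = ℚ̄(X₁(N; r)) = laurentBaseChange ℚ̄ (F1p N r)`, `α = alpha1`,
`β = beta1` (S48's part B).  A place of `E` whose `α`-restriction reduces to a non-cusp has its
`β`-restriction reducing to a non-cusp, and conversely.

* `nonneg_ord_jC_iff_integralVal` : **a place of `X₁(N)` reduces to a non-cusp iff its `j`-value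
  is `A`-integral** (`CuspRedX1` + main's `NcBetaX0.nonneg_ord_red_iff_exists_hasVal`);
* `deg_eq_one_E1p` : the places of `ℚ̄(X₁(N; r))` have degree one;
* `ModPolyBases N r` : THE INPUT FROM `PowerBasisX1` / `PowerBasisX1Beta` (helper13's chain): the
  two power bases of `E` over `F` (along `α` with generator `β j`, along `β` with generator `α j`),
  both with minimal polynomial `Φ_r(X, j)`;
* `integralVal_beta_of_alpha`, `integralVal_alpha_of_beta`, `integralVal_alpha_iff_beta`;
* `nc_beta_X1`, `nc_alpha_X1` : unconditional in everything but `ModPolyBases`.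
-/
import Mathlib
import Fermat.Agent.S34.Generic.NcBetaX0
import Fermat.Agent.S48.B.ES.RelPic1
import Fermat.Agent.S43.LG1.C1.Generic.FibGen
import Fermat.Agent.S43.LG1.C1.CuspRedX1

set_option autoImplicit false
set_option linter.unusedSectionVars false

noncomputable section

namespace Fermat.Agent.S43.LG1.C1.Generic.NcBetaX1

open Polynomial AlgebraicCurve IsLocalRing ModularCurve
open Fermat.Agent.S37.Deuring.Core
open Fermat.Agent.S34.TwoGaussX0 (modPolyZ)
open Fermat.Agent.S34.Generic.FibAlphaX0 (spec)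
open Fermat.Agent.S34.Generic.RestrAlong
open Fermat.Agent.S34.Generic.Dich
open Fermat.Agent.S48.B.Defs.Model
open Fermat.Agent.S48.B.B1.Seams (jgen1)
open Fermat.Agent.S48.B.Red.Seams (jC IgusaDeg)
open Fermat.Agent.S48.B.Red.Bases1 (gaussDatumIgusa)
open Fermat.Agent.S43.LG1.C1.Generic.FibGen
open Fermat.Agent.S43.LG1.C1.CuspRedX1

local notation "Kb" => AlgebraicClosure ℚ

variable {N : ℕ} [NeZero N] {r : ℕ} [hrF : Fact r.Prime] [NeZero r] {A : ValuationSubring Kb}

/-! ### the places of `ℚ̄(X₁(N; r))` have degree one -/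

theorem deg_eq_one_E1p (hrN : ¬ r ∣ N) (P' : Place Kb ↥(laurentBaseChange Kb (F1p N r))) :
    P'.deg = 1 :=
  Fermat.Agent.S48.B.Inj.Basics.deg_eq_one
    (Fermat.Agent.S48.B.ES.RelPic1.isFF_jgen1p hrF.out hrN (Fermat.Agent.S48.B.B1.Main.deg1 N)
      (Fermat.Agent.S48.B.B1.Main.deg1p N r)) P'

/-! ### the input from the power bases -/

/-- **The two power bases of `ℚ̄(X₁(N; r))` over `ℚ̄(X₁(N))`** (`PowerBasisX1`,
`PowerBasisX1Beta`): along `α` with generator `β j`, along `β` with generator `α j`, both with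
minimal polynomial `Φ_r(X, j)`. -/
structure ModPolyBases (N : ℕ) [NeZero N] (r : ℕ) [Fact r.Prime] [NeZero r] where
  /-- the power basis along `α` -/
  pbα : @PowerBasis ↥(F1Bar N) ↥(laurentBaseChange Kb (F1p N r)) _ _
    (algebraAlong (alpha1 N r Kb))
  genα : genAlong (alpha1 N r Kb) pbα = beta1 N r Kb (jgen1 N)
  minα : minpolyAlong (alpha1 N r Kb) (genAlong (alpha1 N r Kb) pbα) =
    spec (modPolyZ r) (jgen1 N)
  /-- the power basis along `β` -/
  pbβ : @PowerBasis ↥(F1Bar N) ↥(laurentBaseChange Kb (F1p N r)) _ _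
    (algebraAlong (beta1 N r Kb))
  genβ : genAlong (beta1 N r Kb) pbβ = alpha1 N r Kb (jgen1 N)
  minβ : minpolyAlong (beta1 N r Kb) (genAlong (beta1 N r Kb) pbβ) =
    spec (modPolyZ r) (jgen1 N)

/-! ### `α`-integral ⟺ `β`-integral -/

section Transfer

variable (hA : A.LiesOverPrime r) (hrN : ¬ r ∣ N)

include hA hrN in
/-- **`α`-integral ⟹ `β`-integral.** -/
theorem integralVal_beta_of_alpha (B : ModPolyBases N r) (hα : (alpha1 N r Kb).toRingHom.IsIntegral)
    (hβ : (beta1 N r Kb).toRingHom.IsIntegral)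
    (P : Place Kb ↥(laurentBaseChange Kb (F1p N r)))
    (h : IntegralVal A (jgen1 N) (resAlong (alpha1 N r Kb) hα P)) :
    IntegralVal A (jgen1 N) (resAlong (beta1 N r Kb) hβ P) :=
  integralVal_of_along (alpha1 N r Kb) (beta1 N r Kb) hα hβ hA B.pbα B.genα B.minα
    (deg_eq_one_E1p hrN) P h

include hA hrN in
/-- **`β`-integral ⟹ `α`-integral.** -/
theorem integralVal_alpha_of_beta (B : ModPolyBases N r) (hα : (alpha1 N r Kb).toRingHom.IsIntegral)
    (hβ : (beta1 N r Kb).toRingHom.IsIntegral)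
    (P : Place Kb ↥(laurentBaseChange Kb (F1p N r)))
    (h : IntegralVal A (jgen1 N) (resAlong (beta1 N r Kb) hβ P)) :
    IntegralVal A (jgen1 N) (resAlong (alpha1 N r Kb) hα P) :=
  integralVal_of_along (beta1 N r Kb) (alpha1 N r Kb) hβ hα hA B.pbβ B.genβ B.minβ
    (deg_eq_one_E1p hrN) P h

include hA hrN in
theorem integralVal_alpha_iff_beta (B : ModPolyBases N r) (hα : (alpha1 N r Kb).toRingHom.IsIntegral)
    (hβ : (beta1 N r Kb).toRingHom.IsIntegral)
    (P : Place Kb ↥(laurentBaseChange Kb (F1p N r))) :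
    IntegralVal A (jgen1 N) (resAlong (alpha1 N r Kb) hα P) ↔
      IntegralVal A (jgen1 N) (resAlong (beta1 N r Kb) hβ P) :=
  ⟨integralVal_beta_of_alpha hA hrN B hα hβ P, integralVal_alpha_of_beta hA hrN B hα hβ P⟩

end Transfer

/-! ### `X₁(N)`: the level-`N` fact from `CuspRedX1`, and the unconditional statements -/

section X1

variable (h : IgusaDeg N) (hrN : ¬ r ∣ N) (hA : A.LiesOverPrime r)
variable [HasPrincipalDivisors Kb ↥(F1Bar N)]
  [HasPrincipalDivisors (ResidueField ↥A) ↥(F1C N (ResidueField ↥A))]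
  [Infinite (ResidueField ↥A)]
variable {gL gk : ℕ} (H : Hyp (gaussDatumIgusa h hrF.out hrN hA) gL gk)

/-- **A place of `X₁(N)` reduces to a non-cusp iff its `j`-value is `A`-integral.** -/
theorem nonneg_ord_jC_iff_integralVal (PM : Place Kb ↥(F1Bar N)) :
    0 ≤ (placeMap H PM).ord (jC N (ResidueField ↥A)) ↔ IntegralVal A (jgen1 N) PM := by
  have h1 := Fermat.Agent.S34.Generic.NcBetaX0.nonneg_ord_red_iff_exists_hasVal (redDatum H)
    (fun P => Fermat.Agent.S48.B.Inj.Basics.deg_eq_one (isFF_jgen1 N) P)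
    (jO1 h hrF.out hrN hA)
    (fun Q hQ => by
      rw [show (redDatum H).red (jO1 h hrF.out hrN hA) = jC N (ResidueField ↥A) from
        red_jO1 h hrF.out hrN hA] at hQ
      exact regOn_jgen1 h hrF.out hrN hA H Q hQ)
    (fun Q hQ => by
      rw [show (redDatum H).red (jO1 h hrF.out hrN hA) = jC N (ResidueField ↥A) from
        red_jO1 h hrF.out hrN hA] at hQ
      exact regOn_inv_jgen1 h hrF.out hrN hA H Q hQ) PM
  rw [show (redDatum H).red (jO1 h hrF.out hrN hA) = jC N (ResidueField ↥A) from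
    red_jO1 h hrF.out hrN hA] at h1
  exact h1

/-- **`nc_β` at `X₁(N; r)`.** -/
theorem nc_beta_X1 (B : ModPolyBases N r) (hα : (alpha1 N r Kb).toRingHom.IsIntegral)
    (hβ : (beta1 N r Kb).toRingHom.IsIntegral)
    (P : Place Kb ↥(laurentBaseChange Kb (F1p N r)))
    (hP : 0 ≤ (placeMap H (resAlong (alpha1 N r Kb) hα P)).ord (jC N (ResidueField ↥A))) :
    0 ≤ (placeMap H (resAlong (beta1 N r Kb) hβ P)).ord (jC N (ResidueField ↥A)) :=
  (nonneg_ord_jC_iff_integralVal h hrN hA H _).mpr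
    (integralVal_beta_of_alpha hA hrN B hα hβ P
      ((nonneg_ord_jC_iff_integralVal h hrN hA H _).mp hP))

/-- **`nc_α` at `X₁(N; r)`.** -/
theorem nc_alpha_X1 (B : ModPolyBases N r) (hα : (alpha1 N r Kb).toRingHom.IsIntegral)
    (hβ : (beta1 N r Kb).toRingHom.IsIntegral)
    (P : Place Kb ↥(laurentBaseChange Kb (F1p N r)))
    (hP : 0 ≤ (placeMap H (resAlong (beta1 N r Kb) hβ P)).ord (jC N (ResidueField ↥A))) :
    0 ≤ (placeMap H (resAlong (alpha1 N r Kb) hα P)).ord (jC N (ResidueField ↥A)) :=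
  (nonneg_ord_jC_iff_integralVal h hrN hA H _).mpr
    (integralVal_alpha_of_beta hA hrN B hα hβ P
      ((nonneg_ord_jC_iff_integralVal h hrN hA H _).mp hP))

end X1

end Fermat.Agent.S43.LG1.C1.Generic.NcBetaX1

end
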