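/-
PROJECT R (S43), block G, brick C1 (= S34', the `X₁`-twin of S34's `X₀` instance layer), helper7:
**(FIB), `α`-side AND `β`-side, discharged at `X₁(N; r)`** — the twin of
`S34/Generic/{FibAlphaX0, FibBetaX0}`, and the closing of the one input of `Generic/NcBetaX1`.

`F = ℚ̄(X₁(N)) = F1Bar N`, `E'' = ℚ̄(X₁(N; r)) = F1pBar N r`, `α = alpha1`, `β = beta1`,
`j_r = jr N r = β j`.  Everything is `Generic/FibGen` (generic in the level) at helper13's two
power bases `TwoGaussX1.pbX1` (along `α`, generator `β j`) and `PowerBasisX1Beta.pbX1Beta`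
(along `β`, generator `α j`), both with minimal polynomial `Φ_r(X, j)`.

* `isIntegral_alpha1 hr hrN`, `isIntegral_beta1 hr hrN` : `α`, `β` are integral;
* `modPolyBases hr hrN : ModPolyBases N r` : **THE INPUT OF `Generic/NcBetaX1` IS A DEFINITION**;
* `exists_typeOne_place`, `exists_value_of_restrict_alpha` : (FIB) and the dichotomy along `α`
  (value of `j_r = β j`);
* `exists_typeTwo_place`, `exists_value_of_restrict_beta` : the same along `β` (value of `α j`);
* `integralVal_alpha_iff_beta`, `nc_beta`, `nc_alpha` : `Generic/NcBetaX1` with NO hypothesis left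
  but the frame `H : Hyp (gaussDatum1 N A hr hA hrN) gL gk`.

Binders as in helper13's chain: `{r} [Fact r.Prime] {N} [NeZero N] [NeZero r] {A}`,
`(hr : r.Prime) (hA : A.LiesOverPrime r) (hrN : ¬ r ∣ N)`.
-/
import Mathlib
import Fermat.Agent.S43.LG1.C1.TwoGaussX1
import Fermat.Agent.S43.LG1.C1.PowerBasisX1Beta
import Fermat.Agent.S43.LG1.C1.Generic.NcBetaX1

set_option autoImplicit false
set_option linter.unusedSectionVars false
set_option linter.style.haveILetI false

noncomputable section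

namespace Fermat.Agent.S43.LG1.C1.Generic.FibX1

open Polynomial AlgebraicCurve IsLocalRing ModularCurve
open Fermat.Agent.S37.Deuring.Core
open Fermat.Agent.S34.TwoGaussX0 (modPolyZ modPolyZ_monic natDegree_modPolyZ map_evalL_modPolyZ)
open Fermat.Agent.S34.Generic.FibAlphaX0 (spec)
open Fermat.Agent.S34.Generic.RestrAlong
open Fermat.Agent.S48.B.Defs.Model
open Fermat.Agent.S48.B.B1.Seams (jgen1)
open Fermat.Agent.S48.B.ES.DegreeBeta1 (F1pBar)
open Fermat.Agent.S48.B.Red.Seams (jC)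
open Fermat.Agent.S43.LG1.C1.Seam
open Fermat.Agent.S43.LG1.C1.PowerBasisX1 (modPolyF1 minpoly_jr)
open Fermat.Agent.S43.LG1.C1.TwoGaussX1 (pbX1 pbX1_gen isIntegral_FE1)
open Fermat.Agent.S43.LG1.C1.PowerBasisX1Beta (pbX1Beta pbX1Beta_gen minpoly_alpha_jgen1
  finite_beta1)
open Fermat.Agent.S43.LG1.C1.Generic.FibGen
open Fermat.Agent.S43.LG1.C1.Generic.NcBetaX1 (ModPolyBases deg_eq_one_E1p)

local notation "Kb" => AlgebraicClosure ℚ

variable {r : ℕ} [hrF : Fact r.Prime] {N : ℕ} [NeZero N] [NeZero r] {A : ValuationSubring Kb}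
variable (hr : r.Prime) (hA : A.LiesOverPrime r) (hrN : ¬ r ∣ N)

/-! ### `α`, `β` are integral -/

include hr hrN in
/-- `α` is integral -/
theorem isIntegral_alpha1 : (alpha1 N r Kb).toRingHom.IsIntegral :=
  fun x => isIntegral_FE1 hr hrN x

include hr hrN in
/-- `β` is integral -/
theorem isIntegral_beta1 : (beta1 N r Kb).toRingHom.IsIntegral := by
  letI := algebraAlong (beta1 N r Kb)
  haveI := finite_beta1 (N := N) hr hrN
  intro x
  exact IsIntegral.of_finite ↥(F1Bar N) x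

/-! ### the modular polynomial, in the shape of `FibGen` -/

theorem modPolyF1_eq_spec (Φ : Polynomial (Polynomial ℤ)) :
    modPolyF1 N Φ = spec Φ (jgen1 N) := rfl

include hr hrN in
theorem minpolyAlong_alpha1_jr :
    minpolyAlong (alpha1 N r Kb) (jr N r) = spec (modPolyZ r) (jgen1 N) :=
  minpoly_jr hr hrN modPolyZ_monic natDegree_modPolyZ (map_evalL_modPolyZ (q := r))

include hr hrN in
theorem minpolyAlong_beta1_alpha_jgen1 :
    minpolyAlong (beta1 N r Kb) (alpha1 N r Kb (jgen1 N)) = spec (modPolyZ r) (jgen1 N) :=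
  minpoly_alpha_jgen1 hr hrN modPolyZ_monic natDegree_modPolyZ (map_evalL_modPolyZ (q := r))

/-- **The two power bases of `ℚ̄(X₁(N; r))` over `ℚ̄(X₁(N))`**: the input of `Generic/NcBetaX1`. -/
def modPolyBases : ModPolyBases N r where
  pbα := pbX1 hr hrN
  genα := pbX1_gen hr hrN
  minα := by
    rw [show genAlong (alpha1 N r Kb) (pbX1 hr hrN) = jr N r from pbX1_gen hr hrN]
    exact minpolyAlong_alpha1_jr hr hrN
  pbβ := pbX1Beta hr hrN
  genβ := pbX1Beta_gen hr hrN
  minβ := by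
    rw [show genAlong (beta1 N r Kb) (pbX1Beta hr hrN) = alpha1 N r Kb (jgen1 N) from
      pbX1Beta_gen hr hrN]
    exact minpolyAlong_beta1_alpha_jgen1 hr hrN

/-! ### (FIB), `α`-side -/

include hA in
/-- **(FIB), `α`-side at `X₁(N; r)`**: over a place `PM` of `X₁(N)` with integral generic
`j`-value there is exactly one place of `X₁(N; r)` at which the value of `j_r = β j` reduces to
`c̄^r`; it is unramified over `PM`. -/
theorem exists_typeOne_place (PM : Place Kb ↥(F1Bar N)) (c : ↥A)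
    (hj : PM.adicValuation (jgen1 N - algebraMap Kb _ (c : Kb)) < 1)
    (hgen : residue ↥A c ^ (r ^ 2) ≠ residue ↥A c) :
    ∃ P : Place Kb ↥(F1pBar N r),
      P.restrictAlong (alpha1 N r Kb) (isIntegral_alpha1 hr hrN) = PM ∧
      P.ramificationIndexAlong (alpha1 N r Kb) = 1 ∧
      (∀ g : ↥(F1Bar N), P.ord (alpha1 N r Kb g) = PM.ord g) ∧
      (∃ x : ↥A, residue ↥A x = residue ↥A c ^ r ∧
        P.adicValuation (jr N r - algebraMap Kb _ (x : Kb)) < 1) ∧
      ∀ P' : Place Kb ↥(F1pBar N r),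
        P'.restrictAlong (alpha1 N r Kb) (isIntegral_alpha1 hr hrN) = PM →
        (∃ x' : ↥A, residue ↥A x' = residue ↥A c ^ r ∧
          P'.adicValuation (jr N r - algebraMap Kb _ (x' : Kb)) < 1) → P' = P := by
  obtain ⟨P, h1, h2, h3, h4, h5⟩ := exists_type_place_along (alpha1 N r Kb)
    (isIntegral_alpha1 hr hrN) hA (modPolyBases hr hrN).pbα (modPolyBases hr hrN).minα PM c hj hgen
  rw [show genAlong (alpha1 N r Kb) (modPolyBases hr hrN).pbα = jr N r from pbX1_gen hr hrN]
    at h4 h5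
  exact ⟨P, h1, h2, h3, h4, h5⟩

include hA in
/-- **Dichotomy at the level of values**, `α`-side (no genericity): at every place of `X₁(N; r)`
over `PM` the function `j_r` has a value `x' ∈ A`, a root of `Φ_r(X, c)`, and
`(x̄' - c̄^r)(x̄'^r - c̄) = 0`. -/
theorem exists_value_of_restrict_alpha (PM : Place Kb ↥(F1Bar N)) (c : ↥A)
    (hj : PM.adicValuation (jgen1 N - algebraMap Kb _ (c : Kb)) < 1)
    (P' : Place Kb ↥(F1pBar N r))
    (hP' : P'.restrictAlong (alpha1 N r Kb) (isIntegral_alpha1 hr hrN) = PM) :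
    ∃ x' : ↥A, (spec (modPolyZ r) c).eval x' = 0 ∧
      (residue ↥A x' - residue ↥A c ^ r) * (residue ↥A x' ^ r - residue ↥A c) = 0 ∧
      P'.adicValuation (jr N r - algebraMap Kb _ (x' : Kb)) < 1 := by
  obtain ⟨x', h1, h2, h3⟩ := exists_value_of_restrict_along (alpha1 N r Kb)
    (isIntegral_alpha1 hr hrN) hA (modPolyBases hr hrN).pbα (modPolyBases hr hrN).minα PM c hj P'
    (deg_eq_one_E1p hrN P') hP'
  rw [show genAlong (alpha1 N r Kb) (modPolyBases hr hrN).pbα = jr N r from pbX1_gen hr hrN] at h3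
  exact ⟨x', h1, h2, h3⟩

/-! ### (FIB), `β`-side -/

include hA in
/-- **(FIB), `β`-side at `X₁(N; r)`**: over a place `PM` of `X₁(N)` with integral generic
`j`-value there is exactly one place `P` of `X₁(N; r)` with `P ∘ β = PM` at which the value of
`α j` reduces to `c̄^r`; it is unramified over `PM`. -/
theorem exists_typeTwo_place (PM : Place Kb ↥(F1Bar N)) (c : ↥A)
    (hj : PM.adicValuation (jgen1 N - algebraMap Kb _ (c : Kb)) < 1)
    (hgen : residue ↥A c ^ (r ^ 2) ≠ residue ↥A c) :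
    ∃ P : Place Kb ↥(F1pBar N r),
      P.restrictAlong (beta1 N r Kb) (isIntegral_beta1 hr hrN) = PM ∧
      P.ramificationIndexAlong (beta1 N r Kb) = 1 ∧
      (∀ g : ↥(F1Bar N), P.ord (beta1 N r Kb g) = PM.ord g) ∧
      (∃ x : ↥A, residue ↥A x = residue ↥A c ^ r ∧
        P.adicValuation (alpha1 N r Kb (jgen1 N) - algebraMap Kb _ (x : Kb)) < 1) ∧
      ∀ P' : Place Kb ↥(F1pBar N r),
        P'.restrictAlong (beta1 N r Kb) (isIntegral_beta1 hr hrN) = PM →
        (∃ x' : ↥A, residue ↥A x' = residue ↥A c ^ r ∧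
          P'.adicValuation (alpha1 N r Kb (jgen1 N) - algebraMap Kb _ (x' : Kb)) < 1) →
        P' = P := by
  obtain ⟨P, h1, h2, h3, h4, h5⟩ := exists_type_place_along (beta1 N r Kb)
    (isIntegral_beta1 hr hrN) hA (modPolyBases hr hrN).pbβ (modPolyBases hr hrN).minβ PM c hj hgen
  rw [show genAlong (beta1 N r Kb) (modPolyBases hr hrN).pbβ = alpha1 N r Kb (jgen1 N) from
    pbX1Beta_gen hr hrN] at h4 h5
  exact ⟨P, h1, h2, h3, h4, h5⟩

include hA in
/-- **Dichotomy at the level of values**, `β`-side (no genericity). -/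
theorem exists_value_of_restrict_beta (PM : Place Kb ↥(F1Bar N)) (c : ↥A)
    (hj : PM.adicValuation (jgen1 N - algebraMap Kb _ (c : Kb)) < 1)
    (P' : Place Kb ↥(F1pBar N r))
    (hP' : P'.restrictAlong (beta1 N r Kb) (isIntegral_beta1 hr hrN) = PM) :
    ∃ x' : ↥A, (spec (modPolyZ r) c).eval x' = 0 ∧
      (residue ↥A x' - residue ↥A c ^ r) * (residue ↥A x' ^ r - residue ↥A c) = 0 ∧
      P'.adicValuation (alpha1 N r Kb (jgen1 N) - algebraMap Kb _ (x' : Kb)) < 1 := by
  obtain ⟨x', h1, h2, h3⟩ := exists_value_of_restrict_along (beta1 N r Kb)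
    (isIntegral_beta1 hr hrN) hA (modPolyBases hr hrN).pbβ (modPolyBases hr hrN).minβ PM c hj P'
    (deg_eq_one_E1p hrN P') hP'
  rw [show genAlong (beta1 N r Kb) (modPolyBases hr hrN).pbβ = alpha1 N r Kb (jgen1 N) from
    pbX1Beta_gen hr hrN] at h3
  exact ⟨x', h1, h2, h3⟩

/-! ### `nc_β` / `nc_α`, unconditional -/

include hA in
/-- **`α`-integral ⟺ `β`-integral.** -/
theorem integralVal_alpha_iff_beta (P : Place Kb ↥(F1pBar N r)) :
    IntegralVal A (jgen1 N) (resAlong (alpha1 N r Kb) (isIntegral_alpha1 hr hrN) P) ↔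
      IntegralVal A (jgen1 N) (resAlong (beta1 N r Kb) (isIntegral_beta1 hr hrN) P) :=
  Fermat.Agent.S43.LG1.C1.Generic.NcBetaX1.integralVal_alpha_iff_beta hA hrN
    (modPolyBases hr hrN) (isIntegral_alpha1 hr hrN) (isIntegral_beta1 hr hrN) P

section Nc

attribute [local instance] algShortcut1

variable [HasPrincipalDivisors Kb ↥(F1Bar N)]
  [HasPrincipalDivisors (ResidueField ↥A) ↥(F1C N (ResidueField ↥A))]
  [Infinite (ResidueField ↥A)]
variable {gL gk : ℕ} (H : Hyp (gaussDatum1 N A hr hA hrN) gL gk)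

/-- **A place of `X₁(N)` reduces to a non-cusp iff its `j`-value is `A`-integral**
(`NcBetaX1.nonneg_ord_jC_iff_integralVal` at `gaussDatum1`). -/
theorem nonneg_ord_jC_iff_integralVal (PM : Place Kb ↥(F1Bar N)) :
    0 ≤ (placeMap H PM).ord (jC N (ResidueField ↥A)) ↔ IntegralVal A (jgen1 N) PM :=
  Fermat.Agent.S43.LG1.C1.Generic.NcBetaX1.nonneg_ord_jC_iff_integralVal (igusaDegN N) hrN hA H PM

/-- **`nc_β` at `X₁(N; r)`**, no hypothesis left. -/
theorem nc_beta (P : Place Kb ↥(F1pBar N r))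
    (hP : 0 ≤ (placeMap H (resAlong (alpha1 N r Kb) (isIntegral_alpha1 hr hrN) P)).ord
      (jC N (ResidueField ↥A))) :
    0 ≤ (placeMap H (resAlong (beta1 N r Kb) (isIntegral_beta1 hr hrN) P)).ord
      (jC N (ResidueField ↥A)) :=
  Fermat.Agent.S43.LG1.C1.Generic.NcBetaX1.nc_beta_X1 (igusaDegN N) hrN hA H (modPolyBases hr hrN)
    (isIntegral_alpha1 hr hrN) (isIntegral_beta1 hr hrN) P hP

/-- **`nc_α` at `X₁(N; r)`**, no hypothesis left. -/
theorem nc_alpha (P : Place Kb ↥(F1pBar N r))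
    (hP : 0 ≤ (placeMap H (resAlong (beta1 N r Kb) (isIntegral_beta1 hr hrN) P)).ord
      (jC N (ResidueField ↥A))) :
    0 ≤ (placeMap H (resAlong (alpha1 N r Kb) (isIntegral_alpha1 hr hrN) P)).ord
      (jC N (ResidueField ↥A)) :=
  Fermat.Agent.S43.LG1.C1.Generic.NcBetaX1.nc_alpha_X1 (igusaDegN N) hrN hA H (modPolyBases hr hrN)
    (isIntegral_alpha1 hr hrN) (isIntegral_beta1 hr hrN) P hP

end Nc

end Fermat.Agent.S43.LG1.C1.Generic.FibX1

end
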