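/-
PROJECT R (row 37 by S43), THE GATE, block C1 = S34' (leader helper13, cut #6132), helper25:
the level-`N` inputs of `C1/Generic/InertiaSpX1` HYPOTHESIS-FREE, from main's S48/B stock
(`Igusa/Main.igusaDeg`, `B1/Main.deg1`, `Red/Fibre1.fibreHyp1_of`):

* `fibreHyp1 hr hrN hA : FibreHyp1 N A` (`r` prime, `r ∤ N`, `A` over `r`);
* `sp_smul_inertia'`, `sp_resAlpha1_smul'`, `sp_resBeta1_smul'` : the statements of `InertiaSpX1`
  without the hypothesis `hF`.
-/
import Mathlib
import Fermat.Agent.S43.LG1.C1.Generic.InertiaSpX1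
import Fermat.Agent.S48.B.Igusa.Main
import Fermat.Agent.S48.B.B1.Main
import Fermat.Agent.S48.B.Red.Fibre1

set_option autoImplicit false
set_option linter.unusedSectionVars false

noncomputable section

namespace Fermat.Agent.S43.LG1.C1.Generic.FibreHypX1

open AlgebraicCurve ModularCurve IsLocalRing
open Fermat.Agent.S34.Generic.RestrAlong
open Fermat.Agent.S48.B.Defs.Model Fermat.Agent.S48.B.Defs.Reduction
open Fermat.Agent.S48.B.Red.Equiv1.PlaceEquiv1 Fermat.Agent.S48.B.ES.DegreeBeta1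
open Fermat.Agent.S43.LG1.C1.Generic.InertiaSpX1

local notation "Kb" => AlgebraicClosure ℚ

set_option synthInstance.maxHeartbeats 400000

/-- instance shortcut (as in `S48/B/Red/Equiv1/PlaceEquiv1`) -/
noncomputable local instance algShortcut (A : ValuationSubring Kb) (N : ℕ) [NeZero N] :
    Algebra (ResidueField A) ↥(F1C N (ResidueField A)) :=
  SubalgebraClass.toAlgebra (F1C N (ResidueField A))

variable {r : ℕ} {N : ℕ} [NeZero N] {A : ValuationSubring Kb}
variable (hr : r.Prime) (hrN : ¬ r ∣ N) (hA : A.LiesOverPrime r)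

include hr hrN hA in
/-- **the fibre hypothesis of `X₁(N)` at `A` over `r ∤ N` is a theorem on main** -/
theorem fibreHyp1 : FibreHyp1 N A :=
  Fermat.Agent.S48.B.Red.Fibre1.fibreHyp1_of (Fermat.Agent.S48.B.Igusa.Main.igusaDeg N)
    (Fermat.Agent.S48.B.B1.Main.deg1 N) hr hrN hA

variable {rr : Place Kb (F1Bar N) → Place (ResidueField A) (F1C N (ResidueField A))}
variable (hrr : IsPlaceReductionAlongG A (residue A) (F1 N) (F1C N (ResidueField A)) rr)
variable (hgen : PrincipalGeneratedByIntegralG A (residue A) (F1 N) (F1C N (ResidueField A)))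
variable {σ : Kb ≃ₐ[ℚ] Kb} (hσ : σ ∈ A.inertiaSubgroupIn ℚ)

include hr hrN hA hrr hgen hσ

/-- inertia acts trivially on the specialisation of the places of `ℚ̄(X₁(N))` -/
theorem sp_smul_inertia' (P : Place Kb (F1Bar N)) :
    rr (arithmeticGalois (F1 N) σ • P) = rr P :=
  sp_smul_inertia (fibreHyp1 hr hrN hA) hrr hgen hσ P

variable [NeZero r]
variable (hα : (alpha1 N r Kb).toRingHom.IsIntegral)
variable (hβ : (beta1 N r Kb).toRingHom.IsIntegral)

/-- (I2), `α`-side -/
theorem sp_resAlpha1_smul' (P : Place Kb (F1pBar N r)) :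
    rr (resAlong (alpha1 N r Kb) hα (arithmeticGalois (F1p N r) σ • P)) =
      rr (resAlong (alpha1 N r Kb) hα P) :=
  sp_resAlpha1_smul (fibreHyp1 hr hrN hA) hrr hgen hα hσ P

/-- (I2), `β`-side -/
theorem sp_resBeta1_smul' (P : Place Kb (F1pBar N r)) :
    rr (resAlong (beta1 N r Kb) hβ (arithmeticGalois (F1p N r) σ • P)) =
      rr (resAlong (beta1 N r Kb) hβ P) :=
  sp_resBeta1_smul (fibreHyp1 hr hrN hA) hrr hgen hβ hσ P

end Fermat.Agent.S43.LG1.C1.Generic.FibreHypX1
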