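import Mathlib
import Fermat.Agent.S34.Generic.SwapX0
import Fermat.Agent.S48.B.Defs.Model

/-!
# PROJECT R (S43), gate, C1 = S34': the swap of the two components under `W` (`W ≠ W⁻¹`)

Generalised twin of the abstract half of `S34/Generic/SwapX0.lean`.  There `w ∘ a = b` and
`w ∘ b = a` (`w = w_q` an involution).  On `X₁(N; r)` the Atkin–Lehner automorphism `W` satisfies
`W ∘ β = α` and `W ∘ α = β ∘ δ` with `δ = ⟨r⁻¹⟩^*` a diamond automorphism of the level-`N` field, so
only `hwb` survives and the second component's partial specialisation map is the first one with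
the roles of `a` and `b` exchanged AND the Frobenius correspondence twisted by the inverse reduced
diamond: `Fr' = d̄' ∘ Fr`.

* `resAlong_smul_delta` : `resAlong b (w • P) = δ • resAlong a P` (if `w ∘ a = b ∘ δ`);
* `rOne_smul_delta` : `rOne r ra rb Fr good (w • P) = rOne r rb ra (d̄' ∘ Fr) good P`;
* `smoothRedComap_r_eq_some_iff_delta` : the second component's map in closed form;
* `excl_of_rOne_delta`, `excl_of_swap_delta` : the field `excl` of `NodalDefs.GNodalDatum`, from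
  `d̄' (Fr (Fr Q)) ≠ Q` on `good`;
* `smoothRedComap_r_eq_of_res_delta` : invariance of the second map under a map of places
  preserving `r ∘ res_a` and `r ∘ res_b`.
-/

set_option autoImplicit false
set_option linter.unusedSectionVars false

noncomputable section

namespace Fermat.Agent.S43.LG1.C1.Generic.SwapX1

open AlgebraicCurve Fermat.Agent.S18.CoreDefs
open Fermat.Agent.S34.NodalDefs Fermat.Agent.S34.Generic.Compat
open Fermat.Agent.S34.Generic.RestrAlong Fermat.Agent.S34.Generic.SmoothRedOfGeneric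
open Fermat.Agent.S34.Generic.SwapX0
open scoped Pointwise

variable {L : Type*} [Field L] {FM : Type*} [Field FM] [Algebra L FM]
variable {F : Type*} [Field F] [Algebra L F]
variable {k : Type*} [Field k] {Fk : Type*} [Field Fk] [Algebra k Fk]

/-! ### restriction of places and the twisted swap -/

/-- the place below `w • P` along `b` is the `δ`-translate of the place below `P` along `a`, if
`w ∘ a = b ∘ δ` -/
theorem resAlong_smul_delta (a b : FM →ₐ[L] F) (ha : a.toRingHom.IsIntegral)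
    (hb : b.toRingHom.IsIntegral) (w : F ≃ₐ[L] F) (δ : FM ≃ₐ[L] FM)
    (hwa : ∀ g : FM, w (a g) = b (δ g)) (P : Place L F) :
    resAlong b hb (SemilinearAut.ofAlgAut w • P) =
      SemilinearAut.ofAlgAut δ • resAlong a ha P := by
  apply Place.ext
  ext g
  rw [mem_resAlong_iff, mem_ofAlgAut_smul_iff, mem_ofAlgAut_smul_iff, mem_resAlong_iff]
  have h : w.symm (b g) = a (δ.symm g) := by
    rw [AlgEquiv.symm_apply_eq, hwa, AlgEquiv.apply_symm_apply]
  rw [h]

variable (r : Place L FM → Place k Fk)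

/-- the partial specialisation map of the second component is that of the first one with the
roles of `a` and `b` exchanged and `Fr` replaced by `d̄' ∘ Fr` -/
theorem rOne_smul_delta (a b : FM →ₐ[L] F) (ha : a.toRingHom.IsIntegral)
    (hb : b.toRingHom.IsIntegral) (w : F ≃ₐ[L] F) (δ : FM ≃ₐ[L] FM)
    (hwa : ∀ g : FM, w (a g) = b (δ g)) (hwb : ∀ g : FM, w (b g) = a g)
    (dbar dbar' : Place k Fk → Place k Fk)
    (hr : ∀ P0 : Place L FM, r (SemilinearAut.ofAlgAut δ • P0) = dbar (r P0))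
    (hinv : ∀ Q, dbar' (dbar Q) = Q) (hinv' : ∀ Q, dbar (dbar' Q) = Q)
    (Fr : Place k Fk → Place k Fk) (good : Set (Place k Fk)) (P : Place L F) :
    rOne r (restrAlong a ha) (restrAlong b hb) Fr good (SemilinearAut.ofAlgAut w • P) =
      rOne r (restrAlong b hb) (restrAlong a ha) (fun Q => dbar' (Fr Q)) good P := by
  apply Option.ext
  intro Q
  rw [rOne_eq_some_iff, rOne_eq_some_iff, restrAlong_res, restrAlong_res, restrAlong_res,
    restrAlong_res, resAlong_smul a b ha hb w hwb P, resAlong_smul_delta a b ha hb w δ hwa P, hr]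
  constructor
  · rintro ⟨hg, h1, h2⟩
    exact ⟨hg, h1, by rw [← h2, hinv]⟩
  · rintro ⟨hg, h1, h2⟩
    exact ⟨hg, h1, by rw [h2, hinv']⟩

theorem rOne_smul_delta_eq_some_iff (a b : FM →ₐ[L] F) (ha : a.toRingHom.IsIntegral)
    (hb : b.toRingHom.IsIntegral) (w : F ≃ₐ[L] F) (δ : FM ≃ₐ[L] FM)
    (hwa : ∀ g : FM, w (a g) = b (δ g)) (hwb : ∀ g : FM, w (b g) = a g)
    (dbar dbar' : Place k Fk → Place k Fk)
    (hr : ∀ P0 : Place L FM, r (SemilinearAut.ofAlgAut δ • P0) = dbar (r P0))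
    (hinv : ∀ Q, dbar' (dbar Q) = Q) (hinv' : ∀ Q, dbar (dbar' Q) = Q)
    (Fr : Place k Fk → Place k Fk) (good : Set (Place k Fk)) (P : Place L F) (Q : Place k Fk) :
    rOne r (restrAlong a ha) (restrAlong b hb) Fr good (SemilinearAut.ofAlgAut w • P) = some Q ↔
      Q ∈ good ∧ r (resAlong b hb P) = Q ∧ r (resAlong a ha P) = dbar' (Fr Q) := by
  rw [rOne_smul_delta r a b ha hb w δ hwa hwb dbar dbar' hr hinv hinv' Fr good P,
    rOne_eq_some_iff]
  rfl

/-! ### exclusivity -/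

/-- a place cannot be of type 1 over a good place and of type 2 over a good place -/
theorem excl_of_rOne_delta {a b : FM →+* F} (ra : Restr L a) (rb : Restr L b)
    (Fr Fr' : Place k Fk → Place k Fk) (good : Set (Place k Fk))
    (hFr : ∀ Q ∈ good, Fr' (Fr Q) ≠ Q) (P : Place L F) (Q1 Q2 : Place k Fk)
    (h1 : rOne r ra rb Fr good P = some Q1) (h2 : rOne r rb ra Fr' good P = some Q2) : False := by
  obtain ⟨hg1, ha1, hb1⟩ := (rOne_eq_some_iff ra rb Fr good P Q1).mp h1
  obtain ⟨-, hb2, ha2⟩ := (rOne_eq_some_iff rb ra Fr' good P Q2).mp h2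
  apply hFr Q1 hg1
  rw [← hb1, hb2, ← ha2, ha1]

/-- **the field `excl` of `NodalDefs.GNodalDatum`** for `R₁` with `R₁.r = rOne …` and
`R₂ = smoothRedComap R₁ w`, `w ∘ b = a`, `w ∘ a = b ∘ δ` -/
theorem excl_of_swap_delta {A : ValuationSubring L} {π : A →+* k} (a b : FM →ₐ[L] F)
    (ha : a.toRingHom.IsIntegral) (hb : b.toRingHom.IsIntegral) (w : F ≃ₐ[L] F)
    (δ : FM ≃ₐ[L] FM) (hwa : ∀ g : FM, w (a g) = b (δ g)) (hwb : ∀ g : FM, w (b g) = a g)
    (dbar dbar' : Place k Fk → Place k Fk)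
    (hr : ∀ P0 : Place L FM, r (SemilinearAut.ofAlgAut δ • P0) = dbar (r P0))
    (hinv : ∀ Q, dbar' (dbar Q) = Q) (hinv' : ∀ Q, dbar (dbar' Q) = Q)
    (Fr : Place k Fk → Place k Fk) (good : Set (Place k Fk))
    (hFr : ∀ Q ∈ good, dbar' (Fr (Fr Q)) ≠ Q) (R₁ : SmoothRed A π F Fk)
    (hR : R₁.r = rOne r (restrAlong a ha) (restrAlong b hb) Fr good)
    (P : Place L F) (Q1 Q2 : Place k Fk) (h1 : R₁.r P = some Q1)
    (h2 : (smoothRedComap R₁ w).r P = some Q2) : False := by
  rw [hR] at h1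
  rw [smoothRedComap_r, hR,
    rOne_smul_delta r a b ha hb w δ hwa hwb dbar dbar' hr hinv hinv' Fr good P] at h2
  exact excl_of_rOne_delta r _ _ Fr (fun Q => dbar' (Fr Q)) good hFr P Q1 Q2 h1 h2

/-- the second component's map in closed form -/
theorem smoothRedComap_r_eq_some_iff_delta {A : ValuationSubring L} {π : A →+* k}
    (a b : FM →ₐ[L] F) (ha : a.toRingHom.IsIntegral) (hb : b.toRingHom.IsIntegral)
    (w : F ≃ₐ[L] F) (δ : FM ≃ₐ[L] FM) (hwa : ∀ g : FM, w (a g) = b (δ g))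
    (hwb : ∀ g : FM, w (b g) = a g) (dbar dbar' : Place k Fk → Place k Fk)
    (hr : ∀ P0 : Place L FM, r (SemilinearAut.ofAlgAut δ • P0) = dbar (r P0))
    (hinv : ∀ Q, dbar' (dbar Q) = Q) (hinv' : ∀ Q, dbar (dbar' Q) = Q)
    (Fr : Place k Fk → Place k Fk) (good : Set (Place k Fk)) (R₁ : SmoothRed A π F Fk)
    (hR : R₁.r = rOne r (restrAlong a ha) (restrAlong b hb) Fr good)
    (P : Place L F) (Q : Place k Fk) :
    (smoothRedComap R₁ w).r P = some Q ↔
      Q ∈ good ∧ r (resAlong b hb P) = Q ∧ r (resAlong a ha P) = dbar' (Fr Q) := by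
  rw [smoothRedComap_r, hR]
  exact rOne_smul_delta_eq_some_iff r a b ha hb w δ hwa hwb dbar dbar' hr hinv hinv' Fr good P Q

/-! ### invariance under a map of places preserving the two specialisations -/

theorem smoothRedComap_r_eq_of_res_delta {A : ValuationSubring L} {π : A →+* k}
    (a b : FM →ₐ[L] F) (ha : a.toRingHom.IsIntegral) (hb : b.toRingHom.IsIntegral)
    (w : F ≃ₐ[L] F) (δ : FM ≃ₐ[L] FM) (hwa : ∀ g : FM, w (a g) = b (δ g))
    (hwb : ∀ g : FM, w (b g) = a g) (dbar dbar' : Place k Fk → Place k Fk)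
    (hr : ∀ P0 : Place L FM, r (SemilinearAut.ofAlgAut δ • P0) = dbar (r P0))
    (hinv : ∀ Q, dbar' (dbar Q) = Q) (hinv' : ∀ Q, dbar (dbar' Q) = Q)
    (Fr : Place k Fk → Place k Fk) (good : Set (Place k Fk)) (R₁ : SmoothRed A π F Fk)
    (hR : R₁.r = rOne r (restrAlong a ha) (restrAlong b hb) Fr good) (P P' : Place L F)
    (h1 : r (resAlong a ha P') = r (resAlong a ha P))
    (h2 : r (resAlong b hb P') = r (resAlong b hb P)) :
    (smoothRedComap R₁ w).r P' = (smoothRedComap R₁ w).r P := by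
  rw [smoothRedComap_r, smoothRedComap_r, hR,
    rOne_smul_delta r a b ha hb w δ hwa hwb dbar dbar' hr hinv hinv' Fr good P,
    rOne_smul_delta r a b ha hb w δ hwa hwb dbar dbar' hr hinv hinv' Fr good P']
  exact rOne_eq_of_res r _ _ (fun Q => dbar' (Fr Q)) good P P' h2 h1

/-! ### the instance `w = W` (Atkin–Lehner of `X₁(M; ℓ)`), `a = α₁`, `b = β₁`

Hypothesis-first on `(W, δ)` with the two equations of `S48/B/Hecke/Swap/Aut.exists_atkinLehner`. -/

section X1

open ModularCurve Fermat.Agent.S48.B.Defs.Model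

local notation "Kb" => AlgebraicClosure ℚ

variable {M ℓ : ℕ} [NeZero M] [NeZero ℓ]

theorem resAlong_alpha1_W
    (W : ↥(laurentBaseChange Kb (F1p M ℓ)) ≃ₐ[Kb] ↥(laurentBaseChange Kb (F1p M ℓ)))
    (hWβ : ∀ x : F1Bar M, W (beta1 M ℓ Kb x) = alpha1 M ℓ Kb x)
    (ha : (alpha1 M ℓ Kb).toRingHom.IsIntegral) (hb : (beta1 M ℓ Kb).toRingHom.IsIntegral)
    (P : Place Kb ↥(laurentBaseChange Kb (F1p M ℓ))) :
    resAlong (alpha1 M ℓ Kb) ha (SemilinearAut.ofAlgAut W • P) =
      resAlong (beta1 M ℓ Kb) hb P :=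
  resAlong_smul _ _ ha hb _ hWβ P

theorem resAlong_beta1_W
    (W : ↥(laurentBaseChange Kb (F1p M ℓ)) ≃ₐ[Kb] ↥(laurentBaseChange Kb (F1p M ℓ)))
    (δ : F1Bar M ≃ₐ[Kb] F1Bar M)
    (hWα : ∀ x : F1Bar M, W (alpha1 M ℓ Kb x) = beta1 M ℓ Kb (δ x))
    (ha : (alpha1 M ℓ Kb).toRingHom.IsIntegral) (hb : (beta1 M ℓ Kb).toRingHom.IsIntegral)
    (P : Place Kb ↥(laurentBaseChange Kb (F1p M ℓ))) :
    resAlong (beta1 M ℓ Kb) hb (SemilinearAut.ofAlgAut W • P) =
      SemilinearAut.ofAlgAut δ • resAlong (alpha1 M ℓ Kb) ha P :=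
  resAlong_smul_delta _ _ ha hb W δ hWα P

end X1

end Fermat.Agent.S43.LG1.C1.Generic.SwapX1
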