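/-
PROJECT R (S43), gate (G), cut C1 = S34', slice Generic/BranchX1 (helper16): the `X₁` twin of
`S34/Generic/BranchX0`: **the two concrete branches at `E'' = ℚ̄(X₁(N; r))`** in the binder shapes of
`Generic/Assembly` / `SmoothRedOfGeneric.smoothRedOfGeneric`, and their identification with the
rings `Z1X1.V1X1`, `Z1X1.V2X1`.

`G = Seam.gaussDatum1 N A hr hA hrN`, `κ = κ(A)`, `φ = FrobKGen.phi (coeffStable_F1C N κ) r`
(`g(q) ↦ g(q^r)`), `d̄ = DiamondRed1.dbar1 hr hA hrN` (the reduced diamond `⟨r⁻¹⟩^*`).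

* `B1X1 hr hA hrN : NodalDefs.Branch A (residue A) E'' (F1C N κ) := Branch.ofGaussDatum gaussDatumV₁`
  (`O = V₁`, `red = red₁`);
* `hα`, `hredα`, `hβ`, `hredβ`, `hredβ'` : `α g, β g ∈ (B1X1).O` for `g ∈ G.O`,
  `red (α g) = G.red g`, `red (β g) = φ (G.red g)`;
* `B1X1_O : (B1X1).O = Z1X1.V1X1`, `isExt₁`;
* `comap_W1Hom : (B1X1).O.comap (W1Hom N r hr hrN) = Z1X1.V2X1`, `isExt_comap`;
* the second branch `B2X1 := SmoothRedOfGeneric.branchComap (B1X1) (Seam.W1 N r hr hrN)` :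
  `branchComap_O : (B2X1).O = Z1X1.V2X1`, `B2X1_red_apply`, `hβ₂`, **`hredβ₂ : red₂ (β g) = G.red g`**,
  `hα₂`, **THE TWIST `hredα₂ : red₂ (α g) = φ (d̄ (G.red g))`**, `hredα₂'` (`= d̄ (φ (G.red g))`),
  `red₂_jr`, `red₂_alpha_jgen1`.
-/
import Mathlib
import Fermat.Agent.S43.LG1.C1.GaussPairX1
import Fermat.Agent.S43.LG1.C1.DiamondRed1
import Fermat.Agent.S43.LG1.C1.Z1X1
import Fermat.Agent.S43.LG1.C1.FrobKGen
import Fermat.Agent.S34.BranchAux
import Fermat.Agent.S34.Generic.SmoothRedOfGeneric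

set_option autoImplicit false
set_option linter.unusedSectionVars false
set_option linter.style.haveILetI false
set_option synthInstance.maxHeartbeats 400000

noncomputable section

namespace Fermat.Agent.S43.LG1.C1.Generic.BranchX1

open ModularCurve AlgebraicCurve IsLocalRing
open Fermat.Agent.S48.B.Defs.Model Fermat.Agent.S48.B.B1.Seams
open Fermat.Agent.S48.B.ES.DegreeBeta1
open Fermat.Agent.S48.B.Red.Seams (jC coe_jC)
open Fermat.Agent.S48.B.Red.CoeffAut1 (coeffStable_F1C)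
open Fermat.Agent.S34
open Fermat.Agent.S34.NodalDefs Fermat.Agent.S34.BranchAux
open Fermat.Agent.S34.Generic.SmoothRedOfGeneric (branchComap comapEquiv)
open Fermat.Agent.S43.LG1.C1.Seam Fermat.Agent.S43.LG1.C1.TwoGaussX1
open Fermat.Agent.S43.LG1.C1.GaussPairX1 Fermat.Agent.S43.LG1.C1.DiamondRed1
open Fermat.Agent.S43.LG1.C1.FrobKGen (phi coe_phi)

local notation "Kb" => AlgebraicClosure ℚ

variable {r : ℕ} [hrF : Fact r.Prime] {N : ℕ} [NeZero N] {A : ValuationSubring Kb}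
variable (hr : r.Prime) (hA : A.LiesOverPrime r) (hrN : ¬ r ∣ N) [NeZero r]

attribute [local instance] algFE1
attribute [local instance] algShortcut1

/-! ### The first branch -/

/-- **(a)** the first branch of `E'' = ℚ̄(X₁(N; r))` over `r`: `O = V₁` (`q`-expansions with
`A`-integral coefficients, up to units), `red = red₁`. -/
def B1X1 : Branch A (residue ↥A) ↥(F1pBar N r) ↥(F1C N (ResidueField ↥A)) :=
  Branch.ofGaussDatum (gaussDatumV₁ hr hA hrN)

@[simp] theorem B1X1_O_eq_V₁ : (B1X1 hr hA hrN).O = V₁ N A hA := rfl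

@[simp] theorem B1X1_red : (B1X1 hr hA hrN).red = red₁ hr hA hrN := rfl

/-- **(b)** `α g ∈ O₁` -/
theorem hα (g : ↥(gaussDatum1 N A hr hA hrN).O) :
    alpha1 N r Kb (g : ↥(F1Bar N)) ∈ (B1X1 hr hA hrN).O :=
  (alpha_mem_V₁_iff hr hA hrN g).mpr g.2

/-- **(b)** `red₁ (α g) = red g` -/
theorem hredα (g : ↥(gaussDatum1 N A hr hA hrN).O) :
    (B1X1 hr hA hrN).red ⟨alpha1 N r Kb (g : ↥(F1Bar N)), hα hr hA hrN g⟩ =
      (gaussDatum1 N A hr hA hrN).red g :=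
  red₁_alpha hr hA hrN g

/-- **(b)** `β g ∈ O₁` -/
theorem hβ (g : ↥(gaussDatum1 N A hr hA hrN).O) :
    beta1 N r Kb (g : ↥(F1Bar N)) ∈ (B1X1 hr hA hrN).O :=
  beta_mem_V₁ hr hA hrN g.2

/-- **(b)** `red₁ (β g) = φ (red g)`, `φ = FrobKGen.phi` the `κ`-linear Frobenius pull-back
(instances as binders: any `CharP` / `PerfectField` instance on `κ(A)` fits) -/
theorem hredβ [CharP (ResidueField ↥A) r] [PerfectField (ResidueField ↥A)]
    (g : ↥(gaussDatum1 N A hr hA hrN).O) :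
    (B1X1 hr hA hrN).red ⟨beta1 N r Kb (g : ↥(F1Bar N)), hβ hr hA hrN g⟩ =
      phi (coeffStable_F1C N (ResidueField ↥A)) r ((gaussDatum1 N A hr hA hrN).red g) := by
  apply Subtype.ext
  rw [coe_phi]
  exact coe_red₁_beta hr hA hrN g

/-- `hredβ` as a statement about the ring hom `(phi : κ(X₁(N)) →+* κ(X₁(N)))` -/
theorem hredβ' [CharP (ResidueField ↥A) r] [PerfectField (ResidueField ↥A)]
    (g : ↥(gaussDatum1 N A hr hA hrN).O) :
    (B1X1 hr hA hrN).red ⟨beta1 N r Kb (g : ↥(F1Bar N)), hβ hr hA hrN g⟩ =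
      (phi (coeffStable_F1C N (ResidueField ↥A)) r :
        ↥(F1C N (ResidueField ↥A)) →+* ↥(F1C N (ResidueField ↥A)))
          ((gaussDatum1 N A hr hA hrN).red g) :=
  hredβ hr hA hrN g

include hA in
/-- the instances on `κ(A)` used by `FrobKGen` -/
theorem charP_residue : CharP (ResidueField ↥A) r := charP_res hA

theorem perfectField_residue : PerfectField (ResidueField ↥A) :=
  haveI := Fermat.Agent.S18.ResidueBasics.isAlgClosed_residueField A
  inferInstance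

/-- **(c)** the first branch ring is `Z1X1.V1X1` -/
theorem B1X1_O : (B1X1 hr hA hrN).O = Fermat.Agent.S43.LG1.C1.Z1X1.V1X1 hr hA hrN :=
  (setupX1 hr hA hrN).isExt₁_unique (isExt_V₁ hr hA hrN)
    (Fermat.Agent.S43.LG1.C1.Z1X1.isExt_V1X1 hr hA hrN)

/-- **(c)** `O₁` is the extension of type `G₁` -/
theorem isExt₁ : (setupX1 hr hA hrN).IsExt (setupX1 hr hA hrN).G₁ (B1X1 hr hA hrN).O :=
  isExt_V₁ hr hA hrN

/-! ### The `W`-transform of the first branch ring -/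

/-- **(d)** the `W`-transform of the first branch ring is `GaussPairX1.V₂` -/
theorem comap_W1Hom_eq_V₂ :
    (B1X1 hr hA hrN).O.comap (W1Hom N r hr hrN) = V₂ hr hA hrN := rfl

/-- **(d)** the `W`-transform of `O₁` is the extension of type `G₂` -/
theorem isExt_comap : (setupX1 hr hA hrN).IsExt (setupX1 hr hA hrN).G₂
    ((B1X1 hr hA hrN).O.comap (W1Hom N r hr hrN)) :=
  isExt_V₂ hr hA hrN (delta1_smul_O1 hr hA hrN)

/-- **(d)** the `W`-transform of the first branch ring is `Z1X1.V2X1` -/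
theorem comap_W1Hom :
    (B1X1 hr hA hrN).O.comap (W1Hom N r hr hrN) =
      Fermat.Agent.S43.LG1.C1.Z1X1.V2X1 hr hA hrN :=
  (setupX1 hr hA hrN).isExt₂_unique (isExt_comap hr hA hrN)
    (Fermat.Agent.S43.LG1.C1.Z1X1.isExt_V2X1 hr hA hrN)

/-! ### The second branch -/

/-- the second branch `branchComap (B1X1) W` of `SmoothRedOfGeneric.smoothRedComap`:
`O = V₂ = W⁻¹ V₁`, `red = red₁ ∘ W` -/
def B2X1 : Branch A (residue ↥A) ↥(F1pBar N r) ↥(F1C N (ResidueField ↥A)) :=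
  branchComap (B1X1 hr hA hrN) (W1 N r hr hrN)

theorem B2X1_O_eq_V₂ : (B2X1 hr hA hrN).O = V₂ hr hA hrN := rfl

/-- the ring of the second branch is `Z1X1.V2X1` -/
theorem branchComap_O :
    (branchComap (B1X1 hr hA hrN) (W1 N r hr hrN)).O =
      Fermat.Agent.S43.LG1.C1.Z1X1.V2X1 hr hA hrN := by
  rw [← comap_W1Hom hr hA hrN]
  rfl

theorem B2X1_O : (B2X1 hr hA hrN).O = Fermat.Agent.S43.LG1.C1.Z1X1.V2X1 hr hA hrN :=
  branchComap_O hr hA hrN

/-- the reduction of the second branch is `GaussPairX1.red₂` -/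
theorem B2X1_red_apply (x : ↥(B2X1 hr hA hrN).O) :
    (B2X1 hr hA hrN).red x = red₂ hr hA hrN ⟨x.1, x.2⟩ := rfl

/-- `β g ∈ O₂` -/
theorem hβ₂ (g : ↥(gaussDatum1 N A hr hA hrN).O) :
    beta1 N r Kb (g : ↥(F1Bar N)) ∈ (B2X1 hr hA hrN).O :=
  (beta_mem_V₂_iff hr hA hrN g).mpr g.2

/-- **`red₂ (β g) = red g`** -/
theorem hredβ₂ (g : ↥(gaussDatum1 N A hr hA hrN).O) :
    (B2X1 hr hA hrN).red ⟨beta1 N r Kb (g : ↥(F1Bar N)), hβ₂ hr hA hrN g⟩ =
      (gaussDatum1 N A hr hA hrN).red g :=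
  red₂_beta hr hA hrN g

/-- `α g ∈ O₂` (the diamond preserves the Gauss ring of level `N`) -/
theorem hα₂ (g : ↥(gaussDatum1 N A hr hA hrN).O) :
    alpha1 N r Kb (g : ↥(F1Bar N)) ∈ (B2X1 hr hA hrN).O :=
  (alpha_mem_V₂_iff hr hA hrN (delta1_smul_O1 hr hA hrN) g).mpr g.2

/-- **THE TWIST: `red₂ (α g) = φ (d̄ (red g))`**, `d̄` the reduced diamond `⟨r⁻¹⟩^*` -/
theorem hredα₂ [CharP (ResidueField ↥A) r] [PerfectField (ResidueField ↥A)]
    (g : ↥(gaussDatum1 N A hr hA hrN).O) :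
    (B2X1 hr hA hrN).red ⟨alpha1 N r Kb (g : ↥(F1Bar N)), hα₂ hr hA hrN g⟩ =
      phi (coeffStable_F1C N (ResidueField ↥A)) r
        (dbar1 hr hA hrN ((gaussDatum1 N A hr hA hrN).red g)) := by
  apply Subtype.ext
  rw [coe_phi, ← red_delta1 hr hA hrN g]
  exact coe_red₂_alpha hr hA hrN (delta1_smul_O1 hr hA hrN) g

/-- the twist, with the diamond outside: `red₂ (α g) = d̄ (φ (red g))` -/
theorem hredα₂' [CharP (ResidueField ↥A) r] [PerfectField (ResidueField ↥A)]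
    (g : ↥(gaussDatum1 N A hr hA hrN).O) :
    (B2X1 hr hA hrN).red ⟨alpha1 N r Kb (g : ↥(F1Bar N)), hα₂ hr hA hrN g⟩ =
      dbar1 hr hA hrN (phi (coeffStable_F1C N (ResidueField ↥A)) r
        ((gaussDatum1 N A hr hA hrN).red g)) := by
  rw [hredα₂, Fermat.Agent.S43.LG1.C1.FrobKGen.d_phi (coeffStable_F1C N (ResidueField ↥A)) r
    (dbar1 hr hA hrN) (fun x => dbar1_frobAut_symm hr hA hrN x)]

/-- `red₂ j_r = J` -/
theorem B2X1_red_jr :
    (B2X1 hr hA hrN).red ⟨jr N r, hβ₂ hr hA hrN ⟨jgen1 N, jgen1_mem_O1 hr hrN hA⟩⟩ =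
      jC N (ResidueField ↥A) :=
  red₂_jr hr hA hrN

/-- `red₂ (α j) = J^r` -/
theorem B2X1_red_alpha_jgen1 :
    (B2X1 hr hA hrN).red ⟨alpha1 N r Kb (jgen1 N), alpha_jgen1_mem_V₂ hr hA hrN⟩ =
      jC N (ResidueField ↥A) ^ r :=
  red₂_alpha_jgen1 hr hA hrN

end Fermat.Agent.S43.LG1.C1.Generic.BranchX1

end
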