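/-
PROJECT R (S43), block G, brick C1 (= S34', the `X₁`-twin of S34's `X₀` instance layer), helper19:
**THE NON-GENERIC PLACES OF A COEFFICIENTWISE STABLE FUNCTION FIELD `Fk ⊆ k((t))` ARE FINITELY MANY**
— the twin of `S34/Generic/FiniteNonGeneric` on helper7's `C1/FrobKGen` (`modularFunctionFieldFullC k N`
replaced by a variable `Fk` with `hC : CoeffStable Fk`, `hJ : J(t) ∈ Fk`), PLUS THE DIAMOND TWIST
needed at `X₁(N; r)`, and the instance at `Fk = F1C N κ(A)`.

`k` a perfect field of characteristic `q`, `j := jC hJ`.  A place `Q` of `Fk` is *generic* when it is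
not a cusp (`0 ≤ Q.ord j`) and its `j`-value does not lie in `𝔽_(q²)`.  Same names and shapes as the
S34 file:

* `jk_sub_ne_zero`, `jk_ne_zero'`, `fm_two_eq`, `ord_fm_two_pos`;
* `IsGeneric hJ q Q`, `not_generic_iff`, `finite_nonGeneric`, `finite_compl_generic`,
  `finite_compl_of_generic_subset`;
* `exists_value`, `value_unique`, `existsUnique_value`, `ord_jk_nonneg_of_value`, `value_Fr`,
  `value_pow_eq_of_Fr_Fr_eq`, `Fr_Fr_ne_of_generic`, `ord_Fr_jk`, `generic_of_generic_Fr`,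
  `generic_Fr_iff`;
* THE TWIST (`d : Fk ≃ₐ[k] Fk` fixing `j`, `Dp d` its action on places): `value_Dp`, `ord_Dp_jk`,
  `generic_Dp_iff`, `value_pow_eq_of_twisted_fixed` (at a place with `Fr (Fr Q) = Dp d Q` the `j`-value
  is in `𝔽_(q²)`), `twisted_ne_of_generic`, `twisted_ne_of_generic'` (the spelling
  `Fr (Fr ((Dp d).symm Q)) ≠ Q` of `FrobKGen.twisted_fixed_iff`);
* the instance at `Fk = F1C N κ(A)`, `A` a valuation ring of `ℚ̄` over `q ∤ N` (`IgusaDeg N` of main,
  hypothesis-free): `finite_nonGeneric_residue1`, `Fr_Fr_ne_of_generic_residue1`,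
  `twisted_ne_of_generic_residue1`.
-/
import Mathlib
import Fermat.Agent.S43.LG1.C1.FrobKGen
import Fermat.Agent.S48.B.Red.Seams
import Fermat.Agent.S48.B.Igusa.Main
import Fermat.Agent.S18.ResidueBasics

set_option autoImplicit false
set_option linter.unusedSectionVars false
set_option linter.style.haveILetI false

noncomputable section

namespace Fermat.Agent.S43.LG1.C1.Generic.FiniteNonGenericX1

open AlgebraicCurve ModularCurve IsLocalRing IntermediateField
open Fermat.Agent.S43.LG1.C1.FrobKGen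
open Fermat.Agent.S48.B.Red.CoeffAut1
open Fermat.Agent.S48.B.Inj.Basics (jC transcendental_jC isFF_jC)

variable {k : Type*} [Field k] {Fk : IntermediateField k (LaurentSeries k)}
variable (hC : CoeffStable Fk) (hJ : jqModC k ∈ Fk)
variable (q : ℕ) [hq : Fact q.Prime] [CharP k q] [PerfectField k]

/-- `j - d ≠ 0` for every constant `d` (`j` is transcendental). -/
theorem jk_sub_ne_zero (d : k) : jC hJ - algebraMap k ↥Fk d ≠ 0 := by
  have htr := transcendental_jC hJ
  intro h0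
  rw [sub_eq_zero.mp h0] at htr
  exact htr ⟨Polynomial.X - Polynomial.C d, Polynomial.X_sub_C_ne_zero d, by simp⟩

theorem jk_ne_zero' : jC hJ ≠ 0 := by
  have htr := transcendental_jC hJ
  intro h
  rw [h] at htr
  exact htr ⟨Polynomial.X, Polynomial.X_ne_zero, by simp⟩

/-- `j^(q²) - j = (j - c)^(q²) - (j - c)` when `c ∈ 𝔽_(q²)`. -/
theorem fm_two_eq (c : k) (hc : c ^ (q ^ 2) = c) :
    fm hJ q 2 = (jC hJ - algebraMap k _ c) ^ q ^ 2 - (jC hJ - algebraMap k _ c) := by
  haveI : CharP ↥Fk q :=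
    charP_of_injective_algebraMap (algebraMap k ↥Fk).injective q
  rw [fm, sub_pow_char_pow, ← map_pow, hc]
  ring

include hC in
/-- a zero of `j - c`, `c ∈ 𝔽_(q²)`, is a zero of `j^(q²) - j`. -/
theorem ord_fm_two_pos (v : Place k ↥Fk) (c : k)
    (hc : c ^ (q ^ 2) = c) (hpos : 0 < v.ord (jC hJ - algebraMap k _ c)) :
    0 < v.ord (fm hJ q 2) := by
  have hfm := fm_two_eq hJ q c hc
  have hfm0 := fm_ne_zero hC hJ q (m := 2) (by norm_num)
  have h1 : 0 < v.ord ((jC hJ - algebraMap k _ c) ^ q ^ 2) := by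
    rw [Fermat.Agent.S18.CoreOrd.ord_pow]
    have hqm : (0 : ℤ) < ((q ^ 2 : ℕ) : ℤ) := by
      exact_mod_cast pow_pos hq.out.pos 2
    exact mul_pos hqm hpos
  have h2 := Fermat.Agent.S18.CoreOrd.min_le_ord_sub v (f := (jC hJ - algebraMap k _ c) ^ q ^ 2)
    (g := jC hJ - algebraMap k _ c) (by rw [← hfm]; exact hfm0)
  rw [← hfm] at h2
  exact lt_of_lt_of_le (lt_min h1 hpos) h2

/-- transport of `j`-values by `Fr` (= `FrobKGen.ord_Fr_jk_sub`, without its instance binders) -/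
theorem ord_Fr_jC_sub (v : Place k ↥Fk) (c : k) :
    (Fr hC q v).ord (jC hJ - algebraMap k _ (c ^ q)) = v.ord (jC hJ - algebraMap k _ c) := by
  rw [← ord_psi, map_sub, psi_jk]
  congr 2
  have h1 := coeffRingAut_algebraMap hC
    (Fermat.Agent.S37.Equivariance.CoeffAut.frobAut k q).symm (c ^ q)
  have h2 : (Fermat.Agent.S37.Equivariance.CoeffAut.frobAut k q).symm (c ^ q) = c := by
    rw [RingEquiv.symm_apply_eq, Fermat.Agent.S37.Equivariance.CoeffAut.frobAut_apply]
  rw [h2] at h1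
  exact h1

/-- **Generic places**: not a cusp, `j`-value not in `𝔽_(q²)`. -/
def IsGeneric (Q : Place k ↥Fk) : Prop :=
  0 ≤ Q.ord (jC hJ) ∧ ∀ c : k, c ^ (q ^ 2) = c → Q.ord (jC hJ - algebraMap k _ c) ≤ 0

theorem not_generic_iff (Q : Place k ↥Fk) :
    ¬ IsGeneric hJ q Q ↔
      (Q.ord (jC hJ) < 0 ∨ ∃ c : k, c ^ (q ^ 2) = c ∧ 0 < Q.ord (jC hJ - algebraMap k _ c)) := by
  unfold IsGeneric
  constructor
  · intro h
    by_cases h0 : 0 ≤ Q.ord (jC hJ)
    · right
      by_contra hno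
      refine h ⟨h0, fun c hc => ?_⟩
      by_contra hlt
      exact hno ⟨c, hc, not_le.mp hlt⟩
    · exact Or.inl (not_le.mp h0)
  · rintro (h | ⟨c, hc, hpos⟩) ⟨h0, hall⟩
    · exact absurd h0 (not_le.mpr h)
    · exact absurd (hall c hc) (not_le.mpr hpos)

section Finite

variable [HasPrincipalDivisors k ↥Fk]

include hC in
/-- **The non-generic places (cusps and places with `j`-value in `𝔽_(q²)`) are finitely many.** -/
theorem finite_nonGeneric :
    {Q : Place k ↥Fk |
      Q.ord (jC hJ) < 0 ∨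
        ∃ c : k, c ^ (q ^ 2) = c ∧ 0 < Q.ord (jC hJ - algebraMap k _ c)}.Finite := by
  have hfm0 := fm_ne_zero hC hJ q (m := 2) (by norm_num)
  refine ((finite_ord_ne_zero hC (jk_ne_zero' hJ)).union
    (finite_ord_ne_zero hC hfm0)).subset fun v hv => ?_
  rcases hv with hv | ⟨c, hc, hpos⟩
  · exact Or.inl (ne_of_lt hv)
  · exact Or.inr (ne_of_gt (ord_fm_two_pos hC hJ q v c hc hpos))

include hC in
/-- the complement of the generic places is finite -/
theorem finite_compl_generic :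
    {Q : Place k ↥Fk | IsGeneric hJ q Q}ᶜ.Finite := by
  refine (finite_nonGeneric hC hJ q).subset fun Q hQ => ?_
  exact (not_generic_iff hJ q Q).mp hQ

include hC in
/-- the same, for any predicate `good` containing the generic places -/
theorem finite_compl_of_generic_subset
    {good : Set (Place k ↥Fk)}
    (h : ∀ Q, IsGeneric hJ q Q → Q ∈ good) : goodᶜ.Finite :=
  (finite_compl_generic hC hJ q).subset fun Q hQ hgen => hQ (h Q hgen)

end Finite

/-! ### the `j`-value of a place -/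

section Value

variable [IsAlgClosed k] [FiniteDimensional k⟮jC hJ⟯ ↥Fk]

/-- a place which is not a cusp has a `j`-value -/
theorem exists_value (Q : Place k ↥Fk) (hj : 0 ≤ Q.ord (jC hJ)) :
    ∃ c : k, 0 < Q.ord (jC hJ - algebraMap k _ c) := by
  obtain ⟨c, hc⟩ := Fermat.Agent.S24.Ord.exists_sub_lt_one
    (isFF_jC hJ) Q
    ((Fermat.Agent.S24.Ord.ord_nonneg_iff Q (jk_ne_zero' hJ)).mp hj)
  exact ⟨c, (Fermat.Agent.S24.Ord.ord_pos_iff Q (jk_sub_ne_zero hJ c)).mpr hc⟩

omit [IsAlgClosed k] [FiniteDimensional k⟮jC hJ⟯ ↥Fk] in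
/-- the `j`-value of a place is unique -/
theorem value_unique (Q : Place k ↥Fk) {c d : k}
    (hc : 0 < Q.ord (jC hJ - algebraMap k _ c)) (hd : 0 < Q.ord (jC hJ - algebraMap k _ d)) :
    c = d := by
  by_contra hne
  have hdc : algebraMap k ↥Fk d - algebraMap k _ c ≠ 0 := by
    rw [← map_sub]
    exact (map_ne_zero_iff _ (algebraMap k ↥Fk).injective).mpr
      (sub_ne_zero.mpr (Ne.symm hne))
  have h3 := Fermat.Agent.S18.CoreOrd.min_le_ord_sub Q
    (f := jC hJ - algebraMap k _ c) (g := jC hJ - algebraMap k _ d)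
    (by rw [sub_sub_sub_cancel_left]; exact hdc)
  rw [sub_sub_sub_cancel_left, ← map_sub, Fermat.Agent.S24.Ord.ord_algebraMap] at h3
  exact absurd h3 (not_le.mpr (lt_min hc hd))

/-- **a place which is not a cusp has a unique `j`-value** -/
theorem existsUnique_value (Q : Place k ↥Fk)
    (hj : 0 ≤ Q.ord (jC hJ)) :
    ∃! c : k, 0 < Q.ord (jC hJ - algebraMap k _ c) := by
  obtain ⟨c, hc⟩ := exists_value hJ Q hj
  exact ⟨c, hc, fun d hd => value_unique hJ Q hd hc⟩

omit [IsAlgClosed k] [FiniteDimensional k⟮jC hJ⟯ ↥Fk] in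
/-- a place with a `j`-value is not a cusp -/
theorem ord_jk_nonneg_of_value (Q : Place k ↥Fk) {c : k}
    (hc : 0 < Q.ord (jC hJ - algebraMap k _ c)) : 0 ≤ Q.ord (jC hJ) := by
  by_contra hneg
  have hneg' : Q.ord (jC hJ) < 0 := not_le.mp hneg
  by_cases hc0 : c = 0
  · rw [hc0, map_zero, sub_zero] at hc
    exact absurd hc (not_lt.mpr hneg'.le)
  · have hcne : algebraMap k ↥Fk c ≠ 0 :=
      (map_ne_zero_iff _ (algebraMap k ↥Fk).injective).mpr hc0
    have h4 := Fermat.Agent.S18.CoreOrd.min_le_ord_sub Q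
      (f := jC hJ - algebraMap k _ c) (g := -algebraMap k _ c)
      (by rw [sub_neg_eq_add, sub_add_cancel]; exact jk_ne_zero' hJ)
    rw [sub_neg_eq_add, sub_add_cancel, Fermat.Agent.S18.CoreOrd.ord_neg',
      Fermat.Agent.S24.Ord.ord_algebraMap] at h4
    have : 0 ≤ Q.ord (jC hJ) := le_trans (le_min hc.le le_rfl) h4
    exact hneg this

omit [IsAlgClosed k] [FiniteDimensional k⟮jC hJ⟯ ↥Fk] in
/-- the `j`-value of `Fr Q` is the `q`-th power of the `j`-value of `Q` -/
theorem value_Fr (Q : Place k ↥Fk) {c : k}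
    (hc : 0 < Q.ord (jC hJ - algebraMap k _ c)) :
    0 < (Fr hC q Q).ord (jC hJ - algebraMap k _ (c ^ q)) := by
  rw [ord_Fr_jC_sub]
  exact hc

omit [IsAlgClosed k] [FiniteDimensional k⟮jC hJ⟯ ↥Fk] in
/-- **at a `Fr²`-fixed place the `j`-value lies in `𝔽_(q²)`** -/
theorem value_pow_eq_of_Fr_Fr_eq (Q : Place k ↥Fk)
    (hQ : Fr hC q (Fr hC q Q) = Q) {c : k}
    (hc : 0 < Q.ord (jC hJ - algebraMap k _ c)) : c ^ (q ^ 2) = c := by
  have h2 := value_Fr hC hJ q (Fr hC q Q) (value_Fr hC hJ q Q hc)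
  rw [hQ] at h2
  have := value_unique hJ Q h2 hc
  rw [pow_two, pow_mul]
  exact this

/-- **generic places are not fixed by `Fr²`** -/
theorem Fr_Fr_ne_of_generic (Q : Place k ↥Fk)
    (hQ : IsGeneric hJ q Q) : Fr hC q (Fr hC q Q) ≠ Q := by
  intro hfix
  obtain ⟨c, hc⟩ := exists_value hJ Q hQ.1
  exact absurd (hQ.2 c (value_pow_eq_of_Fr_Fr_eq hC hJ q Q hfix hc)) (not_le.mpr hc)

omit [IsAlgClosed k] [FiniteDimensional k⟮jC hJ⟯ ↥Fk] in
/-- `Fr` preserves the cusps: `(Fr Q).ord j = Q.ord j` -/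
theorem ord_Fr_jk (Q : Place k ↥Fk) :
    (Fr hC q Q).ord (jC hJ) = Q.ord (jC hJ) := by
  have h := ord_Fr_jC_sub hC hJ q Q 0
  rw [zero_pow hq.out.ne_zero, map_zero, sub_zero] at h
  exact h

omit [IsAlgClosed k] [FiniteDimensional k⟮jC hJ⟯ ↥Fk] in
/-- `Fr Q` generic implies `Q` generic -/
theorem generic_of_generic_Fr (Q : Place k ↥Fk)
    (h : IsGeneric hJ q (Fr hC q Q)) : IsGeneric hJ q Q := by
  refine ⟨by rw [← ord_Fr_jk hC hJ q Q]; exact h.1, fun c hc => ?_⟩
  have hcq : (c ^ q) ^ (q ^ 2) = c ^ q := by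
    rw [← pow_mul, mul_comm, pow_mul, hc]
  have := h.2 (c ^ q) hcq
  rwa [ord_Fr_jC_sub] at this

omit [IsAlgClosed k] [FiniteDimensional k⟮jC hJ⟯ ↥Fk] in
/-- **`Fr` preserves genericity** -/
theorem generic_Fr_iff (Q : Place k ↥Fk) :
    IsGeneric hJ q (Fr hC q Q) ↔ IsGeneric hJ q Q := by
  refine ⟨generic_of_generic_Fr hC hJ q Q, fun h => ?_⟩
  refine ⟨by rw [ord_Fr_jk hC hJ q Q]; exact h.1, fun d hd => ?_⟩
  have hdq : (d ^ q) ^ q = d := by rw [← pow_mul, ← pow_two]; exact hd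
  have hc : (d ^ q) ^ (q ^ 2) = d ^ q := by
    rw [← pow_mul, mul_comm, pow_mul, hd]
  have := h.2 (d ^ q) hc
  rw [← ord_Fr_jC_sub hC hJ q Q (d ^ q), hdq] at this
  exact this

/-! ### the diamond twist -/

section Twist

variable (d : ↥Fk ≃ₐ[k] ↥Fk) (hdj : d (jC hJ) = jC hJ)

omit [IsAlgClosed k] [FiniteDimensional k⟮jC hJ⟯ ↥Fk] [PerfectField k] in
include hdj in
/-- `Dp d` preserves the `j`-values -/
theorem value_Dp (Q : Place k ↥Fk) {c : k}
    (hc : 0 < Q.ord (jC hJ - algebraMap k _ c)) :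
    0 < (Dp d Q).ord (jC hJ - algebraMap k _ c) := by
  rw [ord_Dp_jk_sub hJ d hdj]
  exact hc

omit [IsAlgClosed k] [FiniteDimensional k⟮jC hJ⟯ ↥Fk] [PerfectField k] in
include hdj in
/-- `Dp d` preserves the cusps -/
theorem ord_Dp_jk (Q : Place k ↥Fk) : (Dp d Q).ord (jC hJ) = Q.ord (jC hJ) :=
  ord_Dp_of_fixed d Q hdj

omit [IsAlgClosed k] [FiniteDimensional k⟮jC hJ⟯ ↥Fk] [PerfectField k] in
include hdj in
/-- **`Dp d` preserves genericity** -/
theorem generic_Dp_iff (Q : Place k ↥Fk) :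
    IsGeneric hJ q (Dp d Q) ↔ IsGeneric hJ q Q := by
  unfold IsGeneric
  rw [ord_Dp_jk hJ d hdj Q]
  refine and_congr_right fun _ => forall₂_congr fun c _ => ?_
  rw [ord_Dp_jk_sub hJ d hdj]

omit [IsAlgClosed k] [FiniteDimensional k⟮jC hJ⟯ ↥Fk] in
include hdj in
/-- **at a place with `Fr (Fr Q) = Dp d Q` the `j`-value lies in `𝔽_(q²)`** -/
theorem value_pow_eq_of_twisted_fixed (Q : Place k ↥Fk)
    (hQ : Fr hC q (Fr hC q Q) = Dp d Q) {c : k}
    (hc : 0 < Q.ord (jC hJ - algebraMap k _ c)) : c ^ (q ^ 2) = c := by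
  have h2 := value_Fr hC hJ q (Fr hC q Q) (value_Fr hC hJ q Q hc)
  rw [hQ, ord_Dp_jk_sub hJ d hdj] at h2
  have := value_unique hJ Q h2 hc
  rw [pow_two, pow_mul]
  exact this

include hdj in
/-- **generic places do not satisfy the twisted node condition `Fr (Fr Q) = Dp d Q`** -/
theorem twisted_ne_of_generic (Q : Place k ↥Fk)
    (hQ : IsGeneric hJ q Q) : Fr hC q (Fr hC q Q) ≠ Dp d Q := by
  intro hfix
  obtain ⟨c, hc⟩ := exists_value hJ Q hQ.1
  exact absurd (hQ.2 c (value_pow_eq_of_twisted_fixed hC hJ q d hdj Q hfix hc)) (not_le.mpr hc)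

include hdj in
/-- the same in the spelling of `FrobKGen.twisted_fixed_iff` -/
theorem twisted_ne_of_generic' (hdψ : ∀ x : ↥Fk, d (psi hC q x) = psi hC q (d x))
    (Q : Place k ↥Fk) (hQ : IsGeneric hJ q Q) :
    Fr hC q (Fr hC q ((Dp d).symm Q)) ≠ Q := fun h =>
  twisted_ne_of_generic hC hJ q d hdj Q hQ ((twisted_fixed_iff hC q d hdψ Q).mp h)

end Twist

end Value

/-! ### the instance at `Fk = F1C N κ(A)` -/

section Residue

open Fermat.Agent.S48.B.Defs.Model Fermat.Agent.S48.B.Red.Seams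

local notation "Kb" => AlgebraicClosure ℚ

set_option synthInstance.maxHeartbeats 400000

variable {A : ValuationSubring Kb} (N : ℕ) [NeZero N]

/-- `k(X₁(N))` is finite over `k(j̄)`, `k = κ(A)`, `A` over `q ∤ N` (main's `IgusaDeg N`) -/
theorem finiteDimensional_F1C (hA : A.LiesOverPrime q) (hqN : ¬ q ∣ N) :
    FiniteDimensional ↥(ResidueField ↥A)⟮jC (jqModC_mem_F1C N (ResidueField ↥A))⟯
      ↥(F1C N (ResidueField ↥A)) :=
  (Fermat.Agent.S48.B.Igusa.Main.igusaDeg N q hq.out hqN A hA).1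

/-- principal divisors on `k(X₁(N))`, `k = κ(A)` -/
theorem hasPrincipalDivisors_F1C (hA : A.LiesOverPrime q) (hqN : ¬ q ∣ N) :
    HasPrincipalDivisors (ResidueField ↥A) ↥(F1C N (ResidueField ↥A)) := by
  haveI := Fermat.Agent.S18.ResidueBasics.isAlgClosed_residueField A
  haveI := finiteDimensional_F1C q N hA hqN
  exact Fermat.Agent.S48.B.Inj.Basics.hasPrincipalDivisors_k
    (jqModC_mem_F1C N (ResidueField ↥A))

/-- **The non-generic places of `κ(A)(X₁(N))` are finitely many.** -/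
theorem finite_nonGeneric_residue1 (hA : A.LiesOverPrime q) (hqN : ¬ q ∣ N) :
    {Q : Place (ResidueField ↥A) ↥(F1C N (ResidueField ↥A)) |
      Q.ord (jC (jqModC_mem_F1C N (ResidueField ↥A))) < 0 ∨
        ∃ c : ResidueField ↥A, c ^ (q ^ 2) = c ∧
          0 < Q.ord (jC (jqModC_mem_F1C N (ResidueField ↥A)) -
            algebraMap (ResidueField ↥A) _ c)}.Finite := by
  haveI := Fermat.Agent.S18.ResidueBasics.isAlgClosed_residueField A
  haveI := hasPrincipalDivisors_F1C q N hA hqN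
  haveI : CharP (ResidueField ↥A) q := Fermat.Agent.S18.ResidueBasics.charP_residueField A hA
  exact finite_nonGeneric (coeffStable_F1C N (ResidueField ↥A))
    (jqModC_mem_F1C N (ResidueField ↥A)) q

/-- generic places of `κ(A)(X₁(N))` are not fixed by `Fr²` -/
theorem Fr_Fr_ne_of_generic_residue1 (hA : A.LiesOverPrime q) (hqN : ¬ q ∣ N)
    (Q : Place (ResidueField ↥A) ↥(F1C N (ResidueField ↥A))) :
    haveI := Fermat.Agent.S18.ResidueBasics.isAlgClosed_residueField A
    haveI : CharP (ResidueField ↥A) q := Fermat.Agent.S18.ResidueBasics.charP_residueField A hA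
    IsGeneric (jqModC_mem_F1C N (ResidueField ↥A)) q Q →
      Fr (coeffStable_F1C N (ResidueField ↥A)) q
        (Fr (coeffStable_F1C N (ResidueField ↥A)) q Q) ≠ Q := by
  haveI := Fermat.Agent.S18.ResidueBasics.isAlgClosed_residueField A
  haveI := finiteDimensional_F1C q N hA hqN
  haveI : CharP (ResidueField ↥A) q := Fermat.Agent.S18.ResidueBasics.charP_residueField A hA
  exact Fr_Fr_ne_of_generic (coeffStable_F1C N (ResidueField ↥A))
    (jqModC_mem_F1C N (ResidueField ↥A)) q Q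

/-- generic places of `κ(A)(X₁(N))` do not satisfy the twisted node condition, for every
`κ(A)`-automorphism `d` of `κ(A)(X₁(N))` fixing `j̄` (the reduced diamond at `X₁(N; r)`) -/
theorem twisted_ne_of_generic_residue1 (hA : A.LiesOverPrime q) (hqN : ¬ q ∣ N)
    (d : ↥(F1C N (ResidueField ↥A)) ≃ₐ[ResidueField ↥A] ↥(F1C N (ResidueField ↥A)))
    (hdj : d (jC (jqModC_mem_F1C N (ResidueField ↥A))) =
      jC (jqModC_mem_F1C N (ResidueField ↥A)))
    (Q : Place (ResidueField ↥A) ↥(F1C N (ResidueField ↥A))) :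
    haveI := Fermat.Agent.S18.ResidueBasics.isAlgClosed_residueField A
    haveI : CharP (ResidueField ↥A) q := Fermat.Agent.S18.ResidueBasics.charP_residueField A hA
    IsGeneric (jqModC_mem_F1C N (ResidueField ↥A)) q Q →
      Fr (coeffStable_F1C N (ResidueField ↥A)) q
        (Fr (coeffStable_F1C N (ResidueField ↥A)) q Q) ≠ Dp d Q := by
  haveI := Fermat.Agent.S18.ResidueBasics.isAlgClosed_residueField A
  haveI := finiteDimensional_F1C q N hA hqN
  haveI : CharP (ResidueField ↥A) q := Fermat.Agent.S18.ResidueBasics.charP_residueField A hA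
  exact twisted_ne_of_generic (coeffStable_F1C N (ResidueField ↥A))
    (jqModC_mem_F1C N (ResidueField ↥A)) q d hdj Q

end Residue

end Fermat.Agent.S43.LG1.C1.Generic.FiniteNonGenericX1

end
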