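/-
PROJECT R (S43), block G, brick C1 (= S34', the `X₁`-twin of S34's `X₀` instance layer), helper7:
**THE GOOD ("GENERIC") PLACES OF A COEFFICIENTWISE STABLE FUNCTION FIELD `Fk ⊆ k((t))` AND THEIR
`j`-VALUES, WITH THE DIAMOND TWIST** — the twin of helper10's `S34/Generic/GoodK` on `C1/FrobKGen`,
helper19's `C1/Generic/FiniteNonGenericX1` and helper25's `C1/Euler/FrobSideX1` (`psiD`, `FrD`).

`IsGood hJ q Q` : `Q` is not a cusp, its `j`-value is not in `𝔽_(q²)`, and `j̄ - γ` is a uniformiser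
at `Q` for some `γ`.  Same names and shapes as the S34 file:

* `finite_compl_good`, `isGood_Fr_iff`, `isGood_Fr_symm`, `Fr_ne_Fr_symm`, `exists_value_good`,
  `ord_fm_eq_zero`, `fm_ne_zero'`, `exists_unif_Fr_symm`;

THE TWIST (`d : Fk ≃ₐ[k] Fk` commuting with `psi` and fixing `j̄`; `FrD = (Dp d)⁻¹ ∘ Fr` the place
map of `ψ = φ ∘ d`): at `X₁(N; r)` the two branches over a good `Q` are `Fr Q` and `FrD⁻¹ Q`.

* `isGood_Dp_iff`, `isGood_FrD_iff`, `isGood_FrD_symm`;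
* `Fr_ne_FrD_symm` : `Fr Q ≠ FrD⁻¹ Q` for good `Q`;
* `exists_unif_FrD_symm` : a uniformiser `j̄ - γm` at `FrD⁻¹ Q` which is a unit at `Fr Q`;
* `exists_values_good` : the three `j`-values around a good place (`γ` at `Q`, `γ^q` at `Fr Q`,
  `γm` at `FrD⁻¹ Q`, `γ^q ≠ γm`, `γ^(q²) ≠ γ`) — the level-free half of `S34/Generic/CompatX0`.
-/
import Mathlib
import Fermat.Agent.S34.Generic.GoodK
import Fermat.Agent.S43.LG1.C1.Generic.FiniteNonGenericX1
import Fermat.Agent.S43.LG1.C1.Euler.FrobSideX1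

set_option autoImplicit false
set_option linter.unusedSectionVars false

noncomputable section

namespace Fermat.Agent.S43.LG1.C1.Generic.GoodKGen

open AlgebraicCurve ModularCurve IntermediateField Fermat.Agent.S24.Ord
open Fermat.Agent.S34.Generic.Dich
open Fermat.Agent.S34.Generic.GoodK (ord_eq_zero_of_hasVal hasVal_of_ord_pos)
open Fermat.Agent.S48.B.Red.CoeffAut1
open Fermat.Agent.S48.B.Inj.Basics (jC transcendental_jC isFF_jC isSeparable_jC)
open Fermat.Agent.S43.LG1.C1.FrobKGen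
open Fermat.Agent.S43.LG1.C1.Generic.FiniteNonGenericX1
open Fermat.Agent.S43.LG1.C1.Euler.FrobSideX1 (FrD FrD_apply)

variable {k : Type*} [Field k] {Fk : IntermediateField k (LaurentSeries k)}
variable (hC : CoeffStable Fk) (hJ : jqModC k ∈ Fk)
variable (q : ℕ) [hq : Fact q.Prime] [CharP k q] [PerfectField k]

/-- the good places: generic in the sense of `FiniteNonGenericX1.IsGeneric`, and `j̄` unramified -/
def IsGood (Q : Place k ↥Fk) : Prop :=
  IsGeneric hJ q Q ∧ ∃ γ : k, Q.ord (jC hJ - algebraMap k _ γ) = 1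

section Main

variable [IsAlgClosed k] [HasPrincipalDivisors k ↥Fk] [FiniteDimensional k⟮jC hJ⟯ ↥Fk]

include hC in
/-- all but finitely many places are good -/
theorem finite_compl_good : {Q : Place k ↥Fk | IsGood hJ q Q}ᶜ.Finite := by
  have h1 := finite_compl_generic hC hJ q
  have h2 := Fermat.Agent.S18.A.Unram.finite_not_simple (isFF_jC hJ) (isSeparable_jC hJ)
  refine (h1.union h2).subset fun Q hQ => ?_
  by_contra hcon
  rw [Set.mem_union, not_or] at hcon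
  apply hQ
  refine ⟨not_not.mp hcon.1, ?_⟩
  have := hcon.2
  rw [Set.mem_ofPred_eq, not_not] at this
  exact this

omit [IsAlgClosed k] [HasPrincipalDivisors k ↥Fk] [FiniteDimensional k⟮jC hJ⟯ ↥Fk] in
/-- `Fr` preserves goodness -/
theorem isGood_Fr_iff (Q : Place k ↥Fk) : IsGood hJ q (Fr hC q Q) ↔ IsGood hJ q Q := by
  unfold IsGood
  rw [generic_Fr_iff hC hJ q Q]
  refine and_congr_right fun _ => ?_
  constructor
  · rintro ⟨γ, hγ⟩
    obtain ⟨c, rfl⟩ : ∃ c : k, c ^ q = γ := by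
      obtain ⟨c, hc⟩ := surjective_frobenius k q γ
      exact ⟨c, hc⟩
    rw [ord_Fr_jC_sub] at hγ
    exact ⟨c, hγ⟩
  · rintro ⟨γ, hγ⟩
    exact ⟨γ ^ q, by rw [ord_Fr_jC_sub]; exact hγ⟩

omit [IsAlgClosed k] [HasPrincipalDivisors k ↥Fk] [FiniteDimensional k⟮jC hJ⟯ ↥Fk] in
theorem isGood_Fr_symm (Q : Place k ↥Fk) (hQ : IsGood hJ q Q) :
    IsGood hJ q ((Fr hC q).symm Q) := by
  rw [← isGood_Fr_iff hC hJ q, Equiv.apply_symm_apply]
  exact hQ

omit [HasPrincipalDivisors k ↥Fk] in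
/-- `Fr Q ≠ Fr⁻¹ Q` at a good place -/
theorem Fr_ne_Fr_symm (Q : Place k ↥Fk) (hQ : IsGood hJ q Q) :
    Fr hC q Q ≠ (Fr hC q).symm Q := by
  intro h
  have h1 : Fr hC q (Fr hC q Q) = Q := by rw [h, Equiv.apply_symm_apply]
  exact Fr_Fr_ne_of_generic hC hJ q Q hQ.1 h1

omit [IsAlgClosed k] [HasPrincipalDivisors k ↥Fk] [FiniteDimensional k⟮jC hJ⟯ ↥Fk]
  [PerfectField k] [CharP k q] in
/-- the `j`-value of a good place, with its properties -/
theorem exists_value_good (Q : Place k ↥Fk) (hQ : IsGood hJ q Q) :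
    ∃ γ : k, HasVal Q (jC hJ) γ ∧ Q.ord (jC hJ - algebraMap k _ γ) = 1 ∧
      γ ^ (q ^ 2) ≠ γ := by
  obtain ⟨γ, hγ⟩ := hQ.2
  have hpos : 0 < Q.ord (jC hJ - algebraMap k _ γ) := by rw [hγ]; exact one_pos
  refine ⟨γ, hasVal_of_ord_pos Q hpos, hγ, fun hfix => ?_⟩
  exact absurd (hQ.1.2 γ hfix) (not_le.mpr hpos)

omit [IsAlgClosed k] [HasPrincipalDivisors k ↥Fk] [FiniteDimensional k⟮jC hJ⟯ ↥Fk]
  [PerfectField k] [CharP k q] in
/-- `j̄^(q²) - j̄` is a unit at a good place -/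
theorem ord_fm_eq_zero (Q : Place k ↥Fk) (hQ : IsGood hJ q Q) :
    Q.ord (jC hJ ^ (q * q) - jC hJ) = 0 := by
  obtain ⟨γ, hv, -, hne⟩ := exists_value_good hJ q Q hQ
  have h1 : HasVal Q (jC hJ ^ (q * q) - jC hJ) (γ ^ (q * q) - γ) := (hv.pow _).sub hv
  refine ord_eq_zero_of_hasVal Q h1 ?_
  rw [← pow_two]
  exact sub_ne_zero.mpr hne

omit [HasPrincipalDivisors k ↥Fk] [IsAlgClosed k] [FiniteDimensional k⟮jC hJ⟯ ↥Fk] in
include hC in
theorem fm_ne_zero' : jC hJ ^ (q * q) - jC hJ ≠ 0 := by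
  have := fm_ne_zero hC hJ q (m := 2) (by norm_num)
  rw [fm, pow_two] at this
  exact this

omit [IsAlgClosed k] [HasPrincipalDivisors k ↥Fk] [FiniteDimensional k⟮jC hJ⟯ ↥Fk] in
/-- a uniformiser `j̄ - γm` at `Fr⁻¹ Q` which is a unit at `Fr Q` -/
theorem exists_unif_Fr_symm (Q : Place k ↥Fk) (hQ : IsGood hJ q Q) :
    ∃ γm : k, ((Fr hC q).symm Q).ord (jC hJ - algebraMap k _ γm) = 1 ∧
      (Fr hC q Q).ord (jC hJ - algebraMap k _ γm) = 0 := by
  obtain ⟨γm, hv, h1, hne⟩ := exists_value_good hJ q _ (isGood_Fr_symm hC hJ q Q hQ)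
  refine ⟨γm, h1, ?_⟩
  have hpos : 0 < ((Fr hC q).symm Q).ord (jC hJ - algebraMap k _ γm) := by
    rw [h1]; exact one_pos
  have h2 := value_Fr hC hJ q _ (value_Fr hC hJ q _ hpos)
  rw [Equiv.apply_symm_apply] at h2
  have hv2 : HasVal (Fr hC q Q) (jC hJ) ((γm ^ q) ^ q) := hasVal_of_ord_pos _ h2
  have h3 : HasVal (Fr hC q Q) (jC hJ - algebraMap k _ γm) ((γm ^ q) ^ q - γm) :=
    hv2.sub (hasVal_const _ γm)
  refine ord_eq_zero_of_hasVal _ h3 ?_
  rw [← pow_mul, ← pow_two]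
  exact sub_ne_zero.mpr hne

end Main

/-! ### the diamond twist -/

section Twist

variable (d : ↥Fk ≃ₐ[k] ↥Fk) (hdj : d (jC hJ) = jC hJ)

omit [PerfectField k] in
include hdj in
/-- `Dp d` preserves goodness -/
theorem isGood_Dp_iff (Q : Place k ↥Fk) : IsGood hJ q (Dp d Q) ↔ IsGood hJ q Q := by
  unfold IsGood
  rw [generic_Dp_iff hJ q d hdj Q]
  refine and_congr_right fun _ => exists_congr fun γ => ?_
  rw [ord_Dp_jk_sub hJ d hdj]

omit [PerfectField k] in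
include hdj in
theorem isGood_Dp_symm_iff (Q : Place k ↥Fk) :
    IsGood hJ q ((Dp d).symm Q) ↔ IsGood hJ q Q := by
  rw [← isGood_Dp_iff hJ q d hdj ((Dp d).symm Q), Equiv.apply_symm_apply]

include hdj in
/-- `FrD` preserves goodness -/
theorem isGood_FrD_iff (Q : Place k ↥Fk) : IsGood hJ q (FrD hC q d Q) ↔ IsGood hJ q Q := by
  rw [FrD_apply, isGood_Dp_symm_iff hJ q d hdj, isGood_Fr_iff hC hJ q]

include hdj in
theorem isGood_FrD_symm (Q : Place k ↥Fk) (hQ : IsGood hJ q Q) :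
    IsGood hJ q ((FrD hC q d).symm Q) := by
  rw [← isGood_FrD_iff hC hJ q d hdj, Equiv.apply_symm_apply]
  exact hQ

/-- `FrD⁻¹ Q = Fr⁻¹ (Dp d Q)` -/
theorem FrD_symm_apply (Q : Place k ↥Fk) :
    (FrD hC q d).symm Q = (Fr hC q).symm (Dp d Q) := rfl

/-- `Fr (FrD⁻¹ Q) = Dp d Q` -/
theorem Fr_FrD_symm (Q : Place k ↥Fk) : Fr hC q ((FrD hC q d).symm Q) = Dp d Q := by
  rw [FrD_symm_apply, Equiv.apply_symm_apply]

section Values

variable [IsAlgClosed k] [FiniteDimensional k⟮jC hJ⟯ ↥Fk]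

include hdj in
/-- **`Fr Q ≠ FrD⁻¹ Q` at a good place**: the two branches over `Q` at `X₁(N; r)` are distinct -/
theorem Fr_ne_FrD_symm (Q : Place k ↥Fk) (hQ : IsGood hJ q Q) :
    Fr hC q Q ≠ (FrD hC q d).symm Q := by
  intro h
  have h1 : Fr hC q (Fr hC q Q) = Dp d Q := by rw [h, Fr_FrD_symm]
  exact twisted_ne_of_generic hC hJ q d hdj Q hQ.1 h1

omit [IsAlgClosed k] [FiniteDimensional k⟮jC hJ⟯ ↥Fk] in
include hdj in
/-- the `j`-value at `FrD⁻¹ Q` is a `q`-th root of the `j`-value at `Q` -/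
theorem value_FrD_symm (Q : Place k ↥Fk) {γ γm : k}
    (hγ : 0 < Q.ord (jC hJ - algebraMap k _ γ))
    (hγm : 0 < ((FrD hC q d).symm Q).ord (jC hJ - algebraMap k _ γm)) : γm ^ q = γ := by
  have h2 := value_Fr hC hJ q _ hγm
  rw [Fr_FrD_symm, ord_Dp_jk_sub hJ d hdj] at h2
  exact value_unique hJ Q h2 hγ

omit [IsAlgClosed k] [FiniteDimensional k⟮jC hJ⟯ ↥Fk] in
include hdj in
/-- a uniformiser `j̄ - γm` at `FrD⁻¹ Q` which is a unit at `Fr Q` -/
theorem exists_unif_FrD_symm (Q : Place k ↥Fk) (hQ : IsGood hJ q Q) :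
    ∃ γm : k, ((FrD hC q d).symm Q).ord (jC hJ - algebraMap k _ γm) = 1 ∧
      (Fr hC q Q).ord (jC hJ - algebraMap k _ γm) = 0 := by
  obtain ⟨γ, -, hγ1, -⟩ := exists_value_good hJ q Q hQ
  obtain ⟨γm, hv, h1, hne⟩ := exists_value_good hJ q _ (isGood_FrD_symm hC hJ q d hdj Q hQ)
  refine ⟨γm, h1, ?_⟩
  have hpos : 0 < Q.ord (jC hJ - algebraMap k _ γ) := by rw [hγ1]; exact one_pos
  have hposm : 0 < ((FrD hC q d).symm Q).ord (jC hJ - algebraMap k _ γm) := by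
    rw [h1]; exact one_pos
  have hγ : γm ^ q = γ := value_FrD_symm hC hJ q d hdj Q hpos hposm
  have h2 := value_Fr hC hJ q Q hpos
  rw [← hγ] at h2
  have hv2 : HasVal (Fr hC q Q) (jC hJ) ((γm ^ q) ^ q) := hasVal_of_ord_pos _ h2
  have h3 : HasVal (Fr hC q Q) (jC hJ - algebraMap k _ γm) ((γm ^ q) ^ q - γm) :=
    hv2.sub (hasVal_const _ γm)
  refine ord_eq_zero_of_hasVal _ h3 ?_
  rw [← pow_mul, ← pow_two]
  exact sub_ne_zero.mpr hne

omit [IsAlgClosed k] [FiniteDimensional k⟮jC hJ⟯ ↥Fk] in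
include hdj in
/-- **the three `j`-values around a good place** -/
theorem exists_values_good (Q : Place k ↥Fk) (hQ : IsGood hJ q Q) :
    ∃ γ γm : k, HasVal Q (jC hJ) γ ∧ HasVal (Fr hC q Q) (jC hJ) (γ ^ q) ∧
      HasVal ((FrD hC q d).symm Q) (jC hJ) γm ∧ γ ^ q ≠ γm ∧ γ ^ (q ^ 2) ≠ γ := by
  obtain ⟨γ, hv, h1, hne⟩ := exists_value_good hJ q Q hQ
  obtain ⟨γm, hvm, h1m, -⟩ := exists_value_good hJ q _ (isGood_FrD_symm hC hJ q d hdj Q hQ)
  have hpos : 0 < Q.ord (jC hJ - algebraMap k _ γ) := by rw [h1]; exact one_pos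
  have hposm : 0 < ((FrD hC q d).symm Q).ord (jC hJ - algebraMap k _ γm) := by
    rw [h1m]; exact one_pos
  have hγ : γm ^ q = γ := value_FrD_symm hC hJ q d hdj Q hpos hposm
  refine ⟨γ, γm, hv, hasVal_of_ord_pos _ (value_Fr hC hJ q Q hpos), hvm, ?_, hne⟩
  intro h
  apply hne
  rw [pow_two, pow_mul, h, hγ]

end Values

end Twist

end Fermat.Agent.S43.LG1.C1.Generic.GoodKGen

end
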