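/-
PROJECT R (S43), block G, brick C1 (= S34', the `X₁`-twin of S34's `X₀` instance layer), helper7:
**PRELIMINARIES FOR `GenericAt` AT `X₁(N; r)`** — the twin of helper10's `S34/Generic/CompatX0`:
the level-`N` reduction datum `RX1`, the restrictions `raX1`, `rbX1` along `α`, `β`, separability
of `E''/F`, regularity of the coefficients of `Φ_r(X, j)`, and the field `fibα` at a good place
(`fibα_X1`), hypotheses-first on the TWO-MAP dichotomy hypotheses (`DichTw.DichHyp2`, with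
`φ = FrobKGen.phi`, `ψ = FrobSideX1.psiD = φ ∘ d`, `Fr`, `FrD = (Dp d)⁻¹ ∘ Fr`, `d` the reduced
diamond) and on the regularity of `j` on non-cuspidal discs.

(`exists_values_good`, the three `j`-values around a good place, is level-free: it is
`GoodKGen.exists_values_good`.)
-/
import Mathlib
import Fermat.Agent.S34.Generic.CompatX0
import Fermat.Agent.S43.LG1.C1.TwoGaussX1
import Fermat.Agent.S43.LG1.C1.Generic.FibX1
import Fermat.Agent.S43.LG1.C1.Generic.GoodKGen
import Fermat.Agent.S43.LG1.C1.Generic.FibSwapTw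

set_option autoImplicit false
set_option linter.unusedSectionVars false
set_option linter.style.haveILetI false

noncomputable section

namespace Fermat.Agent.S43.LG1.C1.Generic.CompatX1

open Polynomial ModularCurve AlgebraicCurve IsLocalRing
open Fermat.Agent.S24.Ord Fermat.Agent.S18.CoreDefs Fermat.Agent.S18.Disc
open Fermat.Agent.S37.Deuring.Core
open Fermat.Agent.S34.TwoGaussX0 (modPolyZ)
open Fermat.Agent.S34.Generic.Compat Fermat.Agent.S34.Generic.RestrAlong
open Fermat.Agent.S34.Generic.CompatX0 (regOn_aeval_int)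
open Fermat.Agent.S48.B.Defs.Model
open Fermat.Agent.S48.B.B1.Seams (jgen1)
open Fermat.Agent.S48.B.ES.DegreeBeta1 (F1pBar)
open Fermat.Agent.S48.B.Red.Seams (jC jqModC_mem_F1C)
open Fermat.Agent.S43.LG1.C1.Seam Fermat.Agent.S43.LG1.C1.TwoGaussX1
open Fermat.Agent.S43.LG1.C1.Generic.FibX1
open Fermat.Agent.S34.Generic.Dich Fermat.Agent.S34.Generic.SmoothRedOfGeneric
open Fermat.Agent.S48.B.Red.CoeffAut1
open Fermat.Agent.S43.LG1.C1.FrobKGen
open Fermat.Agent.S43.LG1.C1.Euler.FrobSideX1 (psiD FrD)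
open Fermat.Agent.S43.LG1.C1.Generic.DichTw Fermat.Agent.S43.LG1.C1.Generic.GoodKGen

local notation "Kb" => AlgebraicClosure ℚ

set_option synthInstance.maxHeartbeats 400000

attribute [local instance] algShortcut1
attribute [local instance] algFE1

variable {r : ℕ} [hrF : Fact r.Prime] {N : ℕ} [NeZero N] [NeZero r] {A : ValuationSubring Kb}
variable (hr : r.Prime) (hA : A.LiesOverPrime r) (hrN : ¬ r ∣ N)
variable [HasPrincipalDivisors Kb ↥(F1Bar N)]
  [HasPrincipalDivisors (ResidueField ↥A) ↥(F1C N (ResidueField ↥A))]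
  [Infinite (ResidueField ↥A)]
variable {gL gk : ℕ} (H : Hyp (gaussDatum1 N A hr hA hrN) gL gk)

/-- the level-`N` reduction datum of `X₁(N)` at `A` -/
abbrev RX1 : RedDatum A (residue ↥A) (placeMap H) := redDatum H

/-- restriction along `α` -/
def raX1 : Restr Kb (algebraMap ↥(F1Bar N) ↥(F1pBar N r)) :=
  restrAlong (alpha1 N r Kb) (isIntegral_alpha1 hr hrN)

/-- restriction along `β` -/
def rbX1 : Restr Kb ((beta1 N r Kb : ↥(F1Bar N) →ₐ[Kb] ↥(F1pBar N r)) :
    ↥(F1Bar N) →+* ↥(F1pBar N r)) :=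
  restrAlong (beta1 N r Kb) (isIntegral_beta1 hr hrN)

theorem raX1_res (P : Place Kb ↥(F1pBar N r)) :
    (raX1 (N := N) hr hrN).res P = resAlong (alpha1 N r Kb) (isIntegral_alpha1 hr hrN) P := rfl

theorem rbX1_res (P : Place Kb ↥(F1pBar N r)) :
    (rbX1 (N := N) hr hrN).res P = resAlong (beta1 N r Kb) (isIntegral_beta1 hr hrN) P := rfl

include hr hrN in
theorem isSeparable_FE1 : Algebra.IsSeparable ↥(F1Bar N) ↥(F1pBar N r) := by
  haveI := finite_FE1 (N := N) (r := r) hr hrN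
  haveI : CharZero ↥(F1Bar N) :=
    charZero_of_injective_algebraMap (algebraMap Kb ↥(F1Bar N)).injective
  infer_instance

/-- the coefficients of `Φ_r(X, j)` are regular wherever `j` is -/
theorem regOn_coeff_PhiO1 (Q : Place (ResidueField ↥A) ↥(F1C N (ResidueField ↥A)))
    (hj : RegOn (placeMap H) (jgen1 N) Q) (i : ℕ) :
    RegOn (placeMap H) ((((setupX1 hr hA hrN).Φ.coeff i : ↥(gaussDatum1 N A hr hA hrN).O)) :
      ↥(F1Bar N)) Q := by
  rw [setupX1_Φ, PhiO1, Polynomial.coeff_map]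
  exact regOn_aeval_int (RX1 hr hA hrN H) (jO1 hr hA hrN) Q hj _

/-- the reduction of `j` -/
theorem red_jO1_RX1 : (RX1 hr hA hrN H).red (jO1 hr hA hrN) = jC N (ResidueField ↥A) :=
  red_jO1 hr hA hrN

/-! ### the field `fibα` at a good place -/

attribute [local instance] Fermat.Agent.S18.ResidueBasics.isAlgClosed_residueField

variable [CharP (ResidueField ↥A) r]

set_option maxHeartbeats 1600000 in
/-- **the field `fibα` at a good place of `X₁(N; r)`**, two-map form: `FQ = Fr Q`,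
`Qm = FrD⁻¹ Q` -/
theorem fibα_X1
    (hreg : ∀ Q : Place (ResidueField ↥A) ↥(F1C N (ResidueField ↥A)),
      0 ≤ Q.ord (jC N (ResidueField ↥A)) → RegOn (placeMap H) (jgen1 N) Q)
    {V₁ V₂ : ValuationSubring ↥(F1pBar N r)}
    (h₁ : (setupX1 hr hA hrN).IsExt (setupX1 hr hA hrN).G₁ V₁)
    (h₂ : (setupX1 hr hA hrN).IsExt (setupX1 hr hA hrN).G₂ V₂)
    (d : ↥(F1C N (ResidueField ↥A)) ≃ₐ[ResidueField ↥A] ↥(F1C N (ResidueField ↥A)))
    (hdj : d (jC N (ResidueField ↥A)) = jC N (ResidueField ↥A))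
    {NC : Set (Place (ResidueField ↥A) ↥(F1C N (ResidueField ↥A)))}
    {B : Set (RX1 hr hA hrN H).O}
    (HD : DichHyp2 (RX1 hr hA hrN H) (algebraMap ↥(F1Bar N) ↥(F1pBar N r))
      (beta1 N r Kb : ↥(F1Bar N) →+* ↥(F1pBar N r)) (raX1 hr hrN) (rbX1 hr hrN) V₁ V₂
      (phi (coeffStable_F1C N (ResidueField ↥A)) r : _ →+* _)
      (psiD (coeffStable_F1C N (ResidueField ↥A)) r d : _ →+* _)
      (Fr (coeffStable_F1C N (ResidueField ↥A)) r)
      (FrD (coeffStable_F1C N (ResidueField ↥A)) r d) NC B)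
    (hNC : ∀ Q : Place (ResidueField ↥A) ↥(F1C N (ResidueField ↥A)),
      0 ≤ Q.ord (jC N (ResidueField ↥A)) → Q ∈ NC)
    (hjB : jO1 hr hA hrN ∈ B)
    (Q : Place (ResidueField ↥A) ↥(F1C N (ResidueField ↥A)))
    (hQ : IsGood (jqModC_mem_F1C N (ResidueField ↥A)) r Q) :
    ∀ PM : Place Kb ↥(F1Bar N), placeMap H PM = Q →
      ∃ P : Place Kb ↥(F1pBar N r), (raX1 (N := N) hr hrN).res P = PM ∧
        placeMap H ((rbX1 (N := N) hr hrN).res P) =
          Fr (coeffStable_F1C N (ResidueField ↥A)) r Q ∧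
        (raX1 (N := N) hr hrN).e P = 1 ∧ ∀ P' : Place Kb ↥(F1pBar N r),
          (raX1 (N := N) hr hrN).res P' = PM →
          placeMap H ((rbX1 (N := N) hr hrN).res P') =
            Fr (coeffStable_F1C N (ResidueField ↥A)) r Q → P' = P := by
  haveI := isScalarTower_along (alpha1 N r Kb)
  haveI := finite_FE1 (N := N) (r := r) hr hrN
  haveI := isSeparable_FE1 (N := N) (r := r) hr hrN
  have hdegF : ∀ P : Place Kb ↥(F1pBar N r), P.deg = 1 :=
    fun P => Fermat.Agent.S43.LG1.C1.Generic.NcBetaX1.deg_eq_one_E1p hrN P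
  obtain ⟨γ, γm, hv, hvF, hvm, hne, hne2⟩ :=
    exists_values_good (coeffStable_F1C N (ResidueField ↥A))
      (jqModC_mem_F1C N (ResidueField ↥A)) r d hdj Q hQ
  have hredj : (RX1 hr hA hrN H).red (jO1 hr hA hrN) = jC N (ResidueField ↥A) :=
    red_jO1 hr hA hrN
  have hQ0 : 0 ≤ Q.ord (jC N (ResidueField ↥A)) := hQ.1.1
  refine Fermat.Agent.S43.LG1.C1.Generic.FibSwapTw.fibα_of_value HD (hNC Q hQ0) rfl
    (Equiv.apply_symm_apply (FrD (coeffStable_F1C N (ResidueField ↥A)) r d) Q)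
    (hval_of_hint (RX1 hr hA hrN H) (raX1 hr hrN) HD.α_const HD.degM hdegF V₁ V₂ Q
      (Fermat.Agent.S34.Generic.PCSetup.hint_of_setup (raX1 hr hrN) (fun P => rfl)
        (setupX1 hr hA hrN) h₁ h₂ Q))
    hjB (γF := γ ^ r) (γm := γm) (by rw [hredj]; exact hvF) (by rw [hredj]; exact hvm) hne ?_
  intro PM hPM
  obtain ⟨c, hc, hcred⟩ := exists_hasVal_of_regOn (RX1 hr hA hrN H) HD.degM (jO1 hr hA hrN)
    (hreg Q hQ0) hPM
  rw [hredj] at hcred
  have hcγ : residue ↥A c = γ := hcred.unique hv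
  have hgen : residue ↥A c ^ (r ^ 2) ≠ residue ↥A c := by rw [hcγ]; exact hne2
  obtain ⟨P, hP1, hP2, -, ⟨x, hx, hxv⟩, huniq⟩ :=
    Fermat.Agent.S43.LG1.C1.Generic.FibX1.exists_typeOne_place hr hA hrN PM c hc hgen
  refine ⟨P, hP1, hP2, ⟨x, by rw [hx, hcγ], hxv⟩, fun P' hP' ⟨x', hx', hxv'⟩ => ?_⟩
  exact huniq P' hP' ⟨x', by rw [hx', hcγ], hxv'⟩

end Fermat.Agent.S43.LG1.C1.Generic.CompatX1

end
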