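/-
PROJECT R (S43), block G, brick C1 (= S34', the `X₁`-twin of S34's `X₀` instance layer), helper19:
**THE RECORD `DichTw.DichHyp2` AT `X₁(N; r)`** — the twin of helper6's
`S34/Generic/DichRecordX0`, in the literal shape consumed by helper7's
`Generic/CompatX1.fibα_X1` / `Generic/GenericX1.genericAt_X1`:

  `DichHyp2 (RX1 hr hA hrN H) (algebraMap F E'') β (raX1 hr hrN) (rbX1 hr hrN) V₁ V₂ φ ψ Fr FrD
     NC B`,

`NC` = the non-cuspidal places of `κ(X₁(N))`, `B` = the Gauss-integral functions of level `N`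
which are regular on all non-cuspidal discs, `V₁ = (BranchX1.B1X1 hr hA hrN).O`,
`V₂ = V₁.comap W` (`= (BranchX1.B2X1 hr hA hrN).O`), `φ = FrobKGen.phi`,
`ψ = FrobSideX1.psiD = φ ∘ d̄`, `Fr = FrobKGen.Fr`, `FrD = (Dp d̄)⁻¹ ∘ Fr`,
`d̄ = DiamondRed1.dbar1` the reduced diamond.

THE TWO-MAP DICTIONARY (helper16's `BranchX1`): `red₁ (α g) = ḡ`, `red₁ (β g) = φ ḡ`,
`red₂ (β g) = ḡ`, `red₂ (α g) = φ (d̄ ḡ) = ψ ḡ`; so `cong₁` is on `φ` and `cong₂` on `ψ`.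

The fields which are not one-liners are hypotheses of `dichHyp2_of` (`B_φ`, `B_ψ`, `B_sep`: they
are `Generic/DichLiftX1`); all the others are proved here.
-/
import Mathlib
import Fermat.Agent.S34.BranchAux
import Fermat.Agent.S43.LG1.C1.Z1X1
import Fermat.Agent.S43.LG1.C1.CuspRedX1
import Fermat.Agent.S43.LG1.C1.Euler.FrobSideX1
import Fermat.Agent.S43.LG1.C1.Generic.BranchX1
import Fermat.Agent.S43.LG1.C1.Generic.CompatX1

set_option autoImplicit false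
set_option linter.unusedSectionVars false
set_option linter.style.haveILetI false
set_option synthInstance.maxHeartbeats 400000

noncomputable section

namespace Fermat.Agent.S43.LG1.C1.Generic.DichRecordX1

open Polynomial ModularCurve AlgebraicCurve IsLocalRing
open Fermat.Agent.S24.Ord Fermat.Agent.S18.CoreDefs Fermat.Agent.S18.Disc
open Fermat.Agent.S37.Deuring.Core
open Fermat.Agent.S34.Generic.Compat Fermat.Agent.S34.Generic.Dich
  Fermat.Agent.S34.Generic.RestrAlong Fermat.Agent.S34.NodalDefs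
open Fermat.Agent.S48.B.Defs.Model
open Fermat.Agent.S48.B.B1.Seams (jgen1)
open Fermat.Agent.S48.B.ES.DegreeBeta1 (F1pBar)
open Fermat.Agent.S48.B.Red.Seams (jC jqModC_mem_F1C)
open Fermat.Agent.S48.B.Red.CoeffAut1
open Fermat.Agent.S43.LG1.C1.Seam Fermat.Agent.S43.LG1.C1.TwoGaussX1
open Fermat.Agent.S43.LG1.C1.FrobKGen
open Fermat.Agent.S43.LG1.C1.Euler.FrobSideX1 (psiD psiD_apply FrD)
open Fermat.Agent.S43.LG1.C1.DiamondRed1 (dbar1 dbar1_jC)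
open Fermat.Agent.S43.LG1.C1.Generic.DichTw
open Fermat.Agent.S43.LG1.C1.Generic.CompatX1
open Fermat.Agent.S43.LG1.C1.Generic.BranchX1
open Fermat.Agent.S43.LG1.C1.Generic.FibX1 (isIntegral_alpha1 isIntegral_beta1)

local notation "Kb" => AlgebraicClosure ℚ

attribute [local instance] algShortcut1
attribute [local instance] algFE1
attribute [local instance] Fermat.Agent.S18.ResidueBasics.isAlgClosed_residueField

variable {r : ℕ} [hrF : Fact r.Prime] {N : ℕ} [NeZero N] [NeZero r] {A : ValuationSubring Kb}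
variable (hr : r.Prime) (hA : A.LiesOverPrime r) (hrN : ¬ r ∣ N)
variable [HasPrincipalDivisors Kb ↥(F1Bar N)]
  [HasPrincipalDivisors (ResidueField ↥A) ↥(F1C N (ResidueField ↥A))]
  [Infinite (ResidueField ↥A)]
variable {gL gk : ℕ} (H : Hyp (gaussDatum1 N A hr hA hrN) gL gk)

/-- the non-cuspidal places of `κ(X₁(N))` -/
def NCX1 (A : ValuationSubring Kb) (N : ℕ) [NeZero N] :
    Set (Place (ResidueField ↥A) ↥(F1C N (ResidueField ↥A))) :=
  {Q | 0 ≤ Q.ord (jC N (ResidueField ↥A))}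

/-- the test functions: Gauss-integral, regular on all non-cuspidal discs -/
def BX1 : Set (RX1 hr hA hrN H).O :=
  {g | ∀ Q ∈ NCX1 A N, RegOn (placeMap H) ((g : (RX1 hr hA hrN H).O) : ↥(F1Bar N)) Q}

/-- the first Gauss ring -/
abbrev V1 : ValuationSubring ↥(F1pBar N r) := (B1X1 hr hA hrN).O

/-- the second Gauss ring -/
abbrev V2 : ValuationSubring ↥(F1pBar N r) := (B1X1 hr hA hrN).O.comap (W1Hom N r hr hrN)

/-! ### the two Gauss rings -/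

theorem mem_V2_iff (x : ↥(F1pBar N r)) :
    x ∈ V2 hr hA hrN ↔ W1 N r hr hrN x ∈ V1 hr hA hrN := Iff.rfl

/-- the second Gauss ring is the ring of the second branch -/
theorem V2_eq_B2X1_O : V2 hr hA hrN = (B2X1 hr hA hrN).O := rfl

theorem comap_V1 : (V1 hr hA hrN).comap (algebraMap ↥(F1Bar N) ↥(F1pBar N r)) =
    (gaussDatum1 N A hr hA hrN).O :=
  (isExt₁ hr hA hrN).comap

theorem comap_V2 : (V2 hr hA hrN).comap (algebraMap ↥(F1Bar N) ↥(F1pBar N r)) =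
    (gaussDatum1 N A hr hA hrN).O :=
  (isExt_comap hr hA hrN).comap

/-! ### the dictionary -/

theorem alpha_mem₁ (g : (RX1 hr hA hrN H).O) :
    algebraMap ↥(F1Bar N) ↥(F1pBar N r) ((g : (RX1 hr hA hrN H).O) : ↥(F1Bar N)) ∈
      V1 hr hA hrN :=
  hα hr hA hrN g

theorem beta_mem₁ (g : (RX1 hr hA hrN H).O) :
    (beta1 N r Kb : ↥(F1Bar N) →+* ↥(F1pBar N r))
      ((g : (RX1 hr hA hrN H).O) : ↥(F1Bar N)) ∈ V1 hr hA hrN :=
  hβ hr hA hrN g

theorem alpha_mem₂ (g : (RX1 hr hA hrN H).O) :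
    algebraMap ↥(F1Bar N) ↥(F1pBar N r) ((g : (RX1 hr hA hrN H).O) : ↥(F1Bar N)) ∈
      V2 hr hA hrN :=
  hα₂ hr hA hrN g

theorem beta_mem₂ (g : (RX1 hr hA hrN H).O) :
    (beta1 N r Kb : ↥(F1Bar N) →+* ↥(F1pBar N r))
      ((g : (RX1 hr hA hrN H).O) : ↥(F1Bar N)) ∈ V2 hr hA hrN :=
  hβ₂ hr hA hrN g

variable [CharP (ResidueField ↥A) r]

/-- `red₁ (β g - α g') = φ (red g) - red g'` -/
theorem cong₁ (g g' : (RX1 hr hA hrN H).O)
    (h : (RX1 hr hA hrN H).red g' =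
      (phi (coeffStable_F1C N (ResidueField ↥A)) r : _ →+* _) ((RX1 hr hA hrN H).red g)) :
    (beta1 N r Kb : ↥(F1Bar N) →+* ↥(F1pBar N r))
        ((g : (RX1 hr hA hrN H).O) : ↥(F1Bar N)) -
      algebraMap ↥(F1Bar N) ↥(F1pBar N r) ((g' : (RX1 hr hA hrN H).O) : ↥(F1Bar N)) ∈
        (V1 hr hA hrN).nonunits := by
  have h0 : (B1X1 hr hA hrN).red (⟨_, hβ hr hA hrN g⟩ - ⟨_, hα hr hA hrN g'⟩) = 0 := by
    rw [map_sub, hredβ' hr hA hrN g, hredα hr hA hrN g', sub_eq_zero]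
    exact h.symm
  exact (Fermat.Agent.S34.BranchAux.red_eq_zero_iff_mem_nonunits (B1X1 hr hA hrN) _).mp h0

/-- `red₂ (α g - β g') = ψ (red g) - red g'`, `ψ = φ ∘ d̄` -/
theorem cong₂ (g g' : (RX1 hr hA hrN H).O)
    (h : (RX1 hr hA hrN H).red g' =
      (psiD (coeffStable_F1C N (ResidueField ↥A)) r (dbar1 hr hA hrN) : _ →+* _)
        ((RX1 hr hA hrN H).red g)) :
    algebraMap ↥(F1Bar N) ↥(F1pBar N r) ((g : (RX1 hr hA hrN H).O) : ↥(F1Bar N)) -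
      (beta1 N r Kb : ↥(F1Bar N) →+* ↥(F1pBar N r))
        ((g' : (RX1 hr hA hrN H).O) : ↥(F1Bar N)) ∈ (V2 hr hA hrN).nonunits := by
  have h0 : (B2X1 hr hA hrN).red (⟨_, hα₂ hr hA hrN g⟩ - ⟨_, hβ₂ hr hA hrN g'⟩) = 0 := by
    rw [map_sub, hredα₂ hr hA hrN g, hredβ₂ hr hA hrN g', sub_eq_zero]
    exact h.symm
  exact (Fermat.Agent.S34.BranchAux.red_eq_zero_iff_mem_nonunits (B2X1 hr hA hrN) _).mp h0

/-! ### `𝔪₁ ∩ 𝔪₂ = 𝔪_A (O₁ ∩ O₂)` -/

omit [CharP (ResidueField ↥A) r] in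
theorem algebraMap_mem_V1_iff (c : Kb) :
    algebraMap Kb ↥(F1pBar N r) c ∈ V1 hr hA hrN ↔ c ∈ A :=
  ⟨fun h => (B1X1 hr hA hrN).mem_of_algebraMap_mem c h,
    fun h => (B1X1 hr hA hrN).algebraMap_mem ⟨c, h⟩⟩

omit [CharP (ResidueField ↥A) r] in
theorem algebraMap_mem_V2_iff (c : Kb) :
    algebraMap Kb ↥(F1pBar N r) c ∈ V2 hr hA hrN ↔ c ∈ A :=
  ⟨fun h => (B2X1 hr hA hrN).mem_of_algebraMap_mem c h,
    fun h => (B2X1 hr hA hrN).algebraMap_mem ⟨c, h⟩⟩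

omit [CharP (ResidueField ↥A) r] in
include H in
theorem hm12 : ∀ h₀ : ↥(F1pBar N r), h₀ ∈ (V1 hr hA hrN).nonunits →
    h₀ ∈ (V2 hr hA hrN).nonunits → ∃ c : A, residue ↥A c = 0 ∧
      ∃ h : ↥(F1pBar N r), h ∈ V1 hr hA hrN ∧ h ∈ V2 hr hA hrN ∧
        h₀ = algebraMap Kb ↥(F1pBar N r) (c : Kb) * h := by
  refine hm12_of_valuation (RX1 hr hA hrN H) (V1 hr hA hrN) (V2 hr hA hrN) ?_ ?_
    (algebraMap_mem_V1_iff hr hA hrN) (algebraMap_mem_V2_iff hr hA hrN)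
  · intro f hf
    obtain ⟨a, -, ha⟩ := Fermat.Agent.S43.LG1.C1.Z1X1.exists_valuation_eq_const1 hr hA hrN
      (comap_V1 hr hA hrN) hf
    exact ⟨a, ha⟩
  · intro f hf
    obtain ⟨a, -, ha⟩ := Fermat.Agent.S43.LG1.C1.Z1X1.exists_valuation_eq_const1 hr hA hrN
      (comap_V2 hr hA hrN) hf
    exact ⟨a, ha⟩

/-! ### the record -/

/-- **`DichHyp2` at `X₁(N; r)`**, from the three lifting statements `B_φ`, `B_ψ`, `B_sep`
(`Generic/DichLiftX1`). -/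
theorem dichHyp2_of
    (hBφ : ∀ g ∈ BX1 hr hA hrN H, ∃ g' ∈ BX1 hr hA hrN H,
      (RX1 hr hA hrN H).red g' =
        (phi (coeffStable_F1C N (ResidueField ↥A)) r : _ →+* _) ((RX1 hr hA hrN H).red g))
    (hBψ : ∀ g ∈ BX1 hr hA hrN H, ∃ g' ∈ BX1 hr hA hrN H,
      (RX1 hr hA hrN H).red g' =
        (psiD (coeffStable_F1C N (ResidueField ↥A)) r (dbar1 hr hA hrN) : _ →+* _)
          ((RX1 hr hA hrN H).red g))
    (hBsep : ∀ Q₁ ∈ NCX1 A N, ∀ Q₂ ∈ NCX1 A N,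
      (∀ g ∈ BX1 hr hA hrN H, ∀ γ : ResidueField ↥A,
        HasVal Q₁ ((RX1 hr hA hrN H).red g) γ → HasVal Q₂ ((RX1 hr hA hrN H).red g) γ) →
        Q₁ = Q₂) :
    DichHyp2 (RX1 hr hA hrN H) (algebraMap ↥(F1Bar N) ↥(F1pBar N r))
      (beta1 N r Kb : ↥(F1Bar N) →+* ↥(F1pBar N r)) (raX1 hr hrN) (rbX1 hr hrN)
      (V1 hr hA hrN) (V2 hr hA hrN)
      (phi (coeffStable_F1C N (ResidueField ↥A)) r : _ →+* _)
      (psiD (coeffStable_F1C N (ResidueField ↥A)) r (dbar1 hr hA hrN) : _ →+* _)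
      (Fr (coeffStable_F1C N (ResidueField ↥A)) r)
      (FrD (coeffStable_F1C N (ResidueField ↥A)) r (dbar1 hr hA hrN)) (NCX1 A N)
      (BX1 hr hA hrN H) where
  α_const c := (alpha1 N r Kb).commutes c
  β_const c := (beta1 N r Kb).commutes c
  degM P := Fermat.Agent.S48.B.Inj.Basics.deg_eq_one
    (Fermat.Agent.S43.LG1.C1.CuspRedX1.isFF_jgen1 N) P
  degk Q := H.riemannK.deg_one Q
  nc_fr Q hQ := by
    show 0 ≤ (Fr (coeffStable_F1C N (ResidueField ↥A)) r Q).ord (jC N (ResidueField ↥A))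
    rw [show jC N (ResidueField ↥A) =
      Fermat.Agent.S48.B.Inj.Basics.jC (jqModC_mem_F1C N (ResidueField ↥A)) from rfl,
      Fermat.Agent.S43.LG1.C1.Euler.FrobSideX1.ord_Fr_jk]
    exact hQ
  nc_frψ Q hQ := by
    show 0 ≤ (FrD (coeffStable_F1C N (ResidueField ↥A)) r (dbar1 hr hA hrN) Q).ord
      (jC N (ResidueField ↥A))
    rw [show jC N (ResidueField ↥A) =
      Fermat.Agent.S48.B.Inj.Basics.jC (jqModC_mem_F1C N (ResidueField ↥A)) from rfl,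
      Fermat.Agent.S43.LG1.C1.Euler.FrobSideX1.ord_FrD_jk _ _ _ _ (dbar1_jC hr hA hrN)]
    exact hQ
  frψ_inj := (FrD (coeffStable_F1C N (ResidueField ↥A)) r (dbar1 hr hA hrN)).injective
  nc_β P hP := Fermat.Agent.S43.LG1.C1.Generic.FibX1.nc_beta hr hA hrN H P hP
  B_add g hg g' hg' Q hQ := (hg Q hQ).add (hg' Q hQ)
  B_reg g hg Q hQ := hg Q hQ
  B_φ := hBφ
  B_ψ := hBψ
  B_sep := hBsep
  φ_val Q _ y γ h :=
    (Fermat.Agent.S43.LG1.C1.Euler.FrobSideX1.valueRule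
      (coeffStable_F1C N (ResidueField ↥A)) r Q y γ).mpr h
  ψ_val Q _ y γ h :=
    (Fermat.Agent.S43.LG1.C1.Euler.FrobSideX1.valueRuleD
      (coeffStable_F1C N (ResidueField ↥A)) r (dbar1 hr hA hrN) Q y γ).mpr h
  α_mem₁ := alpha_mem₁ hr hA hrN H
  β_mem₁ := beta_mem₁ hr hA hrN H
  α_mem₂ := alpha_mem₂ hr hA hrN H
  β_mem₂ := beta_mem₂ hr hA hrN H
  cong₁ := cong₁ hr hA hrN H
  cong₂ := cong₂ hr hA hrN H
  hm12 := hm12 hr hA hrN H

omit [CharP (ResidueField ↥A) r] in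
/-- every non-cuspidal place is in `NC` -/
theorem mem_NCX1 (Q : Place (ResidueField ↥A) ↥(F1C N (ResidueField ↥A)))
    (hQ : 0 ≤ Q.ord (jC N (ResidueField ↥A))) : Q ∈ NCX1 A N := hQ

omit [CharP (ResidueField ↥A) r] in
/-- `j` is a test function -/
theorem jO1_mem_BX1 : jO1 hr hA hrN ∈ BX1 hr hA hrN H := fun Q hQ =>
  Fermat.Agent.S43.LG1.C1.CuspRedX1.regOn_jgen1 (igusaDegN N) hr hrN hA H Q hQ

omit [CharP (ResidueField ↥A) r] in
/-- the same under the name of the S34 file (`jO_mem_BX0`) -/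
theorem jO_mem_BX1 : jO1 hr hA hrN ∈ BX1 hr hA hrN H := jO1_mem_BX1 hr hA hrN H

end Fermat.Agent.S43.LG1.C1.Generic.DichRecordX1

end
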