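/-
PROJECT R (S43), block G, brick C1 (= S34', the `X₁`-twin of S34's `X₀` instance layer), helper7:
**THE DICHOTOMY AT A GENERIC PLACE AND THE TYPE CRITERION, TWO-MAP FORM** — the generalised twin
of Parts C, D of helper18's abstract `S34/Generic/Dich`.

Main's `Dich.DichHyp` has ONE Frobenius pull-back `φ` (and one place map `Fr`) for both valuation
rings: `cong₁ : red g' = φ (red g) → β g - α g' ∈ 𝔪₁` and `cong₂ : red g' = φ (red g) →
α g - β g' ∈ 𝔪₂`.  At `X₁(N; r)` the reduction dictionary has TWO maps (`red₁ (α g) = ḡ`,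
`red₁ (β g) = φ ḡ`, `red₂ (β g) = ḡ`, `red₂ (α g) = ψ ḡ`, `ψ = φ ∘ d̄`, `d̄` the reduced diamond
`⟨r⁻¹⟩`), so `cong₂` holds for `red g' = ψ (red g)` only, and the dichotomy reads
`Q' = Fr Q ∨ Frψ Q' = Q`.

* `DichHyp2 R α β ra rb O₁ O₂ φ ψ Fr Frψ NC B` : the hypotheses;
* `DichHyp2.key`, `dich'`, `dich`, `type_iff`, `type_iff_exists` : same names and shapes as main;
* `DichHyp2.of_one` : main's `DichHyp` is the case `ψ = φ`, `Frψ = Fr`.

Parts A, B, E of main's file (`HasVal`, `exists_hasVal_of_regOn`, `hasVal_of_restr`,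
`hm12_of_valuation`, `hval_of_hint`) are map-free and imported as they are.
-/
import Mathlib
import Fermat.Agent.S34.Generic.Dich

set_option autoImplicit false
set_option linter.unusedSectionVars false

noncomputable section

namespace Fermat.Agent.S43.LG1.C1.Generic.DichTw

open AlgebraicCurve Fermat.Agent.S24.Ord Fermat.Agent.S18.CoreDefs
  Fermat.Agent.S18.Disc Fermat.Agent.S34.Generic.Compat Fermat.Agent.S34.Generic.Dich

variable {L : Type*} [Field L] {FM : Type*} [Field FM] [Algebra L FM]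
variable {k : Type*} [Field k] {Fk : Type*} [Field Fk] [Algebra k Fk]
variable {A : ValuationSubring L} {π : A →+* k} {r : Place L FM → Place k Fk}
variable {F : Type*} [Field F] [Algebra L F]
variable [HasPrincipalDivisors L FM]

/-- the hypotheses of the dichotomy, for an abstract pair `(α, O₁)`, `(β, O₂)`, with TWO
Frobenius pull-backs: `φ` (seen from `O₁`) and `ψ` (seen from `O₂`) -/
structure DichHyp2 (R : RedDatum A π r) (α β : FM →+* F) (ra : Restr L α) (rb : Restr L β)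
    (O₁ O₂ : ValuationSubring F) (φ ψ : Fk →+* Fk) (Fr Frψ : Place k Fk → Place k Fk)
    (NC : Set (Place k Fk)) (B : Set R.O) : Prop where
  /-- `α`, `β` are `L`-linear -/
  α_const : ∀ c : L, α (algebraMap L FM c) = algebraMap L F c
  β_const : ∀ c : L, β (algebraMap L FM c) = algebraMap L F c
  /-- all places have degree one -/
  degM : ∀ P : Place L FM, P.deg = 1
  degk : ∀ Q : Place k Fk, Q.deg = 1
  /-- the good ("non-cuspidal") places are stable under `Fr`, `Frψ`; `Frψ` is injective -/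
  nc_fr : ∀ Q ∈ NC, Fr Q ∈ NC
  nc_frψ : ∀ Q ∈ NC, Frψ Q ∈ NC
  frψ_inj : Function.Injective Frψ
  /-- a place whose `α`-restriction is in a good disc has its `β`-restriction in a good disc -/
  nc_β : ∀ P : Place L F, r (ra.res P) ∈ NC → r (rb.res P) ∈ NC
  /-- the test functions: an additive family, regular on all good discs, stable under lifting of
  `φ` and of `ψ`, whose reductions separate the good places -/
  B_add : ∀ g ∈ B, ∀ g' ∈ B, g + g' ∈ B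
  B_reg : ∀ g ∈ B, ∀ Q ∈ NC, RegOn r ((g : R.O) : FM) Q
  B_φ : ∀ g ∈ B, ∃ g' ∈ B, R.red g' = φ (R.red g)
  B_ψ : ∀ g ∈ B, ∃ g' ∈ B, R.red g' = ψ (R.red g)
  B_sep : ∀ Q₁ ∈ NC, ∀ Q₂ ∈ NC,
    (∀ g ∈ B, ∀ γ : k, HasVal Q₁ (R.red g) γ → HasVal Q₂ (R.red g) γ) → Q₁ = Q₂
  /-- the value rules `(φ y)(Q) = y(Fr Q)`, `(ψ y)(Q) = y(Frψ Q)` -/
  φ_val : ∀ Q ∈ NC, ∀ (y : Fk) (γ : k), HasVal (Fr Q) y γ → HasVal Q (φ y) γ
  ψ_val : ∀ Q ∈ NC, ∀ (y : Fk) (γ : k), HasVal (Frψ Q) y γ → HasVal Q (ψ y) γ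
  /-- the reduction dictionary, in congruence form -/
  α_mem₁ : ∀ g : R.O, α (g : FM) ∈ O₁
  β_mem₁ : ∀ g : R.O, β (g : FM) ∈ O₁
  α_mem₂ : ∀ g : R.O, α (g : FM) ∈ O₂
  β_mem₂ : ∀ g : R.O, β (g : FM) ∈ O₂
  cong₁ : ∀ g g' : R.O, R.red g' = φ (R.red g) → β (g : FM) - α (g' : FM) ∈ O₁.nonunits
  cong₂ : ∀ g g' : R.O, R.red g' = ψ (R.red g) → α (g : FM) - β (g' : FM) ∈ O₂.nonunits
  /-- `𝔪₁ ∩ 𝔪₂ = 𝔪_A (O₁ ∩ O₂)` -/
  hm12 : ∀ h₀ : F, h₀ ∈ O₁.nonunits → h₀ ∈ O₂.nonunits →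
    ∃ c : A, π c = 0 ∧ ∃ h : F, h ∈ O₁ ∧ h ∈ O₂ ∧ h₀ = algebraMap L F (c : L) * h

variable {R : RedDatum A π r} {α β : FM →+* F} {ra : Restr L α} {rb : Restr L β}
  {O₁ O₂ : ValuationSubring F} {φ ψ : Fk →+* Fk} {Fr Frψ : Place k Fk → Place k Fk}
  {NC : Set (Place k Fk)} {B : Set R.O}

/-- main's one-map hypotheses are the case `ψ = φ`, `Frψ = Fr` -/
theorem DichHyp2.of_one (H : DichHyp R α β ra rb O₁ O₂ φ Fr NC B) :
    DichHyp2 R α β ra rb O₁ O₂ φ φ Fr Fr NC B where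
  α_const := H.α_const
  β_const := H.β_const
  degM := H.degM
  degk := H.degk
  nc_fr := H.nc_fr
  nc_frψ := H.nc_fr
  frψ_inj := H.fr_inj
  nc_β := H.nc_β
  B_add := H.B_add
  B_reg := H.B_reg
  B_φ := H.B_φ
  B_ψ := H.B_φ
  B_sep := H.B_sep
  φ_val := H.φ_val
  ψ_val := H.φ_val
  α_mem₁ := H.α_mem₁
  β_mem₁ := H.β_mem₁
  α_mem₂ := H.α_mem₂
  β_mem₂ := H.β_mem₂
  cong₁ := H.cong₁
  cong₂ := H.cong₂
  hm12 := H.hm12

/-- the six values of a test triple at a place over a good disc -/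
theorem DichHyp2.exists_values (H : DichHyp2 R α β ra rb O₁ O₂ φ ψ Fr Frψ NC B)
    {Q : Place k Fk} (hQ : Q ∈ NC) {g g' g'' : R.O} (hg : g ∈ B) (hg' : g' ∈ B) (hg'' : g'' ∈ B)
    {P : Place L F} (hP : r (ra.res P) = Q) :
    ∃ a a' b b'' : A,
      HasVal P (α (g : FM)) (a : L) ∧ HasVal P (α (g' : FM)) (a' : L) ∧
      HasVal P (β (g : FM)) (b : L) ∧ HasVal P (β (g'' : FM)) (b'' : L) ∧
      HasVal Q (R.red g) (π a) ∧ HasVal Q (R.red g') (π a') ∧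
      HasVal (r (rb.res P)) (R.red g) (π b) ∧ HasVal (r (rb.res P)) (R.red g'') (π b'') := by
  have hQ' : r (rb.res P) ∈ NC := H.nc_β P (hP ▸ hQ)
  obtain ⟨a, ha1, ha2⟩ := exists_hasVal_of_regOn R H.degM g (H.B_reg g hg Q hQ) hP
  obtain ⟨a', ha'1, ha'2⟩ := exists_hasVal_of_regOn R H.degM g' (H.B_reg g' hg' Q hQ) hP
  obtain ⟨b, hb1, hb2⟩ := exists_hasVal_of_regOn R H.degM g (H.B_reg g hg _ hQ') rfl
  obtain ⟨b'', hb'1, hb'2⟩ := exists_hasVal_of_regOn R H.degM g'' (H.B_reg g'' hg'' _ hQ') rfl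
  exact ⟨a, a', b, b'', hasVal_of_restr ra H.α_const ha1, hasVal_of_restr ra H.α_const ha'1,
    hasVal_of_restr rb H.β_const hb1, hasVal_of_restr rb H.β_const hb'1, ha2, ha'2, hb2, hb'2⟩

/-- **the key identity**: for a test function `g` with lifts `g'`, `g''` (`red g' = φ (red g)`,
`red g'' = ψ (red g)`), the product `(g(Q') - g(Fr Q)) (g(Q) - g(Frψ Q'))` vanishes,
`Q' = r (P ∘ β)` -/
theorem DichHyp2.key (H : DichHyp2 R α β ra rb O₁ O₂ φ ψ Fr Frψ NC B) {Q : Place k Fk}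
    (hQ : Q ∈ NC)
    (hval : ∀ h : F, h ∈ O₁ → h ∈ O₂ →
      (∀ P' : Place L F, r (ra.res P') = Q → P'.adicValuation h ≤ 1) →
      ∀ P : Place L F, r (ra.res P) = Q → ∃ d : A, HasVal P h (d : L))
    {P : Place L F} (hP : r (ra.res P) = Q) {g : R.O} (hg : g ∈ B) :
    (valAt (r (rb.res P)) (R.red g) - valAt (Fr Q) (R.red g)) *
      (valAt Q (R.red g) - valAt (Frψ (r (rb.res P))) (R.red g)) = 0 := by
  obtain ⟨g', hg', hφ⟩ := H.B_φ g hg
  obtain ⟨g'', hg'', hψ⟩ := H.B_ψ g hg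
  have hQ' : r (rb.res P) ∈ NC := H.nc_β P (hP ▸ hQ)
  set h₀ : F := (β (g : FM) - α (g' : FM)) * (α (g : FM) - β (g'' : FM)) with hh₀
  -- `h₀` has a value at every place over the disc of `Q`
  have hval₀ : ∀ P' : Place L F, r (ra.res P') = Q → ∃ a a' b b'' : A,
      HasVal P' h₀ (((b : L) - a') * ((a : L) - b'')) ∧
      HasVal Q (R.red g) (π a) ∧ HasVal Q (R.red g') (π a') ∧
      HasVal (r (rb.res P')) (R.red g) (π b) ∧ HasVal (r (rb.res P')) (R.red g'') (π b'') := by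
    intro P' hP'
    obtain ⟨a, a', b, b'', h1, h2, h3, h4, h5, h6, h7, h8⟩ :=
      H.exists_values hQ hg hg' hg'' hP'
    exact ⟨a, a', b, b'', (h3.sub h2).mul (h1.sub h4), h5, h6, h7, h8⟩
  obtain ⟨a, a', b, b'', hv, h5, h6, h7, h8⟩ := hval₀ P hP
  -- `h₀ ∈ 𝔪₁ ∩ 𝔪₂`
  have hm1 : h₀ ∈ O₁.nonunits := by
    rw [hh₀, mul_comm]
    exact mul_mem_nonunits' O₁ (sub_mem (H.α_mem₁ g) (H.β_mem₁ g'')) (H.cong₁ g g' hφ)
  have hm2 : h₀ ∈ O₂.nonunits :=
    mul_mem_nonunits' O₂ (sub_mem (H.β_mem₂ g) (H.α_mem₂ g')) (H.cong₂ g g'' hψ)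
  obtain ⟨c, hc, h, hh1, hh2, hh₀c⟩ := H.hm12 h₀ hm1 hm2
  -- the product of the values lies in `𝔪_A`
  have hprod : (π b - π a') * (π a - π b'') = 0 := by
    rcases eq_or_ne (c : L) 0 with hc0 | hc0
    · have h0 : h₀ = 0 := by rw [hh₀c, hc0, map_zero, zero_mul]
      have h1 := (hv.congr h0).unique (hasVal_zero P)
      have h2 : ((b - a') * (a - b'') : A) = 0 := Subtype.ext (by push_cast; exact h1)
      have h3 := congrArg π h2
      simpa using h3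
    · have hcF : algebraMap L F (c : L) ≠ 0 := (map_ne_zero _).mpr hc0
      have hh : h = h₀ * (algebraMap L F (c : L))⁻¹ := by
        rw [hh₀c]; field_simp
      have hreg : ∀ P' : Place L F, r (ra.res P') = Q → P'.adicValuation h ≤ 1 := by
        intro P' hP'
        obtain ⟨_, _, _, _, hv', -⟩ := hval₀ P' hP'
        rw [hh, map_mul, map_inv₀, adicValuation_algebraMap P' hc0, inv_one, mul_one]
        exact hv'.le_one
      obtain ⟨d, hd⟩ := hval h hh1 hh2 hreg P hP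
      have h1 : HasVal P h₀ ((c : L) * d) := (hd.const_mul (c : L)).congr hh₀c.symm
      have h2 := hv.unique h1
      have h3 : ((b - a') * (a - b'') : A) = c * d := Subtype.ext (by push_cast; exact h2)
      have h4 := congrArg π h3
      rw [map_mul, map_mul, hc, zero_mul] at h4
      simpa using h4
  -- identification of the four values
  have e1 : valAt (r (rb.res P)) (R.red g) = π b := h7.valAt_eq
  have e3 : valAt Q (R.red g) = π a := h5.valAt_eq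
  have e2 : valAt (Fr Q) (R.red g) = π a' := by
    obtain ⟨γ, hγ⟩ := exists_hasVal_red R H.degk g (H.B_reg g hg _ (H.nc_fr Q hQ))
    have h1 := H.φ_val Q hQ _ _ hγ
    rw [← hφ] at h1
    rw [hγ.valAt_eq]
    exact h1.unique h6
  have e4 : valAt (Frψ (r (rb.res P))) (R.red g) = π b'' := by
    obtain ⟨γ, hγ⟩ := exists_hasVal_red R H.degk g (H.B_reg g hg _ (H.nc_frψ _ hQ'))
    have h1 := H.ψ_val _ hQ' _ _ hγ
    rw [← hψ] at h1
    rw [hγ.valAt_eq]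
    exact h1.unique h8
  rw [e1, e2, e3, e4]
  exact hprod

/-- additivity of the value of the reduction on the test family -/
theorem DichHyp2.valAt_add (H : DichHyp2 R α β ra rb O₁ O₂ φ ψ Fr Frψ NC B) {Q : Place k Fk}
    (hQ : Q ∈ NC) {g₁ g₂ : R.O} (h₁ : g₁ ∈ B) (h₂ : g₂ ∈ B) :
    valAt Q (R.red (g₁ + g₂)) = valAt Q (R.red g₁) + valAt Q (R.red g₂) := by
  obtain ⟨γ₁, hγ₁⟩ := exists_hasVal_red R H.degk g₁ (H.B_reg g₁ h₁ Q hQ)
  obtain ⟨γ₂, hγ₂⟩ := exists_hasVal_red R H.degk g₂ (H.B_reg g₂ h₂ Q hQ)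
  have h := hγ₁.add hγ₂
  rw [← map_add] at h
  rw [h.valAt_eq, hγ₁.valAt_eq, hγ₂.valAt_eq]

/-- two places of the good set at which all test functions take the same values are equal -/
theorem DichHyp2.eq_of_valAt_eq (H : DichHyp2 R α β ra rb O₁ O₂ φ ψ Fr Frψ NC B)
    {Q₁ Q₂ : Place k Fk} (h₁ : Q₁ ∈ NC) (h₂ : Q₂ ∈ NC)
    (h : ∀ g ∈ B, valAt Q₁ (R.red g) = valAt Q₂ (R.red g)) : Q₁ = Q₂ := by
  refine H.B_sep Q₁ h₁ Q₂ h₂ fun g hg γ hγ => ?_
  obtain ⟨γ', hγ'⟩ := exists_hasVal_red R H.degk g (H.B_reg g hg Q₂ h₂)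
  have := h g hg
  rw [hγ.valAt_eq, hγ'.valAt_eq] at this
  rw [this]
  exact hγ'

/-- **THE DICHOTOMY, two-map form**: for `P` over the `α`-disc of a good place `Q`, the place
`Q' = r (P ∘ β)` satisfies `Q' = Fr Q` (type 1) or `Frψ Q' = Q` (type 2). -/
theorem DichHyp2.dich' (H : DichHyp2 R α β ra rb O₁ O₂ φ ψ Fr Frψ NC B) {Q : Place k Fk}
    (hQ : Q ∈ NC)
    (hval : ∀ h : F, h ∈ O₁ → h ∈ O₂ →
      (∀ P' : Place L F, r (ra.res P') = Q → P'.adicValuation h ≤ 1) →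
      ∀ P : Place L F, r (ra.res P) = Q → ∃ d : A, HasVal P h (d : L))
    (P : Place L F) (hP : r (ra.res P) = Q) :
    r (rb.res P) = Fr Q ∨ Frψ (r (rb.res P)) = Q := by
  have hQ' : r (rb.res P) ∈ NC := H.nc_β P (hP ▸ hQ)
  set Q' := r (rb.res P) with hQ'def
  -- the two additive functionals
  set e₁ : R.O → k := fun g => valAt Q' (R.red g) - valAt (Fr Q) (R.red g) with he₁
  set e₂ : R.O → k := fun g => valAt Q (R.red g) - valAt (Frψ Q') (R.red g) with he₂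
  have hkey : ∀ g ∈ B, e₁ g * e₂ g = 0 := fun g hg => H.key hQ hval hP hg
  have hadd₁ : ∀ g₁ ∈ B, ∀ g₂ ∈ B, e₁ (g₁ + g₂) = e₁ g₁ + e₁ g₂ := by
    intro g₁ h₁ g₂ h₂
    simp only [he₁]
    rw [H.valAt_add hQ' h₁ h₂, H.valAt_add (H.nc_fr Q hQ) h₁ h₂]
    ring
  have hadd₂ : ∀ g₁ ∈ B, ∀ g₂ ∈ B, e₂ (g₁ + g₂) = e₂ g₁ + e₂ g₂ := by
    intro g₁ h₁ g₂ h₂
    simp only [he₂]
    rw [H.valAt_add hQ h₁ h₂, H.valAt_add (H.nc_frψ Q' hQ') h₁ h₂]
    ring
  have hor : (∀ g ∈ B, e₁ g = 0) ∨ (∀ g ∈ B, e₂ g = 0) := by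
    by_contra hcon
    rw [not_or] at hcon
    obtain ⟨hn1, hn2⟩ := hcon
    push Not at hn1 hn2
    obtain ⟨g₁, hg₁, h1⟩ := hn1
    obtain ⟨g₂, hg₂, h2⟩ := hn2
    have h1' : e₂ g₁ = 0 := (mul_eq_zero.mp (hkey g₁ hg₁)).resolve_left h1
    have h2' : e₁ g₂ = 0 := (mul_eq_zero.mp (hkey g₂ hg₂)).resolve_right h2
    have h3 := hkey (g₁ + g₂) (H.B_add g₁ hg₁ g₂ hg₂)
    rw [hadd₁ g₁ hg₁ g₂ hg₂, hadd₂ g₁ hg₁ g₂ hg₂, h1', h2', add_zero, zero_add] at h3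
    exact (mul_ne_zero h1 h2) h3
  rcases hor with h | h
  · left
    exact H.eq_of_valAt_eq hQ' (H.nc_fr Q hQ) fun g hg => sub_eq_zero.mp (h g hg)
  · right
    exact (H.eq_of_valAt_eq hQ (H.nc_frψ Q' hQ') fun g hg => sub_eq_zero.mp (h g hg)).symm

/-- the dichotomy in the shape of `Generic/Compat.GenericAt.dich`: `FQ = Fr Q`, `Frψ Qm = Q` -/
theorem DichHyp2.dich (H : DichHyp2 R α β ra rb O₁ O₂ φ ψ Fr Frψ NC B) {Q FQ Qm : Place k Fk}
    (hQ : Q ∈ NC) (hFQ : Fr Q = FQ) (hQm : Frψ Qm = Q)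
    (hval : ∀ h : F, h ∈ O₁ → h ∈ O₂ →
      (∀ P' : Place L F, r (ra.res P') = Q → P'.adicValuation h ≤ 1) →
      ∀ P : Place L F, r (ra.res P) = Q → ∃ d : A, HasVal P h (d : L)) :
    ∀ P : Place L F, r (ra.res P) = Q → r (rb.res P) = FQ ∨ r (rb.res P) = Qm := by
  intro P hP
  rcases H.dich' hQ hval P hP with h | h
  · left; rw [h, hFQ]
  · right; exact H.frψ_inj (h.trans hQm.symm)

/-! ### the type is read off from the value of `β g` at `P` -/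

/-- the value of `β g` at `P` reduces to the value of `red g` at `r (P ∘ β)` -/
theorem DichHyp2.hasVal_red_of_hasVal_β (H : DichHyp2 R α β ra rb O₁ O₂ φ ψ Fr Frψ NC B)
    {Q : Place k Fk} (hQ : Q ∈ NC) {P : Place L F} (hP : r (ra.res P) = Q) {g : R.O}
    (hg : g ∈ B) {b : A} (hb : HasVal P (β (g : FM)) (b : L)) :
    HasVal (r (rb.res P)) (R.red g) (π b) := by
  have hQ' : r (rb.res P) ∈ NC := H.nc_β P (hP ▸ hQ)
  obtain ⟨b', hb'1, hb'2⟩ := exists_hasVal_of_regOn R H.degM g (H.B_reg g hg _ hQ') rfl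
  have h1 := hasVal_of_restr rb H.β_const hb'1
  have h2 : (b' : L) = b := h1.unique hb
  have h3 : b' = b := Subtype.ext h2
  rw [← h3]
  exact hb'2

/-- `β g` has a value in `A` at every place over a good `α`-disc -/
theorem DichHyp2.exists_hasVal_β (H : DichHyp2 R α β ra rb O₁ O₂ φ ψ Fr Frψ NC B)
    {Q : Place k Fk} (hQ : Q ∈ NC) {P : Place L F} (hP : r (ra.res P) = Q) {g : R.O}
    (hg : g ∈ B) : ∃ b : A, HasVal P (β (g : FM)) (b : L) := by
  have hQ' : r (rb.res P) ∈ NC := H.nc_β P (hP ▸ hQ)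
  obtain ⟨b', hb'1, -⟩ := exists_hasVal_of_regOn R H.degM g (H.B_reg g hg _ hQ') rfl
  exact ⟨b', hasVal_of_restr rb H.β_const hb'1⟩

/-- **THE TYPE CRITERION**: let `g` be a test function whose reduction takes different values
`γF ≠ γm` at `FQ` and `Qm`.  For `P` over the `α`-disc of `Q` and `b` the value of `β g` at `P`:
`P` is of type 1 iff `b ≡ γF` modulo `𝔪_A`. -/
theorem DichHyp2.type_iff (H : DichHyp2 R α β ra rb O₁ O₂ φ ψ Fr Frψ NC B)
    {Q FQ Qm : Place k Fk} (hQ : Q ∈ NC) (hFQ : Fr Q = FQ) (hQm : Frψ Qm = Q)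
    (hval : ∀ h : F, h ∈ O₁ → h ∈ O₂ →
      (∀ P' : Place L F, r (ra.res P') = Q → P'.adicValuation h ≤ 1) →
      ∀ P : Place L F, r (ra.res P) = Q → ∃ d : A, HasVal P h (d : L))
    {g : R.O} (hg : g ∈ B) {γF γm : k} (hγF : HasVal FQ (R.red g) γF)
    (hγm : HasVal Qm (R.red g) γm) (hne : γF ≠ γm)
    {P : Place L F} (hP : r (ra.res P) = Q) {b : A} (hb : HasVal P (β (g : FM)) (b : L)) :
    r (rb.res P) = FQ ↔ π b = γF := by
  have h1 := H.hasVal_red_of_hasVal_β hQ hP hg hb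
  constructor
  · intro h
    rw [h] at h1
    exact h1.unique hγF
  · intro h
    rcases H.dich hQ hFQ hQm hval P hP with h2 | h2
    · exact h2
    · exfalso
      rw [h2] at h1
      exact hne (h ▸ (h1.unique hγm))

/-- the same with the value left implicit: type 1 iff SOME (equivalently every) value `b ∈ A` of
`β g` at `P` reduces to `γF` -/
theorem DichHyp2.type_iff_exists (H : DichHyp2 R α β ra rb O₁ O₂ φ ψ Fr Frψ NC B)
    {Q FQ Qm : Place k Fk} (hQ : Q ∈ NC) (hFQ : Fr Q = FQ) (hQm : Frψ Qm = Q)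
    (hval : ∀ h : F, h ∈ O₁ → h ∈ O₂ →
      (∀ P' : Place L F, r (ra.res P') = Q → P'.adicValuation h ≤ 1) →
      ∀ P : Place L F, r (ra.res P) = Q → ∃ d : A, HasVal P h (d : L))
    {g : R.O} (hg : g ∈ B) {γF γm : k} (hγF : HasVal FQ (R.red g) γF)
    (hγm : HasVal Qm (R.red g) γm) (hne : γF ≠ γm)
    {P : Place L F} (hP : r (ra.res P) = Q) :
    r (rb.res P) = FQ ↔ ∃ b : A, HasVal P (β (g : FM)) (b : L) ∧ π b = γF := by
  constructor
  · intro h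
    obtain ⟨b, hb⟩ := H.exists_hasVal_β hQ hP hg
    exact ⟨b, hb, (H.type_iff hQ hFQ hQm hval hg hγF hγm hne hP hb).mp h⟩
  · rintro ⟨b, hb, hπ⟩
    exact (H.type_iff hQ hFQ hQm hval hg hγF hγm hne hP hb).mpr hπ

end Fermat.Agent.S43.LG1.C1.Generic.DichTw

end
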