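/-
PROJECT R (S43), block G, brick C1 (= S34', the `X₁`-twin of S34's `X₀` instance layer), helper7:
**`GenericAt` AT EVERY GOOD PLACE OF `X₁(N; r)`** — the twin of helper10's `S34/Generic/GenericX0`
(hypotheses-first on the first branch `(V₁, red₁)` and on `V₂`, on the TWO-MAP dichotomy hypotheses
`DichTw.DichHyp2` and on the regularity of `j` on non-cuspidal discs).

The three places of `GenericAt` are `(Q, Fr Q, FrD⁻¹ Q)`, `FrD = (Dp d̄)⁻¹ ∘ Fr` the place map of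
`ψ = φ ∘ d̄`, `d̄ = DiamondRed1.dbar1` the reduced diamond `⟨r⁻¹⟩`.  The field `fibβ` is the transport
of `fibα` at `(Fr⁻¹ Q, Q)` along the Atkin–Lehner automorphism `W = Seam.W1` (`W ∘ β = α`,
`W ∘ α = β ∘ δ`): `FibSwapTw.fibβ_of_fibα`.

* `Dp_symm_FrD_symm` : `(Dp d)⁻¹ (FrD⁻¹ Q) = Fr⁻¹ Q`;
* `placeMap_inv_smul_delta1` : `placeMap H (δ⁻¹ • PM) = (Dp d̄)⁻¹ (placeMap H PM)`;
* `genericAt_X1`, `generic_X1` (in the vocabulary `alpha1`, `beta1`, `restrAlong`, with the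
  regularity of `j` discharged by `CuspRedX1.regOn_jgen1`).
-/
import Mathlib
import Fermat.Agent.S34.ArchGauss
import Fermat.Agent.S34.PcgSwap
import Fermat.Agent.S43.LG1.C1.Z1X1
import Fermat.Agent.S43.LG1.C1.DiamondRed1
import Fermat.Agent.S43.LG1.C1.CuspRedX1
import Fermat.Agent.S43.LG1.C1.Generic.SwapX1
import Fermat.Agent.S43.LG1.C1.Generic.CompatX1
import Fermat.Agent.S43.LG1.C1.Generic.AssemblyTw

set_option autoImplicit false
set_option linter.unusedSectionVars false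
set_option linter.style.haveILetI false

noncomputable section

namespace Fermat.Agent.S43.LG1.C1.Generic.GenericX1

open Polynomial ModularCurve AlgebraicCurve IsLocalRing
open Fermat.Agent.S24.Ord Fermat.Agent.S18.CoreDefs Fermat.Agent.S18.Disc
open Fermat.Agent.S37.Deuring.Core
open Fermat.Agent.S34.Generic.Compat Fermat.Agent.S34.Generic.Dich
  Fermat.Agent.S34.Generic.RestrAlong Fermat.Agent.S34.Generic.SmoothRedOfGeneric
  Fermat.Agent.S34.NodalDefs Fermat.Agent.S34.ArchGauss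
open Fermat.Agent.S48.B.Defs.Model
open Fermat.Agent.S48.B.B1.Seams (jgen1)
open Fermat.Agent.S48.B.ES.DegreeBeta1 (F1pBar)
open Fermat.Agent.S48.B.Red.Seams (jC jqModC_mem_F1C)
open Fermat.Agent.S48.B.Red.CoeffAut1
open Fermat.Agent.S43.LG1.C1.Seam Fermat.Agent.S43.LG1.C1.TwoGaussX1
open Fermat.Agent.S43.LG1.C1.FrobKGen Fermat.Agent.S43.LG1.C1.DiamondRed1
open Fermat.Agent.S43.LG1.C1.Euler.FrobSideX1 (psiD FrD)
open Fermat.Agent.S43.LG1.C1.Generic.FibX1 Fermat.Agent.S43.LG1.C1.Generic.DichTw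
  Fermat.Agent.S43.LG1.C1.Generic.GoodKGen Fermat.Agent.S43.LG1.C1.Generic.CompatX1
  Fermat.Agent.S43.LG1.C1.Generic.AssemblyTw

local notation "Kb" => AlgebraicClosure ℚ

set_option synthInstance.maxHeartbeats 400000

/-! ### generic: `(Dp d)⁻¹ ∘ FrD⁻¹ = Fr⁻¹` -/

section Gen

variable {k : Type*} [Field k] {Fk : IntermediateField k (LaurentSeries k)}
variable (hC : CoeffStable Fk) (q : ℕ) [hq : Fact q.Prime] [CharP k q] [PerfectField k]
variable (d : ↥Fk ≃ₐ[k] ↥Fk) (hdψ : ∀ x : ↥Fk, d (psi hC q x) = psi hC q (d x))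

include hdψ in
/-- `(Dp d)⁻¹ (FrD⁻¹ Q) = Fr⁻¹ Q` -/
theorem Dp_symm_FrD_symm (Q : Place k ↥Fk) :
    (Dp d).symm ((FrD hC q d).symm Q) = (Fr hC q).symm Q := by
  apply (Fr hC q).injective
  rw [Fr_Dp_symm hC q d hdψ, Fr_FrD_symm, Equiv.symm_apply_apply, Equiv.apply_symm_apply]

end Gen

section X1

attribute [local instance] algShortcut1
attribute [local instance] algFE1
attribute [local instance] Fermat.Agent.S18.ResidueBasics.isAlgClosed_residueField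

variable {r : ℕ} [hrF : Fact r.Prime] {N : ℕ} [NeZero N] [NeZero r] {A : ValuationSubring Kb}
variable (hr : r.Prime) (hA : A.LiesOverPrime r) (hrN : ¬ r ∣ N)
variable [HasPrincipalDivisors Kb ↥(F1Bar N)]
  [HasPrincipalDivisors (ResidueField ↥A) ↥(F1C N (ResidueField ↥A))]
  [Infinite (ResidueField ↥A)]
variable {gL gk : ℕ} (H : Hyp (gaussDatum1 N A hr hA hrN) gL gk)

/-- **`placeMap H (δ⁻¹ • PM) = (Dp d̄)⁻¹ (placeMap H PM)`** -/
theorem placeMap_inv_smul_delta1 (PM : Place Kb ↥(F1Bar N)) :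
    placeMap H ((SemilinearAut.ofAlgAut (delta1 N r hr hrN))⁻¹ • PM) =
      (Dp (dbar1 hr hA hrN)).symm (placeMap H PM) := by
  have h := placeMap_smul_delta1 hr hA hrN H
    ((SemilinearAut.ofAlgAut (delta1 N r hr hrN))⁻¹ • PM)
  rw [smul_inv_smul] at h
  rw [eq_comm, Equiv.symm_apply_eq]
  exact h

variable [CharP (ResidueField ↥A) r]

/-- the reduced diamond commutes with `psi` (= `DiamondRed1.dbar1_frobAut_symm`) -/
theorem dbar1_psi (x : ↥(F1C N (ResidueField ↥A))) :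
    dbar1 hr hA hrN (psi (coeffStable_F1C N (ResidueField ↥A)) r x) =
      psi (coeffStable_F1C N (ResidueField ↥A)) r (dbar1 hr hA hrN x) :=
  dbar1_frobAut_symm hr hA hrN x

set_option maxHeartbeats 1600000 in
/-- **`GenericAt` at a good place of `X₁(N; r)`**, hypotheses-first on the reduction pair, the
two-map dichotomy hypotheses and the regularity of `j` on non-cuspidal discs. -/
theorem genericAt_X1
    (hreg : ∀ Q : Place (ResidueField ↥A) ↥(F1C N (ResidueField ↥A)),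
      0 ≤ Q.ord (jC N (ResidueField ↥A)) → RegOn (placeMap H) (jgen1 N) Q)
    (B₁ : Branch A (residue ↥A) ↥(F1pBar N r) ↥(F1C N (ResidueField ↥A)))
    (h₁ : (setupX1 hr hA hrN).IsExt (setupX1 hr hA hrN).G₁ B₁.O)
    {V₂ : ValuationSubring ↥(F1pBar N r)}
    (h₂ : (setupX1 hr hA hrN).IsExt (setupX1 hr hA hrN).G₂ V₂)
    (hα : ∀ g : (RX1 hr hA hrN H).O,
      algebraMap ↥(F1Bar N) ↥(F1pBar N r) (g : ↥(F1Bar N)) ∈ B₁.O)
    (hredα : ∀ g : (RX1 hr hA hrN H).O, B₁.red ⟨_, hα g⟩ = (RX1 hr hA hrN H).red g)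
    (hβ : ∀ g : (RX1 hr hA hrN H).O, beta1 N r Kb (g : ↥(F1Bar N)) ∈ B₁.O)
    (hredβ : ∀ g : (RX1 hr hA hrN H).O,
      B₁.red ⟨_, hβ g⟩ =
        phi (coeffStable_F1C N (ResidueField ↥A)) r ((RX1 hr hA hrN H).red g))
    {NC : Set (Place (ResidueField ↥A) ↥(F1C N (ResidueField ↥A)))}
    {B : Set (RX1 hr hA hrN H).O}
    (HD : DichHyp2 (RX1 hr hA hrN H) (algebraMap ↥(F1Bar N) ↥(F1pBar N r))
      (beta1 N r Kb : ↥(F1Bar N) →+* ↥(F1pBar N r)) (raX1 hr hrN) (rbX1 hr hrN) B₁.O V₂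
      (phi (coeffStable_F1C N (ResidueField ↥A)) r : _ →+* _)
      (psiD (coeffStable_F1C N (ResidueField ↥A)) r (dbar1 hr hA hrN) : _ →+* _)
      (Fr (coeffStable_F1C N (ResidueField ↥A)) r)
      (FrD (coeffStable_F1C N (ResidueField ↥A)) r (dbar1 hr hA hrN)) NC B)
    (hNC : ∀ Q : Place (ResidueField ↥A) ↥(F1C N (ResidueField ↥A)),
      0 ≤ Q.ord (jC N (ResidueField ↥A)) → Q ∈ NC)
    (hjB : jO1 hr hA hrN ∈ B)
    (Q : Place (ResidueField ↥A) ↥(F1C N (ResidueField ↥A)))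
    (hQ : IsGood (jqModC_mem_F1C N (ResidueField ↥A)) r Q) :
    GenericAt (raX1 hr hrN) (rbX1 hr hrN) (redOneOfBranch B₁ hα hredα hβ) Q
      (Fr (coeffStable_F1C N (ResidueField ↥A)) r Q)
      ((FrD (coeffStable_F1C N (ResidueField ↥A)) r (dbar1 hr hA hrN)).symm Q) := by
  haveI := isScalarTower_along (alpha1 N r Kb)
  haveI := finite_FE1 (N := N) (r := r) hr hrN
  haveI := isSeparable_FE1 (N := N) (r := r) hr hrN
  haveI : Algebra.IsAlgebraic ↥(F1Bar N) ↥(F1pBar N r) := Algebra.IsAlgebraic.of_finite _ _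
  haveI := Fermat.Agent.S43.LG1.C1.Generic.FiniteNonGenericX1.finiteDimensional_F1C r N hA hrN
  set hC := coeffStable_F1C N (ResidueField ↥A) with hhC
  set hJ := jqModC_mem_F1C N (ResidueField ↥A) with hhJ
  set d := dbar1 hr hA hrN with hd
  have hdj : d (Fermat.Agent.S48.B.Inj.Basics.jC hJ) = Fermat.Agent.S48.B.Inj.Basics.jC hJ :=
    dbar1_jC hr hA hrN
  have hdψ : ∀ x : ↥(F1C N (ResidueField ↥A)), d (psi hC r x) = psi hC r (d x) :=
    fun x => dbar1_psi hr hA hrN x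
  have hredj : (RX1 hr hA hrN H).red (jO1 hr hA hrN) = jC N (ResidueField ↥A) :=
    red_jO1 hr hA hrN
  have hQ0 : 0 ≤ Q.ord (jC N (ResidueField ↥A)) := hQ.1.1
  have hQm : IsGood hJ r ((FrD hC r d).symm Q) := isGood_FrD_symm hC hJ r d hdj Q hQ
  have hQF : IsGood hJ r (Fr hC r Q) := (isGood_Fr_iff hC hJ r Q).mpr hQ
  have hQ₀ : IsGood hJ r ((Fr hC r).symm Q) := isGood_Fr_symm hC hJ r Q hQ
  obtain ⟨γm, hγm, hγm'⟩ := exists_unif_FrD_symm hC hJ r d hdj Q hQ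
  -- `fibα` at `(Fr⁻¹ Q, Q)`
  have hfibm := fibα_X1 hr hA hrN H hreg h₁ h₂ d hdj HD hNC hjB _ hQ₀
  rw [Equiv.apply_symm_apply] at hfibm
  rw [← Dp_symm_FrD_symm hC r d hdψ Q] at hfibm
  -- the swap
  have hord : ∀ (P : Place Kb ↥(F1pBar N r)) (g : ↥(F1Bar N)),
      (SemilinearAut.ofAlgAut (W1 N r hr hrN) • P).ord
        ((beta1 N r Kb : ↥(F1Bar N) →+* ↥(F1pBar N r)) (delta1 N r hr hrN g)) =
        P.ord (algebraMap ↥(F1Bar N) ↥(F1pBar N r) g) := by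
    intro P g
    have h := Fermat.Agent.S34.PcgSwap.ord_apply (W1 N r hr hrN)
      (SemilinearAut.ofAlgAut (W1 N r hr hrN) • P) (alpha1 N r Kb g)
    rw [inv_smul_smul, W1_alpha] at h
    exact h
  have hordδ : ∀ (PM : Place Kb ↥(F1Bar N)) (g : ↥(F1Bar N)),
      (SemilinearAut.ofAlgAut (delta1 N r hr hrN) • PM).ord (delta1 N r hr hrN g) = PM.ord g :=
    fun PM g => SemilinearAut.ord_smul (SemilinearAut.ofAlgAut (delta1 N r hr hrN)) PM g
  have hfibβ := Fermat.Agent.S43.LG1.C1.Generic.FibSwapTw.fibβ_of_fibα (r := placeMap H)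
      (ra := raX1 hr hrN) (rb := rbX1 hr hrN)
      (SemilinearAut.ofAlgAut (W1 N r hr hrN)) (SemilinearAut.ofAlgAut (delta1 N r hr hrN))
      (fun g => delta1 N r hr hrN g)
      (fun P => Fermat.Agent.S43.LG1.C1.Generic.SwapX1.resAlong_alpha1_W (W1 N r hr hrN)
        (W1_beta hr hrN) (isIntegral_alpha1 hr hrN) (isIntegral_beta1 hr hrN) P)
      (fun P => Fermat.Agent.S43.LG1.C1.Generic.SwapX1.resAlong_beta1_W (W1 N r hr hrN)
        (delta1 N r hr hrN) (W1_alpha hr hrN) (isIntegral_alpha1 hr hrN)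
        (isIntegral_beta1 hr hrN) P)
      hord hordδ (fun Q' => (Dp d).symm Q')
      (fun PM => placeMap_inv_smul_delta1 hr hA hrN H PM) hfibm
  have hfibα := fibα_X1 hr hA hrN H hreg h₁ h₂ d hdj HD hNC hjB Q hQ
  have hdegF : ∀ P : Place Kb ↥(F1pBar N r), P.deg = 1 :=
    fun P => Fermat.Agent.S43.LG1.C1.Generic.NcBetaX1.deg_eq_one_E1p hrN P
  have hG₁ : (setupX1 hr hA hrN).G₁ = X - C (jO1 hr hA hrN ^ r) := by
    rw [setupX1_G₁]; rfl
  have hG₂ : (setupX1 hr hA hrN).G₂ = X ^ r - C (jO1 hr hA hrN) := by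
    rw [setupX1_G₂]; rfl
  have hArch : Fermat.Agent.S34.WeakApprox.Arch V₂ :=
    arch_of_comap_eq h₂.comap (Fermat.Agent.S43.LG1.C1.Z1X1.arch_gaussDatum1 hr hA hrN)
  have h₁' : (setupX1 hr hA hrN).IsExt (setupX1 hr hA hrN).G₁
      (redOneOfBranch B₁ hα hredα hβ).O := h₁
  have hHD : DichHyp2 (RX1 hr hA hrN H) (algebraMap ↥(F1Bar N) ↥(F1pBar N r))
      (beta1 N r Kb : ↥(F1Bar N) →+* ↥(F1pBar N r)) (raX1 hr hrN) (rbX1 hr hrN)
      (redOneOfBranch B₁ hα hredα hβ).O V₂ (phi hC r : _ →+* _) (psiD hC r d : _ →+* _)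
      (Fr hC r) (FrD hC r d) NC B := HD
  have hredβ' : ∀ g : (RX1 hr hA hrN H).O, (redOneOfBranch B₁ hα hredα hβ).red
      ⟨(beta1 N r Kb : ↥(F1Bar N) →+* ↥(F1pBar N r)) (g : ↥(F1Bar N)),
        (redOneOfBranch B₁ hα hredα hβ).β_mem g⟩ =
      (phi hC r : _ →+* _) ((RX1 hr hA hrN H).red g) := hredβ
  have hΦ : ∀ i, RegOn (placeMap H) ((((setupX1 hr hA hrN).Φ.coeff i : (RX1 hr hA hrN H).O)) :
      ↥(F1Bar N)) Q :=
    fun i => regOn_coeff_PhiO1 hr hA hrN H Q (hreg Q hQ0) i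
  have hx0 : (RX1 hr hA hrN H).red (jO1 hr hA hrN) ^ (r * r) -
      (RX1 hr hA hrN H).red (jO1 hr hA hrN) ≠ 0 := by
    rw [hredj]; exact fm_ne_zero' hC hJ r
  have hxord : Q.ord ((RX1 hr hA hrN H).red (jO1 hr hA hrN) ^ (r * r) -
      (RX1 hr hA hrN H).red (jO1 hr hA hrN)) = 0 := by
    rw [hredj]; exact ord_fm_eq_zero hJ r Q hQ
  have hγ : ∃ γ : ResidueField ↥A, Q.ord ((RX1 hr hA hrN H).red (jO1 hr hA hrN) -
      algebraMap (ResidueField ↥A) _ γ) = 1 := by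
    rw [hredj]; exact hQ.2
  have hγm1 : ((FrD hC r d).symm Q).ord ((RX1 hr hA hrN H).red (jO1 hr hA hrN) -
      algebraMap (ResidueField ↥A) _ γm) = 1 := by
    rw [hredj]; exact hγm
  have hγm2 : (Fr hC r Q).ord ((RX1 hr hA hrN H).red (jO1 hr hA hrN) -
      algebraMap (ResidueField ↥A) _ γm) = 0 := by
    rw [hredj]; exact hγm'
  exact genericAt_of_setup (raX1 hr hrN) (rbX1 hr hrN) (fun P => rfl)
    (redOneOfBranch B₁ hα hredα hβ) (setupX1 hr hA hrN) h₁' h₂ hArch (jO1 hr hA hrN) r hG₁ hG₂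
    hHD hdegF hredβ' (fun y hy => phi_ne_zero hC r hy) (fun Q y => ord_phi hC r Q y)
    (hNC Q hQ0) rfl (Equiv.apply_symm_apply _ Q) (Fr_ne_FrD_symm hC hJ r d hdj Q hQ) hΦ
    (hreg Q hQ0) (hreg _ hQm.1.1) (hreg _ hQF.1.1) hx0 hxord hγ γm hγm1 hγm2 hfibα hfibβ

set_option maxHeartbeats 1600000 in
/-- **`GenericAt` at a good place of `X₁(N; r)`, in the vocabulary of the assembly** (`α`, `β` as
coerced algebra homomorphisms, restrictions `restrAlong`), with the regularity of `j` on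
non-cuspidal discs discharged (`CuspRedX1.regOn_jgen1`). -/
theorem generic_X1
    (B₁ : Branch A (residue ↥A) ↥(F1pBar N r) ↥(F1C N (ResidueField ↥A)))
    (h₁ : (setupX1 hr hA hrN).IsExt (setupX1 hr hA hrN).G₁ B₁.O)
    {V₂ : ValuationSubring ↥(F1pBar N r)}
    (h₂ : (setupX1 hr hA hrN).IsExt (setupX1 hr hA hrN).G₂ V₂)
    (hα : ∀ g : (redDatum H).O, alpha1 N r Kb (g : ↥(F1Bar N)) ∈ B₁.O)
    (hredα : ∀ g : (redDatum H).O,
      B₁.red ⟨alpha1 N r Kb (g : ↥(F1Bar N)), hα g⟩ = (redDatum H).red g)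
    (hβ : ∀ g : (redDatum H).O, beta1 N r Kb (g : ↥(F1Bar N)) ∈ B₁.O)
    (hredβ : ∀ g : (redDatum H).O,
      B₁.red ⟨beta1 N r Kb (g : ↥(F1Bar N)), hβ g⟩ =
        phi (coeffStable_F1C N (ResidueField ↥A)) r ((redDatum H).red g))
    {NC : Set (Place (ResidueField ↥A) ↥(F1C N (ResidueField ↥A)))}
    {B : Set (redDatum H).O}
    (HD : DichHyp2 (redDatum H)
      ((alpha1 N r Kb : ↥(F1Bar N) →ₐ[Kb] ↥(F1pBar N r)) : ↥(F1Bar N) →+* ↥(F1pBar N r))
      ((beta1 N r Kb : ↥(F1Bar N) →ₐ[Kb] ↥(F1pBar N r)) : ↥(F1Bar N) →+* ↥(F1pBar N r))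
      (restrAlong (alpha1 N r Kb) (isIntegral_alpha1 hr hrN))
      (restrAlong (beta1 N r Kb) (isIntegral_beta1 hr hrN)) B₁.O V₂
      (phi (coeffStable_F1C N (ResidueField ↥A)) r : _ →+* _)
      (psiD (coeffStable_F1C N (ResidueField ↥A)) r (dbar1 hr hA hrN) : _ →+* _)
      (Fr (coeffStable_F1C N (ResidueField ↥A)) r)
      (FrD (coeffStable_F1C N (ResidueField ↥A)) r (dbar1 hr hA hrN)) NC B)
    (hNC : ∀ Q : Place (ResidueField ↥A) ↥(F1C N (ResidueField ↥A)),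
      0 ≤ Q.ord (jC N (ResidueField ↥A)) → Q ∈ NC)
    (hjB : jO1 hr hA hrN ∈ B)
    (Q : Place (ResidueField ↥A) ↥(F1C N (ResidueField ↥A)))
    (hQ : IsGood (jqModC_mem_F1C N (ResidueField ↥A)) r Q) :
    GenericAt (r := placeMap H)
      (restrAlong (alpha1 N r Kb) (isIntegral_alpha1 hr hrN))
      (restrAlong (beta1 N r Kb) (isIntegral_beta1 hr hrN))
      (redOneOfBranch (R := redDatum H) B₁ hα hredα hβ) Q
      (Fr (coeffStable_F1C N (ResidueField ↥A)) r Q)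
      ((FrD (coeffStable_F1C N (ResidueField ↥A)) r (dbar1 hr hA hrN)).symm Q) :=
  genericAt_X1 hr hA hrN H
    (Fermat.Agent.S43.LG1.C1.CuspRedX1.regOn_jgen1 (igusaDegN N) hr hrN hA H)
    B₁ h₁ h₂ hα hredα hβ hredβ HD hNC hjB Q hQ

end X1

end Fermat.Agent.S43.LG1.C1.Generic.GenericX1

end
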