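/-
PROJECT R (S43), block G, brick C1 (= S34', the `X₁`-twin of S34's `X₀` instance layer), helper19:
**THE THREE LIFTING FIELDS `B_φ`, `B_ψ`, `B_sep` OF helper7's `Generic/DichTw.DichHyp2` AT `X₁(N; r)`**
(level `N` only) — the twin of helper10's `S34/Generic/DichLiftX0`.

`r ∤ N` prime, `A` over `r`, `κ = κ(A)`, `G = Bases1.gaussDatumIgusa h hr hrN hA` the Gauss datum of
`ℚ̄(X₁(N))`, `H : Hyp G gL gk`, `j̄ = jC (jqModC_mem_F1C N κ)`; `NC := {Q | 0 ≤ Q.ord j̄}` (the
non-cuspidal places of `κ(X₁(N)) = F1C N κ`) and `B := {g ∈ G.O | g regular on every non-cuspidal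
residue disc}`, stated fully unfolded.  `φ = FrobKGen.phi`, `ψ = φ ∘ d` (`FrobSideX1.psiD`) for ANY
`κ`-automorphism `d` of `F1C N κ` fixing `j̄` (at `X₁(N; r)` the reduced diamond).

* `exists_mem_P0` : a cusp exists;
* `exists_lift_regOn` : every `ȳ ∈ F1C N κ` regular off the cusps is the reduction of some `f ∈ G.O`
  regular on all non-cuspidal discs (helper23's `LevelMLiftX1.exists_lift_regular_over_X1`);
* `B_φ_X1` : the Frobenius pull-back of the reduction of a test function is the reduction of a test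
  function;
* `B_ψ_X1` : the same for `ψ = φ ∘ d` (NEW: the field `B_ψ` of `DichHyp2`);
* `B_sep_X1` : the reductions of the test functions separate the non-cuspidal places
  (helper13's `FrobKSepGen.exists_holo_sep`).
-/
import Mathlib
import Fermat.Agent.S43.LG1.C1.LevelMLiftX1
import Fermat.Agent.S43.LG1.C1.FrobKSepGen
import Fermat.Agent.S43.LG1.C1.Euler.FrobSideX1
import Fermat.Agent.S43.LG1.C1.Generic.FiniteNonGenericX1
import Fermat.Agent.S34.Generic.Dich
import Fermat.Agent.S18.A.PoleBridge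

set_option autoImplicit false
set_option linter.unusedSectionVars false
set_option linter.style.haveILetI false

noncomputable section

namespace Fermat.Agent.S43.LG1.C1.Generic.DichLiftX1

open ModularCurve AlgebraicCurve IsLocalRing
open Fermat.Agent.S24.Ord Fermat.Agent.S18.CoreDefs Fermat.Agent.S18.Disc
open Fermat.Agent.S37.Deuring.Core
open Fermat.Agent.S34.Generic.Dich
open Fermat.Agent.S48.B.Defs.Model
open Fermat.Agent.S48.B.Red.Seams (IgusaDeg jqModC_mem_F1C)
open Fermat.Agent.S48.B.Red.Bases1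
open Fermat.Agent.S48.B.Red.CoeffAut1
open Fermat.Agent.S48.B.Inj.Basics (jC isFF_jC isSeparable_jC)
open Fermat.Agent.S43.LG1.C1.FrobKGen Fermat.Agent.S43.LG1.C1.Euler.FrobSideX1

local notation "Kb" => AlgebraicClosure ℚ

set_option synthInstance.maxHeartbeats 400000

/-- the residue field of a valuation ring of `ℚ̄` is algebraically closed (hence infinite) -/
local instance isAlgClosedRes (A : ValuationSubring Kb) : IsAlgClosed (ResidueField ↥A) :=
  Fermat.Agent.S18.ResidueBasics.isAlgClosed_residueField A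

attribute [local instance] Fermat.Agent.S43.LG1.C1.LevelMSurjX1.algKappa

variable {r : ℕ} [hrF : Fact r.Prime] {N : ℕ} [NeZero N] {A : ValuationSubring Kb}
variable (h : IgusaDeg N) (hr : r.Prime) (hrN : ¬ r ∣ N) (hA : A.LiesOverPrime r) {gL gk : ℕ}
variable [HasPrincipalDivisors Kb ↥(F1Bar N)]
variable [HasPrincipalDivisors (ResidueField ↥A) ↥(F1C N (ResidueField ↥A))]
variable (H : Hyp (gaussDatumIgusa h hr hrN hA) gL gk)

include h hr hrN hA in
/-- `κ(X₁(N))` is finite over `κ(j̄)` -/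
theorem finiteDimensional_F1C :
    FiniteDimensional ↥(IntermediateField.adjoin (ResidueField ↥A)
      {jC (jqModC_mem_F1C N (ResidueField ↥A))}) ↥(F1C N (ResidueField ↥A)) :=
  (h r hr hrN A hA).1

include h hr hrN hA in
/-- a cusp of `κ(X₁(N))` exists -/
theorem exists_mem_P0 :
    ∃ Q : Place (ResidueField ↥A) ↥(F1C N (ResidueField ↥A)),
      Q ∈ P0 (jqModC_mem_F1C N (ResidueField ↥A)) := by
  haveI := finiteDimensional_F1C h hr hrN hA
  exact Fermat.Agent.S18.A.PoleBridge.exists_pole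
    (isFF_jC (jqModC_mem_F1C N (ResidueField ↥A)))
    (isSeparable_jC (jqModC_mem_F1C N (ResidueField ↥A)))

set_option maxHeartbeats 1600000 in
/-- every `ȳ` regular off the cusps lifts to a function regular on all non-cuspidal discs -/
theorem exists_lift_regOn (y : ↥(F1C N (ResidueField ↥A)))
    (hy : ∀ Q : Place (ResidueField ↥A) ↥(F1C N (ResidueField ↥A)),
      0 ≤ Q.ord (jC (jqModC_mem_F1C N (ResidueField ↥A))) → y = 0 ∨ 0 ≤ Q.ord y) :
    ∃ f : (redDatum H).O, (redDatum H).red f = y ∧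
      ∀ Q : Place (ResidueField ↥A) ↥(F1C N (ResidueField ↥A)),
        0 ≤ Q.ord (jC (jqModC_mem_F1C N (ResidueField ↥A))) →
          RegOn (placeMap H) ((f : (redDatum H).O) : ↥(F1Bar N)) Q := by
  obtain ⟨Q₀, hQ₀⟩ := exists_mem_P0 h hr hrN hA
  have hQ₀lt : Q₀.ord (jC (jqModC_mem_F1C N (ResidueField ↥A))) < 0 := hQ₀
  have hQ₀' : Q₀ ∉ {Q : Place (ResidueField ↥A) ↥(F1C N (ResidueField ↥A)) |
      0 ≤ Q.ord (jC (jqModC_mem_F1C N (ResidueField ↥A)))} := fun h' => not_le.mpr hQ₀lt h'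
  obtain ⟨f, hf, hreg⟩ :=
    Fermat.Agent.S43.LG1.C1.LevelMLiftX1.exists_lift_regular_over_X1 h hr hrN hA H y
      {Q | 0 ≤ Q.ord (jC (jqModC_mem_F1C N (ResidueField ↥A)))} Q₀ hQ₀' (fun Q hQ => hy Q hQ)
  refine ⟨f, hf, fun Q hQ P hP => ?_⟩
  have hPT : placeMap H P ∈ {Q : Place (ResidueField ↥A) ↥(F1C N (ResidueField ↥A)) |
      0 ≤ Q.ord (jC (jqModC_mem_F1C N (ResidueField ↥A)))} := by
    rw [hP]; exact hQ
  rcases hreg P hPT with h0 | h0
  · rw [h0, map_zero]; exact zero_le_one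
  · by_cases hf0 : (f : ↥(F1Bar N)) = 0
    · rw [hf0, map_zero]; exact zero_le_one
    · exact (ord_nonneg_iff P hf0).mp h0

variable [CharP (ResidueField ↥A) r]

set_option maxHeartbeats 1600000 in
/-- **the field `B_φ`** -/
theorem B_φ_X1 (g : (redDatum H).O)
    (hg : ∀ Q : Place (ResidueField ↥A) ↥(F1C N (ResidueField ↥A)),
      0 ≤ Q.ord (jC (jqModC_mem_F1C N (ResidueField ↥A))) →
        RegOn (placeMap H) ((g : (redDatum H).O) : ↥(F1Bar N)) Q) :
    ∃ g' : (redDatum H).O,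
      (∀ Q : Place (ResidueField ↥A) ↥(F1C N (ResidueField ↥A)),
        0 ≤ Q.ord (jC (jqModC_mem_F1C N (ResidueField ↥A))) →
          RegOn (placeMap H) ((g' : (redDatum H).O) : ↥(F1Bar N)) Q) ∧
      (redDatum H).red g' =
        phi (coeffStable_F1C N (ResidueField ↥A)) r ((redDatum H).red g) := by
  obtain ⟨f, hf, hreg⟩ := exists_lift_regOn h hr hrN hA H
    (phi (coeffStable_F1C N (ResidueField ↥A)) r ((redDatum H).red g)) (fun Q hQ => by
      by_cases h0 : (redDatum H).red g = 0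
      · left; rw [h0, map_zero]
      · right
        have hord : Q.ord (phi (coeffStable_F1C N (ResidueField ↥A)) r ((redDatum H).red g)) =
            (r : ℤ) * (Fr (coeffStable_F1C N (ResidueField ↥A)) r Q).ord ((redDatum H).red g) :=
          ord_phi (coeffStable_F1C N (ResidueField ↥A)) r Q _
        rw [hord]
        have hFr : 0 ≤ (Fr (coeffStable_F1C N (ResidueField ↥A)) r Q).ord
            (jC (jqModC_mem_F1C N (ResidueField ↥A))) := by
          rw [Fermat.Agent.S43.LG1.C1.Generic.FiniteNonGenericX1.ord_Fr_jk]; exact hQ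
        have h1 := red_regular (redDatum H) g _ (hg _ hFr)
        have h2 : 0 ≤ (Fr (coeffStable_F1C N (ResidueField ↥A)) r Q).ord ((redDatum H).red g) :=
          (ord_nonneg_iff _ h0).mpr h1
        positivity)
  exact ⟨f, hreg, hf⟩

set_option maxHeartbeats 1600000 in
/-- **the field `B_ψ`**, `ψ = φ ∘ d` for a `κ`-automorphism `d` fixing `j̄` -/
theorem B_ψ_X1
    (d : ↥(F1C N (ResidueField ↥A)) ≃ₐ[ResidueField ↥A] ↥(F1C N (ResidueField ↥A)))
    (hdj : d (jC (jqModC_mem_F1C N (ResidueField ↥A))) =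
      jC (jqModC_mem_F1C N (ResidueField ↥A)))
    (g : (redDatum H).O)
    (hg : ∀ Q : Place (ResidueField ↥A) ↥(F1C N (ResidueField ↥A)),
      0 ≤ Q.ord (jC (jqModC_mem_F1C N (ResidueField ↥A))) →
        RegOn (placeMap H) ((g : (redDatum H).O) : ↥(F1Bar N)) Q) :
    ∃ g' : (redDatum H).O,
      (∀ Q : Place (ResidueField ↥A) ↥(F1C N (ResidueField ↥A)),
        0 ≤ Q.ord (jC (jqModC_mem_F1C N (ResidueField ↥A))) →
          RegOn (placeMap H) ((g' : (redDatum H).O) : ↥(F1Bar N)) Q) ∧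
      (redDatum H).red g' =
        psiD (coeffStable_F1C N (ResidueField ↥A)) r d ((redDatum H).red g) := by
  obtain ⟨f, hf, hreg⟩ := exists_lift_regOn h hr hrN hA H
    (psiD (coeffStable_F1C N (ResidueField ↥A)) r d ((redDatum H).red g)) (fun Q hQ => by
      by_cases h0 : (redDatum H).red g = 0
      · left; rw [h0, map_zero]
      · right
        rw [ord_psiD]
        have hFr : 0 ≤ (FrD (coeffStable_F1C N (ResidueField ↥A)) r d Q).ord
            (jC (jqModC_mem_F1C N (ResidueField ↥A))) := by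
          rw [ord_FrD_jk (coeffStable_F1C N (ResidueField ↥A))
            (jqModC_mem_F1C N (ResidueField ↥A)) r d hdj]
          exact hQ
        have h1 := red_regular (redDatum H) g _ (hg _ hFr)
        have h2 : 0 ≤ (FrD (coeffStable_F1C N (ResidueField ↥A)) r d Q).ord
            ((redDatum H).red g) := (ord_nonneg_iff _ h0).mpr h1
        positivity)
  exact ⟨f, hreg, hf⟩

set_option maxHeartbeats 1600000 in
/-- **the field `B_sep`** -/
theorem B_sep_X1
    (Q₁ Q₂ : Place (ResidueField ↥A) ↥(F1C N (ResidueField ↥A)))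
    (h₁ : 0 ≤ Q₁.ord (jC (jqModC_mem_F1C N (ResidueField ↥A))))
    (h₂ : 0 ≤ Q₂.ord (jC (jqModC_mem_F1C N (ResidueField ↥A))))
    (hsep : ∀ g : (redDatum H).O,
      (∀ Q : Place (ResidueField ↥A) ↥(F1C N (ResidueField ↥A)),
        0 ≤ Q.ord (jC (jqModC_mem_F1C N (ResidueField ↥A))) →
          RegOn (placeMap H) ((g : (redDatum H).O) : ↥(F1Bar N)) Q) →
      ∀ γ : ResidueField ↥A, HasVal Q₁ ((redDatum H).red g) γ → HasVal Q₂ ((redDatum H).red g) γ) :
    Q₁ = Q₂ := by
  by_contra hne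
  obtain ⟨Q₀, hQ₀⟩ := exists_mem_P0 h hr hrN hA
  obtain ⟨y, hy, hy0, hy1, hy2⟩ := Fermat.Agent.S43.LG1.C1.FrobKSepGen.exists_holo_sep
    H.riemannK (S := P0 (jqModC_mem_F1C N (ResidueField ↥A))) hQ₀
    (v := Q₁) (w := Q₂)
    (fun h' => not_le.mpr
      (show Q₁.ord (jC (jqModC_mem_F1C N (ResidueField ↥A))) < 0 from h') h₁)
    (fun h' => not_le.mpr
      (show Q₂.ord (jC (jqModC_mem_F1C N (ResidueField ↥A))) < 0 from h') h₂) hne
  obtain ⟨f, hf, hreg⟩ := exists_lift_regOn h hr hrN hA H y (fun Q hQ => by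
    right
    exact (mem_holo_iff_ord).mp hy Q
      (fun h' => not_le.mpr
        (show Q.ord (jC (jqModC_mem_F1C N (ResidueField ↥A))) < 0 from h') hQ))
  have hv1 : HasVal Q₁ ((redDatum H).red f) 0 := by
    rw [hf]
    unfold HasVal
    rw [map_zero, sub_zero]
    exact (ord_pos_iff Q₁ hy0).mp hy1
  have hv2 := hsep f hreg 0 hv1
  rw [hf] at hv2
  unfold HasVal at hv2
  rw [map_zero, sub_zero] at hv2
  have := (ord_pos_iff Q₂ hy0).mpr hv2
  omega

end Fermat.Agent.S43.LG1.C1.Generic.DichLiftX1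

end
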