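/-
PROJECT R (row 37 by S43), THE GATE, block C1 = S34' (leader helper13, cut #6132), layer L0,
the `X₁` twin of main's `S34/Generic/InertiaSp` (helper24), typed by helper25:
**INERTIA AT `r` ACTS TRIVIALLY ON THE SPECIALISATION OF THE PLACES OF `ℚ̄(X₁(N; r))`.**

Dictionary of #6132 (B): `M → N`, `q → r` (prime, `r ∤ N`), `F = ℚ̄(X₀(M)) → F1Bar N`,
`E = ℚ̄(X₀(M q)) → F1pBar N r = laurentBaseChange ℚ̄ (F1p N r)`, `κ → F1C N k`,
`heckeAlphaBar / heckeBetaBar → alpha1 N r ℚ̄ / beta1 N r ℚ̄`, `S37/Equivariance/PlaceEquiv →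
S48/B/Red/Equiv1/PlaceEquiv1` (whose `placeMap_smul` takes the fibre hypothesis `FibreHyp1 N A`),
`S30/Arith/HeckeGalois → S48/B/Arith/HeckeGalois1`.

The abstract part (`resAlong_smul`, `eAlong_smul`, `partialSp`, `partialSp_congr`, …) is main's
`S34/Generic/InertiaSp`, imported, not re-typed.

For `σ` in the inertia group of `A`, `σ_E = arithmeticGalois (F1p N r) σ`, every place `P` of `E`
and every place reduction `rr` of `F1Bar N` along `A`:

* `sp_smul_inertia` : `rr (σ_F • P') = rr P'` at level `N`;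
* `sp_resAlpha1_smul`, `sp_resBeta1_smul` : `rr (res_α (σ_E • P)) = rr (res_α P)`, the same for `β`;
* `eAlong_alpha1_smul`, `eAlong_beta1_smul` : the ramification indices along `α₁`, `β₁` are invariant;
* `pair_smul`, `partialSp_one_smul`, `partialSp_two_smul`;
* `placeMap_*` : the same for `rr = placeMap H`, `H : Hyp (gaussDatumIgusa h hr hrN hA) gL gk`
  (Deuring's place map of the Gauss datum of `X₁(N)` at `r ∤ N`, `h : IgusaDeg N`).
-/
import Mathlib
import Fermat.Agent.S34.Generic.InertiaSp
import Fermat.Agent.S48.B.Arith.HeckeGalois1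
import Fermat.Agent.S48.B.Red.Equiv1.PlaceEquiv1
import Fermat.Agent.S48.B.ES.DegreeBeta1
import Fermat.Agent.S48.B.Red.Bases1

set_option autoImplicit false
set_option linter.unusedSectionVars false
set_option linter.style.haveILetI false

noncomputable section

namespace Fermat.Agent.S43.LG1.C1.Generic.InertiaSpX1

open AlgebraicCurve ModularCurve IsLocalRing
open Fermat.Agent.S34.Generic.RestrAlong Fermat.Agent.S34.Generic.InertiaSp
open Fermat.Agent.S48.B.Defs.Model Fermat.Agent.S48.B.Defs.Reduction
open Fermat.Agent.S48.B.Red.CoeffAut1 Fermat.Agent.S48.B.Red.Equiv1.Core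
open Fermat.Agent.S48.B.Red.Equiv1.PlaceEquiv1 Fermat.Agent.S48.B.ES.DegreeBeta1
open Fermat.Agent.S37.Equivariance.GaussEquiv

local notation "Kb" => AlgebraicClosure ℚ

set_option synthInstance.maxHeartbeats 400000

/-- instance shortcut (as in `S48/B/Red/Equiv1/PlaceEquiv1`) -/
noncomputable local instance algShortcut (A : ValuationSubring Kb) (N : ℕ) [NeZero N] :
    Algebra (ResidueField A) ↥(F1C N (ResidueField A)) :=
  SubalgebraClass.toAlgebra (F1C N (ResidueField A))

variable {r : ℕ} {N : ℕ} [NeZero N] {A : ValuationSubring Kb}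
variable {rr : Place Kb (F1Bar N) → Place (ResidueField A) (F1C N (ResidueField A))}

/-- **Inertia acts trivially on the specialisation of the places of `ℚ̄(X₁(N))`.** -/
theorem sp_smul_inertia (hF : FibreHyp1 N A)
    (hr : IsPlaceReductionAlongG A (residue A) (F1 N) (F1C N (ResidueField A)) rr)
    (hgen : PrincipalGeneratedByIntegralG A (residue A) (F1 N) (F1C N (ResidueField A)))
    {σ : Kb ≃ₐ[ℚ] Kb} (hσ : σ ∈ A.inertiaSubgroupIn ℚ) (P : Place Kb (F1Bar N)) :
    rr (arithmeticGalois (F1 N) σ • P) = rr P := by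
  obtain ⟨g, rfl, hg⟩ := exists_of_mem_inertiaSubgroupIn A hσ
  rw [placeMap_smul hF hr hgen g P, hg, map_one, one_smul]

variable [NeZero r]

/-- the coefficientwise Galois actions on `E` and `F` are intertwined by `α₁` -/
theorem smul_alpha1 (σ : Kb ≃ₐ[ℚ] Kb) (x : F1Bar N) :
    arithmeticGalois (F1p N r) σ • alpha1 N r Kb x =
      alpha1 N r Kb (arithmeticGalois (F1 N) σ • x) :=
  Fermat.Agent.S48.B.Arith.HeckeGalois1.intertwines_alpha1 (L := Kb) N r σ x

/-- the coefficientwise Galois actions on `E` and `F` are intertwined by `β₁` -/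
theorem smul_beta1 (σ : Kb ≃ₐ[ℚ] Kb) (x : F1Bar N) :
    arithmeticGalois (F1p N r) σ • beta1 N r Kb x =
      beta1 N r Kb (arithmeticGalois (F1 N) σ • x) :=
  Fermat.Agent.S48.B.Arith.HeckeGalois1.intertwines_beta1 (L := Kb) N r σ x

/-- `res_α (σ_E • P) = σ_F • res_α P` -/
theorem resAlpha1_smul (hα : (alpha1 N r Kb).toRingHom.IsIntegral) (σ : Kb ≃ₐ[ℚ] Kb)
    (P : Place Kb (F1pBar N r)) :
    resAlong (alpha1 N r Kb) hα (arithmeticGalois (F1p N r) σ • P) =
      arithmeticGalois (F1 N) σ • resAlong (alpha1 N r Kb) hα P :=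
  resAlong_smul (alpha1 N r Kb) hα (smul_alpha1 σ) P

/-- `res_β (σ_E • P) = σ_F • res_β P` -/
theorem resBeta1_smul (hβ : (beta1 N r Kb).toRingHom.IsIntegral) (σ : Kb ≃ₐ[ℚ] Kb)
    (P : Place Kb (F1pBar N r)) :
    resAlong (beta1 N r Kb) hβ (arithmeticGalois (F1p N r) σ • P) =
      arithmeticGalois (F1 N) σ • resAlong (beta1 N r Kb) hβ P :=
  resAlong_smul (beta1 N r Kb) hβ (smul_beta1 σ) P

/-- the ramification index along `α₁` is Galois invariant -/
theorem eAlong_alpha1_smul (σ : Kb ≃ₐ[ℚ] Kb) (P : Place Kb (F1pBar N r)) :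
    eAlong (alpha1 N r Kb) (arithmeticGalois (F1p N r) σ • P) = eAlong (alpha1 N r Kb) P :=
  eAlong_smul (alpha1 N r Kb) (smul_alpha1 σ) P

/-- the ramification index along `β₁` is Galois invariant -/
theorem eAlong_beta1_smul (σ : Kb ≃ₐ[ℚ] Kb) (P : Place Kb (F1pBar N r)) :
    eAlong (beta1 N r Kb) (arithmeticGalois (F1p N r) σ • P) = eAlong (beta1 N r Kb) P :=
  eAlong_smul (beta1 N r Kb) (smul_beta1 σ) P

section Level

variable (hF : FibreHyp1 N A)
variable (hr : IsPlaceReductionAlongG A (residue A) (F1 N) (F1C N (ResidueField A)) rr)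
variable (hgen : PrincipalGeneratedByIntegralG A (residue A) (F1 N) (F1C N (ResidueField A)))
variable (hα : (alpha1 N r Kb).toRingHom.IsIntegral)
variable (hβ : (beta1 N r Kb).toRingHom.IsIntegral)
variable {σ : Kb ≃ₐ[ℚ] Kb} (hσ : σ ∈ A.inertiaSubgroupIn ℚ)

include hF hr hgen hσ

/-- **(I2), `α`-side**: `rr (res_α (σ_E • P)) = rr (res_α P)` for `σ` in the inertia group. -/
theorem sp_resAlpha1_smul (P : Place Kb (F1pBar N r)) :
    rr (resAlong (alpha1 N r Kb) hα (arithmeticGalois (F1p N r) σ • P)) =
      rr (resAlong (alpha1 N r Kb) hα P) := by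
  rw [resAlpha1_smul hα σ P, sp_smul_inertia hF hr hgen hσ]

/-- **(I2), `β`-side**: `rr (res_β (σ_E • P)) = rr (res_β P)` for `σ` in the inertia group. -/
theorem sp_resBeta1_smul (P : Place Kb (F1pBar N r)) :
    rr (resAlong (beta1 N r Kb) hβ (arithmeticGalois (F1p N r) σ • P)) =
      rr (resAlong (beta1 N r Kb) hβ P) := by
  rw [resBeta1_smul hβ σ P, sp_smul_inertia hF hr hgen hσ]

/-- every function of the pair `(rr (res_α P), rr (res_β P))` is invariant under inertia -/
theorem pair_smul {X : Sort*}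
    (Φ : Place (ResidueField A) (F1C N (ResidueField A)) →
      Place (ResidueField A) (F1C N (ResidueField A)) → X)
    (P : Place Kb (F1pBar N r)) :
    Φ (rr (resAlong (alpha1 N r Kb) hα (arithmeticGalois (F1p N r) σ • P)))
        (rr (resAlong (beta1 N r Kb) hβ (arithmeticGalois (F1p N r) σ • P))) =
      Φ (rr (resAlong (alpha1 N r Kb) hα P)) (rr (resAlong (beta1 N r Kb) hβ P)) := by
  rw [sp_resAlpha1_smul hF hr hgen hα hσ P, sp_resBeta1_smul hF hr hgen hβ hσ P]

/-- **(I2) for the first component**: the partial specialisation map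
"`rr (res_α P) = Q` good, `rr (res_β P) = Fr Q`" is invariant under inertia. -/
theorem partialSp_one_smul
    (good : Set (Place (ResidueField A) (F1C N (ResidueField A))))
    (Fr : Place (ResidueField A) (F1C N (ResidueField A)) →
      Place (ResidueField A) (F1C N (ResidueField A)))
    (P : Place Kb (F1pBar N r)) :
    partialSp rr (resAlong (alpha1 N r Kb) hα) (resAlong (beta1 N r Kb) hβ) good Fr
        (arithmeticGalois (F1p N r) σ • P) =
      partialSp rr (resAlong (alpha1 N r Kb) hα) (resAlong (beta1 N r Kb) hβ) good Fr P :=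
  partialSp_congr rr _ _ good Fr (sp_resAlpha1_smul hF hr hgen hα hσ P)
    (sp_resBeta1_smul hF hr hgen hβ hσ P)

/-- **(I2) for the second component**: the partial specialisation map
"`rr (res_β P) = Q` good, `rr (res_α P) = Fr Q`" is invariant under inertia. -/
theorem partialSp_two_smul
    (good : Set (Place (ResidueField A) (F1C N (ResidueField A))))
    (Fr : Place (ResidueField A) (F1C N (ResidueField A)) →
      Place (ResidueField A) (F1C N (ResidueField A)))
    (P : Place Kb (F1pBar N r)) :
    partialSp rr (resAlong (beta1 N r Kb) hβ) (resAlong (alpha1 N r Kb) hα) good Fr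
        (arithmeticGalois (F1p N r) σ • P) =
      partialSp rr (resAlong (beta1 N r Kb) hβ) (resAlong (alpha1 N r Kb) hα) good Fr P :=
  partialSp_congr rr _ _ good Fr (sp_resBeta1_smul hF hr hgen hβ hσ P)
    (sp_resAlpha1_smul hF hr hgen hα hσ P)

end Level

/-! ### The instance `rr = placeMap H` (Deuring's place map of the Gauss datum at level `N`) -/

section PlaceMap

open Fermat.Agent.S48.B.Red.Bases1 Fermat.Agent.S48.B.Red.DatumG
open Fermat.Agent.S48.B.Red.Seams (IgusaDeg)
open Fermat.Agent.S37.Deuring.Core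

variable (h : IgusaDeg N) (hr : r.Prime) (hrN : ¬ r ∣ N) (hA : A.LiesOverPrime r) {gL gk : ℕ}

/-- Deuring's place map of the Gauss datum of `X₁(N)` at `r ∤ N` is a place reduction -/
theorem isPlaceReductionAlongG_placeMap
    [HasPrincipalDivisors Kb (F1Bar N)]
    [HasPrincipalDivisors (ResidueField A) (F1C N (ResidueField A))]
    [Infinite (ResidueField A)]
    (H : Hyp (gaussDatumIgusa h hr hrN hA) gL gk) :
    IsPlaceReductionAlongG A (residue A) (F1 N) (F1C N (ResidueField A)) (placeMap H) :=
  isPlaceReductionAlongG_of_hyp (hasRep_of_igusa h hr hrN hA) (gaussDatumIgusa h hr hrN hA)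
    (fun _ => Iff.rfl) (fun _ _ _ => rfl) H

include h hr hrN hA in
/-- principal divisors of `ℚ̄(X₁(N))` are generated by the divisors of integral functions -/
theorem principalGeneratedByIntegralG_X1 [HasPrincipalDivisors Kb (F1Bar N)] :
    PrincipalGeneratedByIntegralG A (residue A) (F1 N) (F1C N (ResidueField A)) :=
  principalGeneratedByIntegralG_of_hasRep (hasRep_of_igusa h hr hrN hA)

variable [HasPrincipalDivisors Kb (F1Bar N)]
variable [HasPrincipalDivisors (ResidueField A) (F1C N (ResidueField A))]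
variable [Infinite (ResidueField A)]
variable (hF : FibreHyp1 N A)
variable (H : Hyp (gaussDatumIgusa h hr hrN hA) gL gk)
variable (hα : (alpha1 N r Kb).toRingHom.IsIntegral)
variable (hβ : (beta1 N r Kb).toRingHom.IsIntegral)
variable {σ : Kb ≃ₐ[ℚ] Kb} (hσ : σ ∈ A.inertiaSubgroupIn ℚ)

include hF hσ

/-- inertia acts trivially on Deuring's place map at level `N` -/
theorem placeMap_smul_inertia (P : Place Kb (F1Bar N)) :
    placeMap H (arithmeticGalois (F1 N) σ • P) = placeMap H P :=
  sp_smul_inertia hF (isPlaceReductionAlongG_placeMap h hr hrN hA H)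
    (principalGeneratedByIntegralG_X1 h hr hrN hA) hσ P

/-- (I2), `α`-side, for Deuring's place map -/
theorem placeMap_resAlpha1_smul (P : Place Kb (F1pBar N r)) :
    placeMap H (resAlong (alpha1 N r Kb) hα (arithmeticGalois (F1p N r) σ • P)) =
      placeMap H (resAlong (alpha1 N r Kb) hα P) :=
  sp_resAlpha1_smul hF (isPlaceReductionAlongG_placeMap h hr hrN hA H)
    (principalGeneratedByIntegralG_X1 h hr hrN hA) hα hσ P

/-- (I2), `β`-side, for Deuring's place map -/
theorem placeMap_resBeta1_smul (P : Place Kb (F1pBar N r)) :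
    placeMap H (resAlong (beta1 N r Kb) hβ (arithmeticGalois (F1p N r) σ • P)) =
      placeMap H (resAlong (beta1 N r Kb) hβ P) :=
  sp_resBeta1_smul hF (isPlaceReductionAlongG_placeMap h hr hrN hA H)
    (principalGeneratedByIntegralG_X1 h hr hrN hA) hβ hσ P

/-- (I2) for the first component, for Deuring's place map -/
theorem placeMap_partialSp_one_smul
    (good : Set (Place (ResidueField A) (F1C N (ResidueField A))))
    (Fr : Place (ResidueField A) (F1C N (ResidueField A)) →
      Place (ResidueField A) (F1C N (ResidueField A)))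
    (P : Place Kb (F1pBar N r)) :
    partialSp (placeMap H) (resAlong (alpha1 N r Kb) hα) (resAlong (beta1 N r Kb) hβ) good Fr
        (arithmeticGalois (F1p N r) σ • P) =
      partialSp (placeMap H) (resAlong (alpha1 N r Kb) hα) (resAlong (beta1 N r Kb) hβ) good Fr
        P :=
  partialSp_one_smul hF (isPlaceReductionAlongG_placeMap h hr hrN hA H)
    (principalGeneratedByIntegralG_X1 h hr hrN hA) hα hβ hσ good Fr P

/-- (I2) for the second component, for Deuring's place map -/
theorem placeMap_partialSp_two_smul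
    (good : Set (Place (ResidueField A) (F1C N (ResidueField A))))
    (Fr : Place (ResidueField A) (F1C N (ResidueField A)) →
      Place (ResidueField A) (F1C N (ResidueField A)))
    (P : Place Kb (F1pBar N r)) :
    partialSp (placeMap H) (resAlong (beta1 N r Kb) hβ) (resAlong (alpha1 N r Kb) hα) good Fr
        (arithmeticGalois (F1p N r) σ • P) =
      partialSp (placeMap H) (resAlong (beta1 N r Kb) hβ) (resAlong (alpha1 N r Kb) hα) good Fr
        P :=
  partialSp_two_smul hF (isPlaceReductionAlongG_placeMap h hr hrN hA H)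
    (principalGeneratedByIntegralG_X1 h hr hrN hA) hα hβ hσ good Fr P

end PlaceMap

end Fermat.Agent.S43.LG1.C1.Generic.InertiaSpX1
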