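/-
PROJECT R (row 37 by S43), gate, C1 = S34' (leader helper13, cut #6132), layer L4 (helper25):
**the fields `r1_smul`, `r2_smul` of the `X₁`-twin of `CoreZX0Datum.X0Datum`**, for the two
components of the level `Γ₁(N) ∩ Γ₀(r)` :

* `R₁` any `SmoothRed` of `E = ℚ̄(X₁(N; r))` whose partial specialisation map is
  `rOne rr (restrAlong α₁ hα) (restrAlong β₁ hβ) Fr good`, `rr` any place reduction of `ℚ̄(X₁(N))`
  along `A`;
* `R₂ = smoothRedComap R₁ W`, `W` an automorphism of `E` with `W ∘ β₁ = α₁`, `W ∘ α₁ = β₁ ∘ δ`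
  (the Atkin--Lehner automorphism of `S48/B/Hecke/Swap/Aut.exists_atkinLehner`; hypothesis-first,
  with the binders of `Generic/SwapX1.smoothRedComap_r_eq_of_res_delta`).

`r1_smul1`, `r2_smul1` : for `σ` in the inertia group of `A` and every place `P` of `E`,
`R_i.r (σ_E • P) = R_i.r P`.  (`Generic/InertiaSpX1` + `Generic/SwapX1`; twin of
`S34/Generic/InertiaSpSwap`.)
-/
import Mathlib
import Fermat.Agent.S43.LG1.C1.Generic.InertiaSpX1
import Fermat.Agent.S43.LG1.C1.Generic.SwapX1

set_option autoImplicit false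
set_option linter.unusedSectionVars false
set_option linter.style.haveILetI false

noncomputable section

namespace Fermat.Agent.S43.LG1.C1.Generic.InertiaSpSwapX1

open AlgebraicCurve ModularCurve IsLocalRing
open Fermat.Agent.S18.CoreDefs
open Fermat.Agent.S34.NodalDefs Fermat.Agent.S34.Generic.Compat
open Fermat.Agent.S34.Generic.RestrAlong Fermat.Agent.S34.Generic.SmoothRedOfGeneric
open Fermat.Agent.S34.Generic.InertiaSp
open Fermat.Agent.S48.B.Defs.Model Fermat.Agent.S48.B.Defs.Reduction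
open Fermat.Agent.S48.B.Red.Equiv1.PlaceEquiv1 Fermat.Agent.S48.B.ES.DegreeBeta1
open Fermat.Agent.S37.Equivariance.GaussEquiv
open Fermat.Agent.S43.LG1.C1.Generic.InertiaSpX1

local notation "Kb" => AlgebraicClosure ℚ

set_option synthInstance.maxHeartbeats 400000

/-- instance shortcut (as in `S48/B/Red/Equiv1/PlaceEquiv1`) -/
noncomputable local instance algShortcut (A : ValuationSubring Kb) (N : ℕ) [NeZero N] :
    Algebra (ResidueField A) ↥(F1C N (ResidueField A)) :=
  SubalgebraClass.toAlgebra (F1C N (ResidueField A))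

variable {r : ℕ} [NeZero r] {N : ℕ} [NeZero N] {A : ValuationSubring Kb}

section Level

variable {rr : Place Kb (F1Bar N) → Place (ResidueField A) (F1C N (ResidueField A))}
variable (hF : FibreHyp1 N A)
variable (hr : IsPlaceReductionAlongG A (residue A) (F1 N) (F1C N (ResidueField A)) rr)
variable (hgen : PrincipalGeneratedByIntegralG A (residue A) (F1 N) (F1C N (ResidueField A)))
variable (hα : (alpha1 N r Kb).toRingHom.IsIntegral)
variable (hβ : (beta1 N r Kb).toRingHom.IsIntegral)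
variable (Fr : Place (ResidueField A) (F1C N (ResidueField A)) →
  Place (ResidueField A) (F1C N (ResidueField A)))
variable (good : Set (Place (ResidueField A) (F1C N (ResidueField A))))

include hF hr hgen

/-- the partial specialisation map `rOne` of the first component is invariant under inertia -/
theorem rOne_smul_inertia1 {σ : Kb ≃ₐ[ℚ] Kb} (hσ : σ ∈ A.inertiaSubgroupIn ℚ)
    (P : Place Kb (F1pBar N r)) :
    rOne rr (restrAlong (alpha1 N r Kb) hα) (restrAlong (beta1 N r Kb) hβ) Fr good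
        (arithmeticGalois (F1p N r) σ • P) =
      rOne rr (restrAlong (alpha1 N r Kb) hα) (restrAlong (beta1 N r Kb) hβ) Fr good P :=
  Fermat.Agent.S34.Generic.SwapX0.rOne_eq_of_res rr _ _ Fr good P _
    (sp_resAlpha1_smul hF hr hgen hα hσ P) (sp_resBeta1_smul hF hr hgen hβ hσ P)

/-- the same with the roles of `α₁` and `β₁` exchanged (second component; any `Fr`, in particular
the twisted `fun Q => dbar' (Fr Q)` of `Generic/SwapX1.rOne_smul_delta`) -/
theorem rOne_swap_smul_inertia1 {σ : Kb ≃ₐ[ℚ] Kb} (hσ : σ ∈ A.inertiaSubgroupIn ℚ)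
    (P : Place Kb (F1pBar N r)) :
    rOne rr (restrAlong (beta1 N r Kb) hβ) (restrAlong (alpha1 N r Kb) hα) Fr good
        (arithmeticGalois (F1p N r) σ • P) =
      rOne rr (restrAlong (beta1 N r Kb) hβ) (restrAlong (alpha1 N r Kb) hα) Fr good P :=
  Fermat.Agent.S34.Generic.SwapX0.rOne_eq_of_res rr _ _ Fr good P _
    (sp_resBeta1_smul hF hr hgen hβ hσ P) (sp_resAlpha1_smul hF hr hgen hα hσ P)

variable (R₁ : SmoothRed A (residue A) (F1pBar N r) (F1C N (ResidueField A)))
variable (hR : R₁.r =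
  rOne rr (restrAlong (alpha1 N r Kb) hα) (restrAlong (beta1 N r Kb) hβ) Fr good)

include hR

/-- **the field `r1_smul`** of the `X₁`-datum -/
theorem r1_smul1 : ∀ σ ∈ A.inertiaSubgroupIn ℚ, ∀ P : Place Kb (F1pBar N r),
    R₁.r (arithmeticGalois (F1p N r) σ • P) = R₁.r P := by
  intro σ hσ P
  rw [hR]
  exact rOne_smul_inertia1 hF hr hgen hα hβ Fr good hσ P

/-- **the field `r2_smul`** of the `X₁`-datum, for `R₂ = smoothRedComap R₁ W` -/
theorem r2_smul1 (W : (F1pBar N r) ≃ₐ[Kb] (F1pBar N r)) (δ : F1Bar N ≃ₐ[Kb] F1Bar N)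
    (hWα : ∀ x : F1Bar N, W (alpha1 N r Kb x) = beta1 N r Kb (δ x))
    (hWβ : ∀ x : F1Bar N, W (beta1 N r Kb x) = alpha1 N r Kb x)
    (dbar dbar' : Place (ResidueField A) (F1C N (ResidueField A)) →
      Place (ResidueField A) (F1C N (ResidueField A)))
    (hδ : ∀ P0 : Place Kb (F1Bar N), rr (SemilinearAut.ofAlgAut δ • P0) = dbar (rr P0))
    (hinv : ∀ Q, dbar' (dbar Q) = Q) (hinv' : ∀ Q, dbar (dbar' Q) = Q) :
    ∀ σ ∈ A.inertiaSubgroupIn ℚ, ∀ P : Place Kb (F1pBar N r),
      (smoothRedComap R₁ W).r (arithmeticGalois (F1p N r) σ • P) =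
        (smoothRedComap R₁ W).r P := by
  intro σ hσ P
  exact Fermat.Agent.S43.LG1.C1.Generic.SwapX1.smoothRedComap_r_eq_of_res_delta rr
    (alpha1 N r Kb) (beta1 N r Kb) hα hβ W δ hWα hWβ dbar dbar' hδ hinv hinv' Fr good R₁ hR P _
    (sp_resAlpha1_smul hF hr hgen hα hσ P) (sp_resBeta1_smul hF hr hgen hβ hσ P)

end Level

/-! ### The instance `rr = placeMap H` (Deuring's place map of the Gauss datum at level `N`) -/

section PlaceMap

open Fermat.Agent.S48.B.Red.Bases1 Fermat.Agent.S48.B.Red.DatumG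
open Fermat.Agent.S48.B.Red.Seams (IgusaDeg)
open Fermat.Agent.S37.Deuring.Core

variable (h : IgusaDeg N) (hr : r.Prime) (hrN : ¬ r ∣ N) (hA : A.LiesOverPrime r) {gL gk : ℕ}
variable [HasPrincipalDivisors Kb (F1Bar N)]
variable [HasPrincipalDivisors (ResidueField A) (F1C N (ResidueField A))]
variable [Infinite (ResidueField A)]
variable (hF : FibreHyp1 N A)
variable (H : Hyp (gaussDatumIgusa h hr hrN hA) gL gk)
variable (hα : (alpha1 N r Kb).toRingHom.IsIntegral)
variable (hβ : (beta1 N r Kb).toRingHom.IsIntegral)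
variable (Fr : Place (ResidueField A) (F1C N (ResidueField A)) →
  Place (ResidueField A) (F1C N (ResidueField A)))
variable (good : Set (Place (ResidueField A) (F1C N (ResidueField A))))
variable (R₁ : SmoothRed A (residue A) (F1pBar N r) (F1C N (ResidueField A)))
variable (hR : R₁.r =
  rOne (placeMap H) (restrAlong (alpha1 N r Kb) hα) (restrAlong (beta1 N r Kb) hβ) Fr good)

include hF hR

/-- `r1_smul1` for Deuring's place map -/
theorem placeMap_r1_smul1 : ∀ σ ∈ A.inertiaSubgroupIn ℚ, ∀ P : Place Kb (F1pBar N r),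
    R₁.r (arithmeticGalois (F1p N r) σ • P) = R₁.r P :=
  r1_smul1 hF (isPlaceReductionAlongG_placeMap h hr hrN hA H)
    (principalGeneratedByIntegralG_X1 h hr hrN hA) hα hβ Fr good R₁ hR

/-- `r2_smul1` for Deuring's place map -/
theorem placeMap_r2_smul1 (W : (F1pBar N r) ≃ₐ[Kb] (F1pBar N r)) (δ : F1Bar N ≃ₐ[Kb] F1Bar N)
    (hWα : ∀ x : F1Bar N, W (alpha1 N r Kb x) = beta1 N r Kb (δ x))
    (hWβ : ∀ x : F1Bar N, W (beta1 N r Kb x) = alpha1 N r Kb x)
    (dbar dbar' : Place (ResidueField A) (F1C N (ResidueField A)) →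
      Place (ResidueField A) (F1C N (ResidueField A)))
    (hδ : ∀ P0 : Place Kb (F1Bar N),
      placeMap H (SemilinearAut.ofAlgAut δ • P0) = dbar (placeMap H P0))
    (hinv : ∀ Q, dbar' (dbar Q) = Q) (hinv' : ∀ Q, dbar (dbar' Q) = Q) :
    ∀ σ ∈ A.inertiaSubgroupIn ℚ, ∀ P : Place Kb (F1pBar N r),
      (smoothRedComap R₁ W).r (arithmeticGalois (F1p N r) σ • P) =
        (smoothRedComap R₁ W).r P :=
  r2_smul1 hF (isPlaceReductionAlongG_placeMap h hr hrN hA H)
    (principalGeneratedByIntegralG_X1 h hr hrN hA) hα hβ Fr good R₁ hR W δ hWα hWβ dbar dbar' hδ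
    hinv hinv'

end PlaceMap

end Fermat.Agent.S43.LG1.C1.Generic.InertiaSpSwapX1
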